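import Fermat.Agent.S24.JFun

/-!
# S24: the analytic `j`-function at `i∞`  (helper2)

`q · j = v(q)` with `v` holomorphic on the unit disc and `v(0) = 1`; hence `1 / j = q · u(q)` near
`i∞` with `u` analytic at `0`, `u(0) = 1`.
-/

set_option autoImplicit false

namespace Fermat.Agent.S24

open UpperHalfPlane ModularForm EisensteinSeries Filter CongruenceSubgroup Function
open scoped MatrixGroups ModularForm Manifold Topology
open Fermat.Agent.S20

local notation "𝕢" => Periodic.qParam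

/-- The Euler product `∏ (1 - q^(n+1))^24`. -/
noncomputable def jfProd (q : ℂ) : ℂ := ∏' n : ℕ, (1 - q ^ (n + 1)) ^ 24

theorem jfProd_differentiableOn : DifferentiableOn ℂ jfProd (Metric.ball 0 1) :=
  differentiableOn_tprod_one_sub_pow_pow 24

theorem jfProd_zero : jfProd 0 = 1 := by
  simp [jfProd]

theorem jf_delta_eq (τ : ℍ) : ModularForm.discriminant τ = 𝕢 1 τ * jfProd (𝕢 1 τ) := by
  rw [ModularForm.discriminant_eq_q_prod]
  rfl

theorem jfProd_qParam_ne_zero (τ : ℍ) : jfProd (𝕢 1 τ) ≠ 0 := by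
  intro h
  apply ModularForm.discriminant_ne_zero τ
  rw [jf_delta_eq, h, mul_zero]

/-- Every nonzero point of the unit disc is of the form `𝕢 τ`. -/
theorem jf_exists_qParam {q : ℂ} (hq : ‖q‖ < 1) (hq0 : q ≠ 0) : ∃ τ : ℍ, 𝕢 1 τ = q := by
  have h1 := Periodic.im_invQParam_pos_of_norm_lt_one (h := 1) one_pos hq hq0
  exact ⟨⟨Periodic.invQParam 1 q, h1⟩, Periodic.qParam_right_inv one_ne_zero hq0⟩

theorem jfProd_ne_zero {q : ℂ} (hq : ‖q‖ < 1) : jfProd q ≠ 0 := by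
  rcases eq_or_ne q 0 with rfl | hq0
  · rw [jfProd_zero]; exact one_ne_zero
  · obtain ⟨τ, rfl⟩ := jf_exists_qParam hq hq0
    exact jfProd_qParam_ne_zero τ

/-- The function `v` with `q · j = v(q)`. -/
noncomputable def jfV (q : ℂ) : ℂ := cuspFunction 1 (⇑E₄) q ^ 3 / jfProd q

theorem jf_E4_per : Periodic (⇑E₄ ∘ ofComplex) ((1 : ℝ) : ℂ) :=
  SlashInvariantFormClass.periodic_comp_ofComplex E₄ one_mem_strictPeriods_SL

theorem jfV_differentiableOn : DifferentiableOn ℂ jfV (Metric.ball 0 1) := by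
  have h4 : DifferentiableOn ℂ (cuspFunction 1 (⇑E₄)) (Metric.ball 0 1) :=
    differentiableOn_cuspFunction_ball one_pos jf_E4_per (ModularFormClass.holo E₄)
      (ModularFormClass.bdd_at_infty E₄)
  exact (h4.pow 3).div jfProd_differentiableOn
    (fun q hq => jfProd_ne_zero (by simpa using hq))

theorem jfV_zero : jfV 0 = 1 := by
  have h1 : cuspFunction 1 (⇑E₄) 0 = 1 := by
    rw [cuspFunction_apply_zero one_pos
      (ModularFormClass.analyticAt_cuspFunction_zero E₄ one_pos one_mem_strictPeriods_SL)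
      jf_E4_per]
    exact tendsto_nhds_unique (tendsto_valInf E₄) (div_tendsto_E (k := 4) (by norm_num) ⟨2, rfl⟩)
  rw [jfV, h1, jfProd_zero]
  norm_num

/-- `q · j = v(q)`. -/
theorem jf_qParam_mul (τ : ℍ) : 𝕢 1 τ * jf τ = jfV (𝕢 1 τ) := by
  have hq : 𝕢 1 (τ : ℂ) ≠ 0 := Periodic.qParam_ne_zero _
  have hP := jfProd_qParam_ne_zero τ
  rw [jfV, eq_cuspFunction τ one_ne_zero jf_E4_per, jf, jf_delta_eq]
  field_simp

theorem jfV_analyticAt : AnalyticAt ℂ jfV 0 :=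
  jfV_differentiableOn.analyticAt (Metric.ball_mem_nhds 0 one_pos)

/-- `q · j` at `i∞`. -/
theorem jf_infty : ∃ v : ℂ → ℂ, DifferentiableOn ℂ v (Metric.ball 0 1) ∧ v 0 = 1 ∧
    ∀ τ : ℍ, 𝕢 1 τ * jf τ = v (𝕢 1 τ) :=
  ⟨jfV, jfV_differentiableOn, jfV_zero, jf_qParam_mul⟩

/-- `q · j → 1` at `i∞`. -/
theorem jf_tendsto_qParam_mul : Tendsto (fun τ : ℍ => 𝕢 1 τ * jf τ) atImInfty (𝓝 1) := by
  have h1 : Tendsto jfV (𝓝 0) (𝓝 (jfV 0)) := jfV_analyticAt.continuousAt.tendsto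
  rw [jfV_zero] at h1
  have h2 := h1.comp (qParam_tendsto_atImInfty (h := 1) one_pos)
  exact h2.congr fun τ => (jf_qParam_mul τ).symm

/-- `1 / j = q · u(q)` near `i∞`, with `u` analytic at `0` and `u(0) = 1`. -/
theorem jf_inv_infty : ∃ u : ℂ → ℂ, AnalyticAt ℂ u 0 ∧ u 0 = 1 ∧
    ∀ᶠ τ in atImInfty, (jf τ)⁻¹ = 𝕢 1 τ * u (𝕢 1 τ) := by
  have hv0 : jfV 0 ≠ 0 := by rw [jfV_zero]; exact one_ne_zero
  refine ⟨fun q => (jfV q)⁻¹, jfV_analyticAt.inv hv0, by simp [jfV_zero], ?_⟩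
  have hev : ∀ᶠ q in 𝓝 (0 : ℂ), jfV q ≠ 0 := jfV_analyticAt.continuousAt.eventually_ne hv0
  have := (qParam_tendsto_atImInfty (h := 1) one_pos).eventually hev
  filter_upwards [this] with τ hτ
  have hq : 𝕢 1 (τ : ℂ) ≠ 0 := Periodic.qParam_ne_zero _
  have h1 := jf_qParam_mul τ
  have hj : jf τ ≠ 0 := by
    intro h0
    rw [h0, mul_zero] at h1
    exact hτ h1.symm
  rw [← h1]
  field_simp

/-- `j` has no zero near `i∞`; in fact `|j| → ∞`. -/
theorem jf_tendsto_inv : Tendsto (fun τ : ℍ => (jf τ)⁻¹) atImInfty (𝓝 0) := by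
  have h1 := (jf_tendsto_qParam_mul.inv₀ one_ne_zero).mul
    (qParam_tendsto_atImInfty (h := 1) one_pos)
  rw [inv_one, one_mul] at h1
  refine h1.congr fun τ => ?_
  have hq : 𝕢 1 (τ : ℂ) ≠ 0 := Periodic.qParam_ne_zero _
  by_cases hj : jf τ = 0
  · simp [hj]
  · field_simp

end Fermat.Agent.S24
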