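import Mathlib

/-!
# S24 / (A2) auxiliary: Taylor series at `0` and `q`-expansions  (helper2)

* `qfT G`: the Taylor series at `0` of `G : ℂ → ℂ`, as a `PowerSeries ℂ`; it is multiplicative on
  functions analytic at `0`;
* Taylor coefficients of locally uniform limits of holomorphic functions;
* `qExpansion 1 (G ∘ 𝕢) = qfT G` for `G` holomorphic on the unit disc;
* the Euler product `∏ (1 - q^(n+1))` has Taylor series the formal product.
-/

set_option autoImplicit false

namespace Fermat.Agent.S24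

open UpperHalfPlane Filter Function
open scoped Topology Manifold

local notation "𝕢" => Periodic.qParam

/-- The Taylor series of `G` at `0`. -/
noncomputable def qfT (G : ℂ → ℂ) : PowerSeries ℂ :=
  .mk fun m => (↑m.factorial)⁻¹ * iteratedDeriv m G 0

theorem qfT_coeff (G : ℂ → ℂ) (m : ℕ) :
    (qfT G).coeff m = (↑m.factorial)⁻¹ * iteratedDeriv m G 0 := by
  simp [qfT]

theorem qfT_congr {G H : ℂ → ℂ} (h : G =ᶠ[𝓝 0] H) : qfT G = qfT H := by
  ext m
  rw [qfT_coeff, qfT_coeff, h.iteratedDeriv_eq m]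

theorem qfT_mul {G H : ℂ → ℂ} (hG : AnalyticAt ℂ G 0) (hH : AnalyticAt ℂ H 0) :
    qfT (G * H) = qfT G * qfT H := by
  ext m
  simp only [qfT_coeff, iteratedDeriv_mul hG.contDiffAt hH.contDiffAt, Finset.mul_sum,
    PowerSeries.coeff_mul, Finset.Nat.sum_antidiagonal_eq_sum_range_succ_mk, Nat.succ_eq_add_one]
  refine Finset.sum_congr rfl fun i hi ↦ ?_
  rw [Nat.cast_choose _ (by grind)]
  field_simp [Nat.factorial_ne_zero]

theorem qfT_const (c : ℂ) : qfT (fun _ => c) = PowerSeries.C c := by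
  ext m
  rw [qfT_coeff, PowerSeries.coeff_C]
  rcases m with _ | m
  · simp
  · rw [iteratedDeriv_succ']
    simp

theorem qfT_one : qfT (1 : ℂ → ℂ) = 1 := by
  have h := qfT_const 1
  rw [map_one] at h
  exact h

theorem qfT_id : qfT (fun q : ℂ => q) = PowerSeries.X := by
  ext m
  rw [qfT_coeff, PowerSeries.coeff_X]
  rcases m with _ | m
  · simp
  · rw [iteratedDeriv_succ']
    have h1 : deriv (fun q : ℂ => q) = fun _ => (1 : ℂ) := by
      funext q; simp
    rw [h1]
    rcases m with _ | m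
    · simp
    · rw [iteratedDeriv_succ']
      simp

theorem qfT_sub {G H : ℂ → ℂ} (hG : AnalyticAt ℂ G 0) (hH : AnalyticAt ℂ H 0) :
    qfT (G - H) = qfT G - qfT H := by
  ext m
  rw [qfT_coeff, map_sub, qfT_coeff, qfT_coeff, iteratedDeriv_sub hG.contDiffAt hH.contDiffAt]
  ring

theorem qfT_pow {G : ℂ → ℂ} (hG : AnalyticAt ℂ G 0) (n : ℕ) : qfT (G ^ n) = qfT G ^ n := by
  induction n with
  | zero => simpa using qfT_one
  | succ n ih => rw [pow_succ, pow_succ, qfT_mul (hG.pow n) hG, ih]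

theorem qfT_prod {ι : Type*} (s : Finset ι) (G : ι → ℂ → ℂ) (hG : ∀ i ∈ s, AnalyticAt ℂ (G i) 0) :
    qfT (∏ i ∈ s, G i) = ∏ i ∈ s, qfT (G i) := by
  classical
  induction s using Finset.induction_on with
  | empty => simpa using qfT_one
  | insert a s ha ih =>
    rw [Finset.prod_insert ha, Finset.prod_insert ha,
      qfT_mul (hG a (Finset.mem_insert_self a s))
        (Finset.analyticAt_prod _ fun i hi => hG i (Finset.mem_insert_of_mem hi)),
      ih fun i hi => hG i (Finset.mem_insert_of_mem hi)]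

/-- Derivatives of locally uniform limits of holomorphic functions. -/
theorem qf_tendsto_iteratedDeriv {ι : Type*} {φ : Filter ι} [φ.NeBot] {U : Set ℂ}
    (hU : IsOpen U) (m : ℕ) : ∀ {F : ι → ℂ → ℂ} {f : ℂ → ℂ},
    TendstoLocallyUniformlyOn F f φ U → (∀ᶠ i in φ, DifferentiableOn ℂ (F i) U) →
    TendstoLocallyUniformlyOn (fun i => iteratedDeriv m (F i)) (iteratedDeriv m f) φ U := by
  induction m with
  | zero =>
    intro F f h _
    simpa [iteratedDeriv_zero] using h
  | succ m ih =>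
    intro F f h hd
    have h1 : TendstoLocallyUniformlyOn (fun i => deriv (F i)) (deriv f) φ U := h.deriv hd hU
    have hd1 : ∀ᶠ i in φ, DifferentiableOn ℂ (deriv (F i)) U := hd.mono fun i hi => hi.deriv hU
    have := ih h1 hd1
    simpa [iteratedDeriv_succ'] using this

/-- Taylor coefficients of locally uniform limits of holomorphic functions. -/
theorem qfT_tendsto {ι : Type*} {φ : Filter ι} [φ.NeBot] {U : Set ℂ} (hU : IsOpen U)
    (h0 : (0 : ℂ) ∈ U) {F : ι → ℂ → ℂ} {f : ℂ → ℂ} (h : TendstoLocallyUniformlyOn F f φ U)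
    (hd : ∀ᶠ i in φ, DifferentiableOn ℂ (F i) U) (m : ℕ) :
    Tendsto (fun i => (qfT (F i)).coeff m) φ (𝓝 ((qfT f).coeff m)) := by
  simp only [qfT_coeff]
  exact ((qf_tendsto_iteratedDeriv hU m h hd).tendsto_at h0).const_mul _

/-- The Euler function `∏ (1 - q^(n+1))`. -/
noncomputable def qfP (q : ℂ) : ℂ := ∏' n : ℕ, (1 - q ^ (n + 1))

theorem qfP_differentiableOn : DifferentiableOn ℂ qfP (Metric.ball (0 : ℂ) 1) :=
  ModularForm.differentiableOn_tprod_one_sub_pow

theorem qfP_analyticAt : AnalyticAt ℂ qfP 0 :=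
  qfP_differentiableOn.analyticAt (Metric.ball_mem_nhds 0 one_pos)

theorem qfT_finprod (s : Finset ℕ) :
    qfT (fun q : ℂ => ∏ n ∈ s, (1 - q ^ (n + 1))) =
      ∏ n ∈ s, (1 - (PowerSeries.X : PowerSeries ℂ) ^ (n + 1)) := by
  have h1 : (fun q : ℂ => ∏ n ∈ s, (1 - q ^ (n + 1))) =
      ∏ n ∈ s, ((1 : ℂ → ℂ) - (fun q : ℂ => q) ^ (n + 1)) := by
    funext q
    simp [Finset.prod_apply]
  have hid : AnalyticAt ℂ (fun q : ℂ => q) 0 := analyticAt_id
  have hone : AnalyticAt ℂ (1 : ℂ → ℂ) 0 := analyticAt_const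
  rw [h1, qfT_prod s _ fun i _ => hone.sub (hid.pow (i + 1))]
  refine Finset.prod_congr rfl fun i _ => ?_
  rw [qfT_sub hone (hid.pow (i + 1)), qfT_one, qfT_pow hid, qfT_id]

/-- The Taylor series of the Euler function is the pentagonal series. -/
theorem qfT_qfP : qfT qfP = PowerSeries.pentagonalSeries ℂ := by
  ext m
  have h0 : TendstoLocallyUniformlyOn (fun (s : Finset ℕ) (q : ℂ) => ∏ n ∈ s, (1 - q ^ (n + 1)))
      qfP atTop (Metric.ball (0 : ℂ) 1) := by
    have := ModularForm.multipliableLocallyUniformlyOn_one_sub_pow.hasProdLocallyUniformlyOn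
    rw [hasProdLocallyUniformlyOn_iff_tendstoLocallyUniformlyOn] at this
    exact this
  have h1 := qfT_tendsto Metric.isOpen_ball (Metric.mem_ball_self one_pos) h0
    (.of_forall fun s => by fun_prop) m
  have h2 : ∀ᶠ s : Finset ℕ in atTop,
      (qfT (fun q : ℂ => ∏ n ∈ s, (1 - q ^ (n + 1)))).coeff m =
        (PowerSeries.pentagonalSeries ℂ).coeff m := by
    filter_upwards [PowerSeries.coeff_prod_one_sub_X_pow_eventually_eq ℂ m] with s hs
    rw [qfT_finprod, hs]
  exact tendsto_nhds_unique h1 (tendsto_nhds_of_eventually_eq h2)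

/-- The pentagonal series is compatible with ring homomorphisms. -/
theorem qf_map_pentagonalSeries {R S : Type*} [CommRing R] [CommRing S] (f : R →+* S) :
    PowerSeries.map f (PowerSeries.pentagonalSeries R) = PowerSeries.pentagonalSeries S := by
  ext m
  obtain ⟨s, hs1, hs2⟩ := ((PowerSeries.coeff_prod_one_sub_X_pow_eventually_eq R m).and
    (PowerSeries.coeff_prod_one_sub_X_pow_eventually_eq S m)).exists
  rw [← hs2, PowerSeries.coeff_map, ← hs1, ← PowerSeries.coeff_map, map_prod]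
  simp

/-- The Taylor series of `q ∏ (1 - q^(n+1))^24`. -/
theorem qfT_delta :
    qfT (fun q : ℂ => q * ∏' i : ℕ, (1 - q ^ (i + 1)) ^ 24) =
      PowerSeries.X * PowerSeries.pentagonalSeries ℂ ^ 24 := by
  have h1 : (fun q : ℂ => q * ∏' i : ℕ, (1 - q ^ (i + 1)) ^ 24) =ᶠ[𝓝 0]
      ((fun q : ℂ => q) * qfP ^ 24) := by
    filter_upwards [Metric.ball_mem_nhds (0 : ℂ) one_pos] with q hq
    have hq' : ‖q‖ < 1 := by simpa using hq
    simp only [Pi.mul_apply, Pi.pow_apply, qfP]
    rw [(ModularForm.multipliable_one_sub_pow hq').tprod_pow 24]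
  have hid : AnalyticAt ℂ (fun q : ℂ => q) 0 := analyticAt_id
  rw [qfT_congr h1, qfT_mul hid (qfP_analyticAt.pow 24), qfT_id, qfT_pow qfP_analyticAt,
    qfT_qfP]

/-- `qExpansion` is the Taylor series of the cusp function. -/
theorem qf_qExpansion_eq (f : ℍ → ℂ) : UpperHalfPlane.qExpansion 1 f =
    qfT (UpperHalfPlane.cuspFunction 1 f) := by
  ext m
  rw [qfT_coeff, UpperHalfPlane.qExpansion_coeff]

end Fermat.Agent.S24
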