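import Fermat.Agent.S24.AnDefs
import Fermat.Agent.S24.QExpAux

/-!
# S24 / (A2) the formal `q`-series of the prelude are the `q`-expansions of `E₄` and `Δ`
(OWNER: see table `s24_modules`)

* `qExpansion 1 E₄ = 1 + 240 ∑ σ₃(n) qⁿ` (Mathlib `EisensteinSeries.E_qExpansion_coeff`,
  `bernoulli 4 = -1/30`);
* `qExpansion 1 Δ = q ∏ (1 - qⁿ)²⁴` as a formal product: Mathlib has
  `ModularForm.discriminant_eq_q_prod` (analytic product); the Taylor coefficients of a locally
  uniform limit of holomorphic functions are the limits of the Taylor coefficients, and the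
  coefficients of the partial products stabilise
  (`PowerSeries.WithPiTopology.multipliable_one_sub_X_pow`);
* hence `j · Δ = E₄³` for the `q`-series.

Statements FROZEN; extra lemmas welcome (prefix `qf_`).
-/

set_option autoImplicit false

namespace Fermat.Agent.S24

open AlgebraicCurve HahnSeries IntermediateField UpperHalfPlane ModularForm EisensteinSeries
open Fermat.Agent.S20
open scoped MatrixGroups ModularForm

/-- The formal Euler product of the prelude is the pentagonal series. -/
theorem qf_etaProd : ModularCurve.etaProd = PowerSeries.pentagonalSeries ℤ := by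
  unfold ModularCurve.etaProd
  exact PowerSeries.WithPiTopology.tprod_one_sub_X_pow ℤ

theorem qf_map_dedekindEtaUnit :
    PowerSeries.map (Int.castRingHom ℂ) ModularCurve.dedekindEtaUnit =
      PowerSeries.pentagonalSeries ℂ ^ 24 := by
  rw [ModularCurve.dedekindEtaUnit, map_pow, qf_etaProd, qf_map_pentagonalSeries]

theorem qf_order_ofPowerSeries {U : PowerSeries ℂ} (hU : PowerSeries.constantCoeff U = 1) :
    (HahnSeries.ofPowerSeries ℤ ℂ U).order = 0 ∧ HahnSeries.ofPowerSeries ℤ ℂ U ≠ 0 := by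
  have hcoeff0 : (HahnSeries.ofPowerSeries ℤ ℂ U).coeff (0 : ℤ) = 1 := by
    rw [show (0 : ℤ) = ((0 : ℕ) : ℤ) from rfl, HahnSeries.ofPowerSeries_apply_coeff,
      PowerSeries.coeff_zero_eq_constantCoeff, hU]
  have hne0 : (HahnSeries.ofPowerSeries ℤ ℂ U).coeff (0 : ℤ) ≠ 0 := by
    rw [hcoeff0]; exact one_ne_zero
  have hne : HahnSeries.ofPowerSeries ℤ ℂ U ≠ 0 := HahnSeries.ne_zero_of_coeff_ne_zero hne0
  refine ⟨le_antisymm (HahnSeries.order_le_of_coeff_ne_zero hne0) ?_, hne⟩
  by_contra hlt
  rw [not_le] at hlt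
  exact hne (HahnSeries.coeff_order_eq_zero.mp
    (ModularCurve.ofPowerSeries_coeff_of_neg U hlt))

theorem qExpansion_E4 :
    qExpansion 1 E₄ = PowerSeries.map (Int.castRingHom ℂ) ModularCurve.eisenstein4 := by
  ext m
  rw [E_qExpansion_coeff (by norm_num) ⟨2, rfl⟩ m, PowerSeries.coeff_map,
    ModularCurve.eisenstein4, PowerSeries.coeff_mk]
  split_ifs with h
  · simp
  · have hb : bernoulli 4 = -1 / 30 := by decide +kernel
    rw [hb]
    simp only [ArithmeticFunction.sigma_apply]
    push_cast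
    norm_num

theorem qExpansion_discriminant :
    qExpansion 1 ModularForm.discriminant =
      PowerSeries.X * PowerSeries.map (Int.castRingHom ℂ) ModularCurve.dedekindEtaUnit := by
  have h : cuspFunction 1 ModularForm.discriminant =ᶠ[nhds 0]
      fun q : ℂ => q * ∏' i : ℕ, (1 - q ^ (i + 1)) ^ 24 :=
    discriminant_cuspFunction_eqOn.eventuallyEq_of_mem (Metric.ball_mem_nhds 0 one_pos)
  rw [qf_qExpansion_eq, qfT_congr h, qfT_delta, qf_map_dedekindEtaUnit]

theorem jq_mul_qL_discriminant :
    ModularCurve.jqModC ℂ * qL ModularForm.discriminant = qL E₄ ^ 3 := by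
  have h1 : PowerSeries.map (Int.castRingHom ℂ) ModularCurve.jNum *
      PowerSeries.map (Int.castRingHom ℂ) ModularCurve.dedekindEtaUnit =
      PowerSeries.map (Int.castRingHom ℂ) ModularCurve.eisenstein4 ^ 3 := by
    rw [← map_mul, ← map_pow, ModularCurve.jNum, mul_assoc,
      mul_comm ModularCurve.dedekindEtaUnitInv, ModularCurve.dedekindEtaUnit_mul_inv, mul_one]
  have h2 : HahnSeries.single (-1 : ℤ) (1 : ℂ) * HahnSeries.single (1 : ℤ) (1 : ℂ) = 1 := by
    rw [HahnSeries.single_mul_single]
    simp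
  unfold qL ModularCurve.jqModC
  rw [qExpansion_discriminant, qExpansion_E4, map_mul, HahnSeries.ofPowerSeries_X, ← map_pow,
    ← h1, map_mul]
  calc HahnSeries.single (-1 : ℤ) (1 : ℂ) *
        (ofPowerSeries ℤ ℂ) (PowerSeries.map (Int.castRingHom ℂ) ModularCurve.jNum) *
        (HahnSeries.single (1 : ℤ) (1 : ℂ) *
          (ofPowerSeries ℤ ℂ) (PowerSeries.map (Int.castRingHom ℂ) ModularCurve.dedekindEtaUnit))
      = (HahnSeries.single (-1 : ℤ) (1 : ℂ) * HahnSeries.single (1 : ℤ) (1 : ℂ)) *
        ((ofPowerSeries ℤ ℂ) (PowerSeries.map (Int.castRingHom ℂ) ModularCurve.jNum) *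
          (ofPowerSeries ℤ ℂ)
            (PowerSeries.map (Int.castRingHom ℂ) ModularCurve.dedekindEtaUnit)) := by ring
    _ = _ := by rw [h2, one_mul]

theorem qf_qL_E4 : (qL E₄).order = 0 ∧ qL E₄ ≠ 0 := by
  unfold qL
  rw [qExpansion_E4]
  refine qf_order_ofPowerSeries ?_
  rw [← PowerSeries.coeff_zero_eq_constantCoeff, PowerSeries.coeff_map,
    PowerSeries.coeff_zero_eq_constantCoeff, ModularCurve.constantCoeff_eisenstein4]
  simp

theorem qf_qL_discriminant : (qL ModularForm.discriminant).order = 1 ∧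
    qL ModularForm.discriminant ≠ 0 := by
  have hU : PowerSeries.constantCoeff
      (PowerSeries.map (Int.castRingHom ℂ) ModularCurve.dedekindEtaUnit) = 1 := by
    rw [← PowerSeries.coeff_zero_eq_constantCoeff, PowerSeries.coeff_map,
      PowerSeries.coeff_zero_eq_constantCoeff, ModularCurve.constantCoeff_dedekindEtaUnit]
    simp
  obtain ⟨h1, h2⟩ := qf_order_ofPowerSeries hU
  have h3 : HahnSeries.single (1 : ℤ) (1 : ℂ) ≠ 0 := HahnSeries.single_ne_zero one_ne_zero
  unfold qL
  rw [qExpansion_discriminant, map_mul, HahnSeries.ofPowerSeries_X]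
  refine ⟨?_, mul_ne_zero h3 h2⟩
  rw [HahnSeries.order_mul h3 h2, h1, HahnSeries.order_single one_ne_zero, add_zero]

theorem qL_discriminant_ne_zero : qL ModularForm.discriminant ≠ 0 := by
  exact qf_qL_discriminant.2

theorem order_qL_discriminant : (qL ModularForm.discriminant).order = 1 := by
  exact qf_qL_discriminant.1

theorem order_qL_E4 : (qL E₄).order = 0 := by
  exact qf_qL_E4.1

theorem qL_E4_ne_zero : qL E₄ ≠ 0 := by
  exact qf_qL_E4.2

end Fermat.Agent.S24
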