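import Fermat.Agent.S24.AnDefs
import Fermat.Agent.S20.Basic
import Fermat.Agent.S20.RankGeAux
import Fermat.Prelude.Thm_CongruenceSubgroup_one_mem_strictPeriods_Gamma0

/-!
# S24 / (A3) raising the level: `z ↦ f(d z)`  (OWNER: helper3; proofs complete)

For `f ∈ M_k(SL₂(ℤ))` and `d ∣ N` the function `z ↦ f(d z)` is a modular form of level `Γ₀(N)`
(`f(d z) = d^{-k/2} (f ∣[k] diag(d, 1))(z)`, and `diag(d,1) Γ₀(N) diag(d,1)⁻¹ ⊆ SL₂(ℤ)`;
boundedness at every cusp because `diag(d,1) γ = γ' · (upper triangular)` for `γ ∈ SL₂(ℤ)`),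
and its `q`-expansion is `∑ aₙ q^{dn}`.

Statements FROZEN; extra lemmas welcome (prefix `lr_`).
-/

set_option autoImplicit false

namespace Fermat.Agent.S24

open AlgebraicCurve HahnSeries IntermediateField UpperHalfPlane ModularForm
open Fermat.Agent.S20
open scoped MatrixGroups ModularForm Pointwise

/-- `Γ₀(N) ⊆ diag(d,1)⁻¹ SL₂(ℤ) diag(d,1)` for `d ∣ N`. -/
lemma lr_le (N d : ℕ) [NeZero d] (hd : d ∣ N) :
    G0 N ≤ ConjAct.toConjAct (rgeAlpha d)⁻¹ • 𝒮ℒ := by
  refine le_trans ?_ (rge_le d)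
  rintro _ ⟨γ, hγ, rfl⟩
  refine ⟨γ, ?_, rfl⟩
  rw [SetLike.mem_coe, CongruenceSubgroup.Gamma0_mem] at hγ ⊢
  rw [ZMod.intCast_zmod_eq_zero_iff_dvd] at hγ ⊢
  exact (Int.natCast_dvd_natCast.mpr hd).trans hγ

/-- `f ∣[k] diag(d, 1)` as a form of level `N`, `d ∣ N`. -/
noncomputable def lrLift (N d : ℕ) [NeZero d] (hd : d ∣ N) {k : ℤ} (f : ModularForm 𝒮ℒ k) :
    ModularForm (G0 N) k where
  toFun := (f : ℍ → ℂ) ∣[k] rgeAlpha d
  slash_action_eq' γ hγ :=
    (ModularForm.translate f (rgeAlpha d)).slash_action_eq' γ (lr_le N d hd hγ)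
  holo' := (ModularForm.translate f (rgeAlpha d)).holo'
  bdd_at_cusps' hc :=
    (ModularForm.translate f (rgeAlpha d)).bdd_at_cusps' (hc.mono (lr_le N d hd))

lemma lr_alpha_smul (d : ℕ) [NeZero d] (z : ℍ) : rgeAlpha d • z = dmul d z := by
  apply UpperHalfPlane.ext
  rw [coe_smul_of_det_pos (rgeAlpha_det_pos d), num, denom, coe_dmul]
  have e00 : (rgeAlpha d) 0 0 = (d : ℝ) := rfl
  have e01 : (rgeAlpha d) 0 1 = 0 := rfl
  have e10 : (rgeAlpha d) 1 0 = 0 := rfl
  have e11 : (rgeAlpha d) 1 1 = 1 := rfl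
  rw [e00, e01, e10, e11]
  simp

lemma lr_alpha_denom (d : ℕ) [NeZero d] (z : ℍ) : denom (rgeAlpha d) z = 1 := by
  rw [denom]
  have e10 : (rgeAlpha d) 1 0 = 0 := rfl
  have e11 : (rgeAlpha d) 1 1 = 1 := rfl
  rw [e10, e11]
  simp

lemma lrLift_apply (N d : ℕ) [NeZero d] (hd : d ∣ N) {k : ℤ} (f : ModularForm 𝒮ℒ k) (z : ℍ) :
    lrLift N d hd f z = f (dmul d z) * (d : ℂ) ^ (k - 1) := by
  show ((f : ℍ → ℂ) ∣[k] rgeAlpha d) z = _
  rw [ModularForm.slash_apply, lr_alpha_smul, lr_alpha_denom, one_zpow, mul_one]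
  have h1 : σ (rgeAlpha d) = ContinuousAlgEquiv.refl ℝ ℂ := by
    rw [σ, if_pos (rgeAlpha_det_pos d)]
  have h2 : ((|(rgeAlpha d).det.val| : ℝ) : ℂ) = (d : ℂ) := by
    rw [abs_of_pos (rgeAlpha_det_pos d), rgeAlpha_det d]
    simp
  rw [h1, h2]
  rfl

lemma lr_qParam_dmul (d : ℕ) [NeZero d] (z : ℍ) :
    Function.Periodic.qParam 1 (dmul d z) = Function.Periodic.qParam 1 z ^ d := by
  simp only [Function.Periodic.qParam, coe_dmul]
  rw [← Complex.exp_nat_mul]
  congr 1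
  ring


/-- The coefficients of `f(d z)`. -/
lemma lr_hasSum (d : ℕ) [NeZero d] {k : ℤ} (f : ModularForm 𝒮ℒ k) (τ : ℍ) :
    HasSum (fun m : ℕ => (if d ∣ m then (qExpansion 1 f).coeff (m / d) else 0)
      • Function.Periodic.qParam 1 τ ^ m) (f (dmul d τ)) := by
  have h := ModularForm.hasSum_qExpansion f one_pos
    one_mem_strictPeriods_SL (dmul d τ)
  rw [lr_qParam_dmul] at h
  have hd : d ≠ 0 := NeZero.ne d
  have hinj : Function.Injective fun n : ℕ => d * n := fun a b hab =>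
    Nat.eq_of_mul_eq_mul_left (Nat.pos_of_ne_zero hd) hab
  refine (Function.Injective.hasSum_iff hinj ?_).mp ?_
  · intro m hm
    have : ¬ d ∣ m := fun ⟨n, hn⟩ => hm ⟨n, hn.symm⟩
    simp [this]
  · convert h using 1
    funext n
    simp only [Function.comp_apply, dvd_mul_right, if_true, Nat.mul_div_cancel_left _
      (Nat.pos_of_ne_zero hd), smul_eq_mul, pow_mul]

lemma lr_qL_coeff_natCast (f : ℍ → ℂ) (n : ℕ) : (qL f).coeff (n : ℤ) = (qExpansion 1 f).coeff n := by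
  rw [qL, HahnSeries.ofPowerSeries_apply_coeff]

lemma lr_qL_coeff_neg (f : ℍ → ℂ) {k : ℤ} (hk : k < 0) : (qL f).coeff k = 0 :=
  ModularCurve.ofPowerSeries_coeff_of_neg _ hk

lemma lr_tr_eq_of_levelOne (N : ℕ) [NeZero N] {k : ℤ} (f : ModularForm 𝒮ℒ k)
    (g : ModularForm (G0 N) k) (hg : ∀ z : ℍ, g z = f z) (x : Q N) (z : ℍ) :
    tr g x z = f z := by
  induction x using QuotientGroup.induction_on with
  | H γ =>
    rw [tr_mk]
    have : (g : ℍ → ℂ) = f := funext hg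
    rw [this, basic_inv_one f γ⁻¹]

theorem exists_levelRaise (N d : ℕ) [NeZero N] [NeZero d] (hd : d ∣ N) {k : ℤ}
    (f : ModularForm 𝒮ℒ k) :
    ∃ g : ModularForm (G0 N) k,
      (∀ z : ℍ, g z = f (dmul d z)) ∧ qL g = ModularCurve.qExpand ℂ d (qL f) := by
  have hdne : (d : ℂ) ≠ 0 := by exact_mod_cast NeZero.ne d
  have hdk : (d : ℂ) ^ (k - 1) ≠ 0 := zpow_ne_zero _ hdne
  set g : ModularForm (G0 N) k := ((d : ℂ) ^ (k - 1))⁻¹ • lrLift N d hd f with hg
  have hgz : ∀ z : ℍ, g z = f (dmul d z) := by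
    intro z
    show ((d : ℂ) ^ (k - 1))⁻¹ • (lrLift N d hd f z) = _
    rw [lrLift_apply, smul_eq_mul]
    field_simp
  refine ⟨g, hgz, ?_⟩
  have hcoeff : ∀ m : ℕ, (qExpansion 1 g).coeff m
      = if d ∣ m then (qExpansion 1 f).coeff (m / d) else 0 := by
    intro m
    refine (ModularFormClass.qExpansion_coeff_unique (f := g)
      (c := fun m => if d ∣ m then (qExpansion 1 f).coeff (m / d) else 0) one_pos
      (CongruenceSubgroup.one_mem_strictPeriods_Gamma0 N) (fun τ => ?_) m).symm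
    rw [hgz]
    exact lr_hasSum d f τ
  ext j
  rcases lt_or_ge j 0 with hj | hj
  · rw [lr_qL_coeff_neg _ hj]
    by_cases hdj : (d : ℤ) ∣ j
    · obtain ⟨m, rfl⟩ := hdj
      rw [ModularCurve.qExpand_coeff_mul]
      have hm : m < 0 := by
        have hdpos : (0 : ℤ) < d := by exact_mod_cast Nat.pos_of_ne_zero (NeZero.ne d)
        by_contra hm
        have := mul_nonneg hdpos.le (not_lt.mp hm)
        omega
      rw [lr_qL_coeff_neg _ hm]
    · rw [ModularCurve.qExpand_coeff_of_not_dvd d _ hdj]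
  · obtain ⟨n, rfl⟩ := Int.eq_ofNat_of_zero_le hj
    rw [lr_qL_coeff_natCast, hcoeff]
    by_cases hdn : d ∣ n
    · rw [if_pos hdn]
      obtain ⟨m, rfl⟩ := hdn
      rw [Nat.mul_div_cancel_left _ (Nat.pos_of_ne_zero (NeZero.ne d))]
      push_cast
      rw [ModularCurve.qExpand_coeff_mul, lr_qL_coeff_natCast]
    · rw [if_neg hdn, ModularCurve.qExpand_coeff_of_not_dvd d _
        (fun h => hdn (Int.natCast_dvd_natCast.mp h))]

/-- Restriction of a level-one form to `Γ₀(N)`; its translates are the form itself. -/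
theorem exists_res_tr (N : ℕ) [NeZero N] {k : ℤ} (f : ModularForm 𝒮ℒ k) :
    ∃ g : ModularForm (G0 N) k, (∀ z : ℍ, g z = f z) ∧ ∀ (x : Q N) (z : ℍ), tr g x z = f z := by
  obtain ⟨g, hg⟩ := exists_res (N := N) f
  have hg' : ∀ z : ℍ, g z = f z := fun z => by rw [hg]
  exact ⟨g, hg', lr_tr_eq_of_levelOne N f g hg'⟩

/-- A form which is pointwise a level-one form has constant translates. -/
theorem tr_eq_of_levelOne (N : ℕ) [NeZero N] {k : ℤ} (f : ModularForm 𝒮ℒ k)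
    (g : ModularForm (G0 N) k) (hg : ∀ z : ℍ, g z = f z) (x : Q N) (z : ℍ) :
    tr g x z = f z := by
  exact lr_tr_eq_of_levelOne N f g hg x z

/-- Translates of a nonzero form are nonzero. -/
theorem tr_ne_zero (N : ℕ) {k : ℤ} (g : ModularForm (G0 N) k) (hg : g ≠ 0) (x : Q N) :
    tr g x ≠ 0 := by
  induction x using QuotientGroup.induction_on with
  | H γ =>
    rw [tr_mk]
    intro h
    rw [SlashAction.slash_eq_zero_iff] at h
    exact hg (DFunLike.coe_injective h)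

/-- Translates are additive and multiplicative. -/
theorem tr_add (N : ℕ) {k : ℤ} (g h : ModularForm (G0 N) k) (x : Q N) :
    tr (g + h) x = tr g x + tr h x := by
  induction x using QuotientGroup.induction_on with
  | H γ =>
    rw [tr_mk, tr_mk, tr_mk]
    show ((g : ℍ → ℂ) + h) ∣[k] γ⁻¹ = _
    rw [SlashAction.add_slash]

theorem tr_mul (N : ℕ) {k l : ℤ} (g : ModularForm (G0 N) k) (h : ModularForm (G0 N) l)
    (x : Q N) : tr (g.mul h) x = tr g x * tr h x := by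
  induction x using QuotientGroup.induction_on with
  | H γ =>
    rw [tr_mk, tr_mk, tr_mk]
    show ((g : ℍ → ℂ) * h) ∣[k + l] γ⁻¹ = _
    rw [ModularForm.mul_slash_SL2]

theorem tr_of_eq (N : ℕ) {k l : ℤ} (g : ModularForm (G0 N) k) (h : ModularForm (G0 N) l)
    (hkl : k = l) (hgh : ∀ z, g z = h z) (x : Q N) : tr g x = tr h x := by
  subst hkl
  have : g = h := ModularForm.ext hgh
  rw [this]

end Fermat.Agent.S24
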