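import Fermat.Agent.S24.Defs
import Fermat.Agent.S20.Defs
import Fermat.Prelude.Def_ModularCurve_JqCoeff

/-!
# S24: definitions for the analytic part  (OWNER: helper4)

* `Kb = ℚ̄`, `iota : Kb →+* ℂ` a fixed embedding;
* `FN N` the function field `ℚ̄(j(q^d) : d ∣ N) ⊆ ℚ̄⸨q⸩`, `jd N d` its generators, `jF N = jd N 1`;
* `toL : FN N →+* ℂ⸨q⸩` the (injective) coefficientwise embedding;
* `IsRep f g₁ g₂`: the element `f` of the function field is the quotient `g₁ / g₂` of two modular
  forms of level `Γ₀(N)` of the same weight (comparison of `q`-expansions at `i∞`);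
* `dmul d z = d · z` on the upper half plane.

We use the conventions of S20 (`G0 N`, `Q N = SL₂(ℤ) ⧸ Γ₀(N)`, translates `tr f q`).

FROZEN.  Do not change (tell helper4 if something is wrong).
-/

set_option autoImplicit false

namespace Fermat.Agent.S24

open AlgebraicCurve HahnSeries IntermediateField UpperHalfPlane
open Fermat.Agent.S20
open scoped MatrixGroups ModularForm

/-- `ℚ̄`. -/
abbrev Kb : Type := AlgebraicClosure ℚ

/-- A fixed embedding `ℚ̄ → ℂ`. -/
noncomputable def iota : Kb →+* ℂ :=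
  haveI : Algebra.IsAlgebraic ℚ (AlgebraicClosure ℚ) := AlgebraicClosure.isAlgebraic ℚ
  (IsAlgClosed.lift : AlgebraicClosure ℚ →ₐ[ℚ] ℂ).toRingHom

/-- The modular function field of level `N` over `ℚ̄`. -/
abbrev FN (N : ℕ) : Type := ↥(ModularCurve.modularFunctionFieldBar N)

/-- The generator `j(q^d)` of the function field. -/
noncomputable def jd (N d : ℕ) [NeZero d] (hd : d ∣ N) : FN N :=
  ⟨ModularCurve.coeffEmb Kb (ModularCurve.qExpand ℚ d ModularCurve.jq),
    ModularCurve.coeffEmb_mem_laurentBaseChange Kb (ModularCurve.jqd_mem_full N hd)⟩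

/-- The function `j`. -/
noncomputable def jF (N : ℕ) : FN N := jd N 1 (one_dvd N)

/-- The coefficientwise embedding of the function field into `ℂ⸨q⸩`. -/
noncomputable def toL (N : ℕ) : FN N →+* LaurentSeries ℂ :=
  (ModularCurve.coeffMap iota).comp (algebraMap (FN N) (LaurentSeries Kb))

/-- `q`-expansion at `i∞` (period `1`) as a Laurent series. -/
noncomputable def qL (f : ℍ → ℂ) : LaurentSeries ℂ :=
  HahnSeries.ofPowerSeries ℤ ℂ (qExpansion 1 f)

/-- `f = g₁ / g₂`. -/
def IsRep (N : ℕ) (f : FN N) {k : ℤ} (g₁ g₂ : ModularForm (G0 N) k) : Prop :=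
  g₂ ≠ 0 ∧ toL N f * qL g₂ = qL g₁

/-- Multiplication by `d` on the upper half plane. -/
noncomputable def dmul (d : ℕ) [NeZero d] (z : ℍ) : ℍ :=
  ⟨(d : ℂ) * z, by
    have hd : (0 : ℝ) < d := by exact_mod_cast Nat.pos_of_ne_zero (NeZero.ne d)
    simpa using mul_pos hd z.im_pos⟩

@[simp] lemma coe_dmul (d : ℕ) [NeZero d] (z : ℍ) : (dmul d z : ℂ) = (d : ℂ) * z := rfl

end Fermat.Agent.S24
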