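import Fermat.Agent.S20.Div

/-!
# S24: the analytic `j`-function  (helper2)

`jf τ = E₄(τ)³ / Δ(τ)` on the upper half-plane: holomorphy, `SL₂(ℤ)`-invariance, injectivity
modulo `SL₂(ℤ)`, surjectivity, the identity `j - 1728 = E₆² / Δ`, trivial stabilisers away from
the elliptic points.
-/

set_option autoImplicit false

namespace Fermat.Agent.S24

open UpperHalfPlane ModularForm EisensteinSeries Filter CongruenceSubgroup
open scoped MatrixGroups ModularForm Manifold Topology
open Fermat.Agent.S20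

/-- The analytic `j`-function `E₄³ / Δ`. -/
noncomputable def jf (τ : ℍ) : ℂ := E₄ τ ^ 3 / ModularForm.discriminant τ

theorem jf_apply (τ : ℍ) : jf τ = E₄ τ ^ 3 / ModularForm.discriminant τ := rfl

theorem jf_delta_mdiff : MDiff ModularForm.discriminant := by
  rw [← CuspForm.coe_discriminant]
  exact ModularFormClass.holo CuspForm.discriminant

theorem jf_delta_slash (γ : SL(2, ℤ)) :
    ModularForm.discriminant ∣[(12 : ℤ)] γ = ModularForm.discriminant := by
  rw [← CuspForm.coe_discriminant, ModularForm.SL_slash]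
  exact SlashInvariantFormClass.slash_action_eq CuspForm.discriminant _ ⟨γ, rfl⟩

theorem jf_delta_smul (γ : SL(2, ℤ)) (z : ℍ) :
    ModularForm.discriminant (γ • z) = denom γ z ^ (12 : ℤ) * ModularForm.discriminant z := by
  have h := congrFun (jf_delta_slash γ) z
  rw [ModularForm.SL_slash_apply] at h
  have hd : denom γ z ≠ 0 := denom_ne_zero _ z
  rw [← h, mul_comm, mul_assoc, ← zpow_add₀ hd]
  simp

theorem jf_mdiff : MDiff jf := by
  have h4 : MDiff (⇑E₄) := ModularFormClass.holo E₄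
  have := div_mdifferentiable_divFun (fun z => E₄ z ^ 3) ModularForm.discriminant
    (h4.pow 3) jf_delta_mdiff
    (fun z hz => absurd hz (ModularForm.discriminant_ne_zero z))
    (fun z hz => absurd hz (ModularForm.discriminant_ne_zero z))
  have e : divFun (fun z => E₄ z ^ 3) ModularForm.discriminant = jf := by
    funext z
    simp only [divFun, if_neg (ModularForm.discriminant_ne_zero z), jf]
  rwa [e] at this

/-- `j` is `SL₂(ℤ)`-invariant. -/
theorem jf_smul (γ : SL(2, ℤ)) (τ : ℍ) : jf (γ • τ) = jf τ := by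
  have hd : denom γ τ ≠ 0 := denom_ne_zero _ τ
  rw [jf, jf, div_levelOne_smul E₄ γ τ, jf_delta_smul]
  have h12 : denom γ τ ^ (12 : ℤ) ≠ 0 := zpow_ne_zero _ hd
  have hΔ := ModularForm.discriminant_ne_zero τ
  rw [div_eq_div_iff (mul_ne_zero h12 hΔ) hΔ]
  have : (denom γ τ ^ (4 : ℤ)) ^ 3 = denom γ τ ^ (12 : ℤ) := by
    rw [← zpow_natCast, ← zpow_mul]; norm_num
  rw [mul_pow, this]
  ring

/-- `j` is injective modulo `SL₂(ℤ)`. -/
theorem jf_eq_iff (τ τ' : ℍ) : jf τ = jf τ' ↔ ∃ γ : SL(2, ℤ), γ • τ = τ' := by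
  constructor
  · intro h
    apply jinj_main
    rw [jf, jf, div_eq_div_iff (ModularForm.discriminant_ne_zero τ)
      (ModularForm.discriminant_ne_zero τ')] at h
    exact h
  · rintro ⟨γ, rfl⟩
    exact (jf_smul γ τ).symm

theorem jf_sub_1728 (τ : ℍ) : jf τ - 1728 = E₆ τ ^ 2 / ModularForm.discriminant τ := by
  have hΔ := ModularForm.discriminant_ne_zero τ
  have h := ModularForm.discriminant_eq_E₄_cube_sub_E₆_sq τ
  rw [jf, div_sub' hΔ, div_left_inj' hΔ]
  rw [h]
  ring

theorem jf_eq_zero_iff (τ : ℍ) : jf τ = 0 ↔ E₄ τ = 0 := by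
  rw [jf, div_eq_zero_iff]
  constructor
  · rintro (h | h)
    · exact pow_eq_zero_iff (by norm_num) |>.mp h
    · exact absurd h (ModularForm.discriminant_ne_zero τ)
  · intro h
    left
    rw [h]; norm_num

theorem jf_eq_1728_iff (τ : ℍ) : jf τ = 1728 ↔ E₆ τ = 0 := by
  rw [← sub_eq_zero, jf_sub_1728, div_eq_zero_iff]
  constructor
  · rintro (h | h)
    · exact pow_eq_zero_iff (by norm_num) |>.mp h
    · exact absurd h (ModularForm.discriminant_ne_zero τ)
  · intro h
    left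
    rw [h]; norm_num

theorem jf_rho : jf rho = 0 := (jf_eq_zero_iff _).mpr E4_rho

theorem jf_I : jf I = 1728 := (jf_eq_1728_iff _).mpr E6_I

/-- The fibre of `j` over `0` is the orbit of `ρ`. -/
theorem jf_eq_zero_iff_orbit (τ : ℍ) : jf τ = 0 ↔ ∃ γ : SL(2, ℤ), γ • rho = τ := by
  rw [jf_eq_zero_iff, zero_E4_iff]

/-- The fibre of `j` over `1728` is the orbit of `i`. -/
theorem jf_eq_1728_iff_orbit (τ : ℍ) : jf τ = 1728 ↔ ∃ γ : SL(2, ℤ), γ • (I : ℍ) = τ := by
  rw [jf_eq_1728_iff, zero_E6_iff]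

/-- The pencil `E₄³ - c Δ`. -/
theorem jf_sub_const (c : ℂ) (τ : ℍ) :
    jf τ - c = (E₄ τ ^ 3 - c * ModularForm.discriminant τ) / ModularForm.discriminant τ := by
  have hΔ := ModularForm.discriminant_ne_zero τ
  rw [jf]
  field_simp

theorem jf_tendsto_delta : Tendsto ModularForm.discriminant atImInfty (𝓝 0) :=
  ModularForm.discriminant_isZeroAtImInfty

/-- `j` is surjective. -/
theorem jf_surjective : Function.Surjective jf := by
  intro c
  by_contra hc0
  have hc : ∀ τ : ℍ, jf τ ≠ c := fun τ h => hc0 ⟨τ, h⟩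
  have hne : ∀ τ : ℍ, E₄ τ ^ 3 - c * ModularForm.discriminant τ ≠ 0 := by
    intro τ h0
    apply hc τ
    have := jf_sub_const c τ
    rw [h0, zero_div] at this
    exact sub_eq_zero.mp this
  -- `ψ = 1 / (E₄³ - c Δ)` would be a nonzero modular form of weight `-12`
  let φ : ℍ → ℂ := fun τ => E₄ τ ^ 3 - c * ModularForm.discriminant τ
  have hφd : MDiff φ := by
    have h4 : MDiff (⇑E₄) := ModularFormClass.holo E₄
    exact (h4.pow 3).sub (mdifferentiable_const.mul jf_delta_mdiff)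
  have hφinv : ∀ γ : SL(2, ℤ), ∀ τ : ℍ, φ (γ • τ) = denom γ τ ^ (12 : ℤ) * φ τ := by
    intro γ τ
    show E₄ (γ • τ) ^ 3 - c * ModularForm.discriminant (γ • τ) = _
    rw [div_levelOne_smul E₄ γ τ, jf_delta_smul]
    have : (denom γ τ ^ (4 : ℤ)) ^ 3 = denom γ τ ^ (12 : ℤ) := by
      rw [← zpow_natCast, ← zpow_mul]; norm_num
    rw [mul_pow, this]
    ring
  let ψ : ℍ → ℂ := fun τ => (φ τ)⁻¹
  have hψd : MDiff ψ := by
    have h1 : MDiff (fun _ : ℍ => (1 : ℂ)) := mdifferentiable_const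
    have := div_mdifferentiable_divFun (fun _ => (1 : ℂ)) φ h1 hφd
      (fun z hz => absurd hz (hne z)) (fun z hz => absurd hz (hne z))
    have e : divFun (fun _ => (1 : ℂ)) φ = ψ := by
      funext z
      have hz : φ z ≠ 0 := hne z
      rw [divFun, if_neg hz, one_div]
    rwa [e] at this
  have hψinv : ∀ γ : SL(2, ℤ), ψ ∣[(-12 : ℤ)] γ = ψ := by
    intro γ
    funext τ
    rw [ModularForm.SL_slash_apply]
    show (φ (γ • τ))⁻¹ * denom γ τ ^ (-(-12 : ℤ)) = (φ τ)⁻¹
    rw [hφinv γ τ, neg_neg, mul_inv]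
    have hd : denom γ τ ^ (12 : ℤ) ≠ 0 := zpow_ne_zero _ (denom_ne_zero _ τ)
    field_simp
  have hψt : Tendsto ψ atImInfty (𝓝 1) := by
    have t4 := div_tendsto_E (k := 4) (by norm_num) ⟨2, rfl⟩
    have h1 : Tendsto φ atImInfty (𝓝 (1 ^ 3 - c * 0)) :=
      (t4.pow 3).sub (jf_tendsto_delta.const_mul c)
    have h2 : (1 : ℂ) ^ 3 - c * 0 = 1 := by norm_num
    rw [h2] at h1
    have := h1.inv₀ one_ne_zero
    simpa using this
  have hψb : IsBoundedAtImInfty ψ := hψt.isBigO_one ℝ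
  obtain ⟨f, hf⟩ := exists_modularForm_of_bounded (N := 1) (k := (-12 : ℤ)) ψ hψd
    (fun γ _ => hψinv γ) (fun γ => by rw [hψinv γ]; exact hψb)
  have hf0 : f = 0 := modularForm_neg_eq_zero (by norm_num) f
  have : ψ I = 0 := by
    rw [← hf, hf0]; rfl
  exact (inv_ne_zero (hne I)) this

/-- Away from the elliptic points the stabiliser in `SL₂(ℤ)` is `{±1}`. -/
theorem jf_stab_trivial (τ : ℍ) (h4 : E₄ τ ≠ 0) (h6 : E₆ τ ≠ 0) (γ : SL(2, ℤ))
    (h : γ • τ = τ) : γ = 1 ∨ γ = -1 := by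
  have hd : denom γ τ ≠ 0 := denom_ne_zero _ τ
  have e4 := div_levelOne_smul E₄ γ τ
  have e6 := div_levelOne_smul E₆ γ τ
  rw [h] at e4 e6
  have d4 : denom γ τ ^ (4 : ℤ) = 1 := by
    have : (denom γ τ ^ (4 : ℤ) - 1) * E₄ τ = 0 := by rw [sub_mul, ← e4]; ring
    rcases mul_eq_zero.mp this with h' | h'
    · exact sub_eq_zero.mp h'
    · exact absurd h' h4
  have d6 : denom γ τ ^ (6 : ℤ) = 1 := by
    have : (denom γ τ ^ (6 : ℤ) - 1) * E₆ τ = 0 := by rw [sub_mul, ← e6]; ring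
    rcases mul_eq_zero.mp this with h' | h'
    · exact sub_eq_zero.mp h'
    · exact absurd h' h6
  have d2 : denom γ τ ^ 2 = 1 := by
    have h46 : denom γ τ ^ (6 : ℤ) = denom γ τ ^ (4 : ℤ) * denom γ τ ^ 2 := by
      rw [← zpow_natCast, ← zpow_add₀ hd]; norm_num
    rw [d6, d4, one_mul] at h46
    exact h46.symm
  -- `denom = c τ + d = ± 1`
  have hden : denom γ τ = (γ 1 0 : ℂ) * τ + (γ 1 1 : ℂ) := by
    simp [denom]
  have hc : γ 1 0 = 0 := by
    rcases sq_eq_one_iff.mp d2 with h1 | h1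
    · have him := congrArg Complex.im (hden.symm.trans h1)
      simp at him
      rcases him with h' | h'
      · exact_mod_cast h'
      · exact absurd h' τ.im_ne_zero
    · have him := congrArg Complex.im (hden.symm.trans h1)
      simp at him
      rcases him with h' | h'
      · exact_mod_cast h'
      · exact absurd h' τ.im_ne_zero
  have hdet : γ 0 0 * γ 1 1 - γ 0 1 * γ 1 0 = 1 := by
    have := γ.det_coe
    rwa [Matrix.det_fin_two] at this
  rw [hc, mul_zero, sub_zero] at hdet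
  -- the action
  have hact := congrArg (fun z : ℍ => (z : ℂ)) h
  simp only [UpperHalfPlane.coe_specialLinearGroup_apply, algebraMap_int_eq, eq_intCast,
    Complex.ofReal_intCast] at hact
  rw [hc] at hact
  simp only [Int.cast_zero, zero_mul, zero_add] at hact
  have hd0 : (γ 1 1 : ℂ) ≠ 0 := by
    intro h0
    have : (γ 1 1 : ℤ) = 0 := by exact_mod_cast h0
    rw [this, mul_zero] at hdet
    exact zero_ne_one hdet
  rw [div_eq_iff hd0] at hact
  have hre := congrArg Complex.re hact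
  have him := congrArg Complex.im hact
  simp at hre him
  have had : γ 0 0 = γ 1 1 := by
    have h1 : (((γ 0 0 : ℤ) : ℝ) - ((γ 1 1 : ℤ) : ℝ)) * τ.im = 0 := by linarith
    rcases mul_eq_zero.mp h1 with h' | h'
    · have : ((γ 0 0 : ℤ) : ℝ) = ((γ 1 1 : ℤ) : ℝ) := by linarith
      exact_mod_cast this
    · exact absurd h' τ.im_ne_zero
  have hb : γ 0 1 = 0 := by
    have : ((γ 0 0 : ℤ) : ℝ) = (γ 1 1 : ℤ) := by exact_mod_cast had
    rw [this] at hre
    have : ((γ 0 1 : ℤ) : ℝ) = 0 := by linarith [mul_comm ((γ 1 1 : ℤ) : ℝ) τ.re]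
    exact_mod_cast this
  rw [had] at hdet
  rcases Int.eq_one_or_neg_one_of_mul_eq_one hdet with h1 | h1
  · left
    ext i j
    fin_cases i <;> fin_cases j <;> simp [had, hb, hc, h1]
  · right
    ext i j
    fin_cases i <;> fin_cases j <;> simp [had, hb, hc, h1]

end Fermat.Agent.S24
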