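import Fermat.Agent.S24.Defs
import Fermat.Agent.S20.Defs
import Fermat.Agent.S20.CosetFix
import Fermat.Agent.S20.CosetCusp
import Fermat.Agent.S20.CosetIndex

/-!
# S24 / (C1) orbit counts on `SL₂(ℤ) ⧸ Γ₀(N)`  (OWNER: helper3; proofs complete)

From S20 (`coset_card`, `coset_card_fixedBy_S`, `coset_card_fixedBy_ST`, `coset_card_orbits_T`):
`S² = (ST)³ = -1 ∈ Γ₀(N)` acts trivially on the left cosets... (careful: `-1` is central, so
`(-1) • γΓ₀ = γ(-1)Γ₀ = γΓ₀`), hence the orbits of `S` have size `1` or `2` and the orbits of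
`S T` have size `1` or `3`: `#orbits = #fixed + (μ - #fixed) / |orbit|`.

Statements FROZEN; extra lemmas welcome (prefix `cnt_`).
-/

set_option autoImplicit false

namespace Fermat.Agent.S24

open Fermat.Agent.S20 ModularCurve
open scoped MatrixGroups

/-- Burnside for a cyclic group of permutations: `∑_{i < orderOf ρ} #Fix(ρ^i) = #orbits · orderOf ρ`. -/
lemma cnt_burnside {X : Type} [Fintype X] [DecidableEq X] (ρ : Equiv.Perm X) :
    ∑ i : Fin (orderOf ρ), Fintype.card {x : X // (ρ ^ (i : ℕ)) x = x}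
      = numOrbits ρ * orderOf ρ := by
  classical
  have hfin : IsOfFinOrder ρ := isOfFinOrder_of_finite ρ
  letI : Fintype (MulAction.orbitRel.Quotient (Subgroup.zpowers ρ) X) := Fintype.ofFinite _
  have hB := MulAction.sum_card_fixedBy_eq_card_orbits_mul_card_group (Subgroup.zpowers ρ) X
  rw [Fintype.card_zpowers] at hB
  rw [numOrbits, Nat.card_eq_fintype_card, ← hB]
  rw [← Equiv.sum_comp (finEquivZPowers hfin)]
  refine Finset.sum_congr rfl fun i _ => ?_
  apply Fintype.card_congr
  rw [finEquivZPowers_apply]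
  exact Equiv.subtypeEquivRight fun x => Iff.rfl

lemma cnt_orbits_two {X : Type} [Fintype X] [DecidableEq X] (ρ : Equiv.Perm X) (h : ρ ^ 2 = 1) :
    2 * numOrbits ρ = Fintype.card X + Fintype.card {x : X // ρ x = x} := by
  classical
  have hB := cnt_burnside ρ
  have hdvd : orderOf ρ ∣ 2 := orderOf_dvd_of_pow_eq_one h
  rcases (Nat.dvd_prime Nat.prime_two).mp hdvd with h1 | h2
  · have hρ : ρ = 1 := orderOf_eq_one_iff.mp h1
    subst hρ
    rw [h1] at hB
    simp at hB
    have : Fintype.card {x : X // (1 : Equiv.Perm X) x = x} = Fintype.card X :=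
      Fintype.card_congr (Equiv.subtypeUnivEquiv fun x => rfl)
    rw [this]
    omega
  · have e : ∑ i : Fin (orderOf ρ), Fintype.card {x : X // (ρ ^ (i : ℕ)) x = x}
        = ∑ i : Fin 2, Fintype.card {x : X // (ρ ^ (i : ℕ)) x = x} := by
      rw [h2]
    rw [e, h2, Fin.sum_univ_two] at hB
    have h0 : Fintype.card {x : X // (ρ ^ ((0 : Fin 2) : ℕ)) x = x} = Fintype.card X :=
      Fintype.card_congr (Equiv.subtypeUnivEquiv fun x => by simp)
    have h1 : Fintype.card {x : X // (ρ ^ ((1 : Fin 2) : ℕ)) x = x}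
        = Fintype.card {x : X // ρ x = x} :=
      Fintype.card_congr (Equiv.subtypeEquivRight fun x => by simp)
    rw [h0, h1] at hB
    omega

lemma cnt_orbits_three {X : Type} [Fintype X] [DecidableEq X] (ρ : Equiv.Perm X)
    (h : ρ ^ 3 = 1) :
    3 * numOrbits ρ = Fintype.card X + 2 * Fintype.card {x : X // ρ x = x} := by
  classical
  have hB := cnt_burnside ρ
  have hdvd : orderOf ρ ∣ 3 := orderOf_dvd_of_pow_eq_one h
  rcases (Nat.dvd_prime Nat.prime_three).mp hdvd with h1 | h3
  · have hρ : ρ = 1 := orderOf_eq_one_iff.mp h1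
    subst hρ
    rw [h1] at hB
    simp at hB
    have : Fintype.card {x : X // (1 : Equiv.Perm X) x = x} = Fintype.card X :=
      Fintype.card_congr (Equiv.subtypeUnivEquiv fun x => rfl)
    rw [this]
    omega
  · have e : ∑ i : Fin (orderOf ρ), Fintype.card {x : X // (ρ ^ (i : ℕ)) x = x}
        = ∑ i : Fin 3, Fintype.card {x : X // (ρ ^ (i : ℕ)) x = x} := by
      rw [h3]
    rw [e, h3, Fin.sum_univ_three] at hB
    have h0 : Fintype.card {x : X // (ρ ^ ((0 : Fin 3) : ℕ)) x = x} = Fintype.card X :=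
      Fintype.card_congr (Equiv.subtypeUnivEquiv fun x => by simp)
    have h1 : Fintype.card {x : X // (ρ ^ ((1 : Fin 3) : ℕ)) x = x}
        = Fintype.card {x : X // ρ x = x} :=
      Fintype.card_congr (Equiv.subtypeEquivRight fun x => by simp)
    have h2 : Fintype.card {x : X // (ρ ^ ((2 : Fin 3) : ℕ)) x = x}
        = Fintype.card {x : X // ρ x = x} := by
      refine Fintype.card_congr (Equiv.subtypeEquivRight fun x => ?_)
      have e2 : ((2 : Fin 3) : ℕ) = 2 := rfl
      rw [e2]
      constructor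
      · intro hx
        have h3x : (ρ ^ 3) x = x := by rw [h]; rfl
        have : (ρ ^ 3) x = ρ ((ρ ^ 2) x) := by
          rw [pow_succ' ρ 2]; rfl
        rw [this, hx] at h3x
        exact h3x
      · intro hx
        rw [pow_two, Equiv.Perm.mul_apply, hx, hx]
    rw [h0, h1, h2] at hB
    omega

lemma cnt_neg_one_smul (N : ℕ) (x : Q N) : (-1 : SL(2, ℤ)) • x = x := by
  induction x using QuotientGroup.induction_on with
  | H g =>
    rw [coset_smul_mk, coset_eq_iff]
    refine ⟨0, ?_⟩
    simp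

lemma cnt_toPerm_pow (N : ℕ) (g : SL(2, ℤ)) (n : ℕ) :
    (MulAction.toPerm g : Equiv.Perm (Q N)) ^ n = MulAction.toPerm (g ^ n) := by
  ext x
  induction n generalizing x with
  | zero => simp
  | succ n ih =>
    rw [pow_succ, Equiv.Perm.mul_apply, ih, pow_succ, MulAction.toPerm_apply,
      MulAction.toPerm_apply, MulAction.toPerm_apply, mul_smul]

lemma cnt_S_sq : (ModularGroup.S : SL(2, ℤ)) ^ 2 = -1 := by
  ext i j
  fin_cases i <;> fin_cases j <;>
    simp [pow_succ, ModularGroup.coe_S, Matrix.mul_apply, Fin.sum_univ_two]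

lemma cnt_ST_cube : (ModularGroup.S * ModularGroup.T : SL(2, ℤ)) ^ 3 = -1 := by
  ext i j
  fin_cases i <;> fin_cases j <;>
    simp [pow_succ, ModularGroup.coe_S, ModularGroup.coe_T, Matrix.mul_apply, Fin.sum_univ_two]

lemma cnt_toPerm_neg_one (N : ℕ) : (MulAction.toPerm (-1 : SL(2, ℤ)) : Equiv.Perm (Q N)) = 1 := by
  ext x
  exact cnt_neg_one_smul N x

lemma cnt_card_fixed (N : ℕ) [NeZero N] (g : SL(2, ℤ)) :
    Fintype.card {x : Q N // (MulAction.toPerm g : Equiv.Perm (Q N)) x = x}
      = Nat.card (MulAction.fixedBy (SL(2, ℤ) ⧸ CongruenceSubgroup.Gamma0 N) g) := by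
  rw [← Nat.card_eq_fintype_card]
  exact Nat.card_congr (Equiv.subtypeEquivRight fun x => Iff.rfl)

lemma cnt_orbitRel_toPerm {G X : Type*} [Group G] [MulAction G X] (g : G) :
    MulAction.orbitRel (Subgroup.zpowers (MulAction.toPerm g : Equiv.Perm X)) X
      = MulAction.orbitRel (Subgroup.zpowers g) X := by
  ext x y
  simp only [MulAction.orbitRel_apply, MulAction.mem_orbit_iff]
  constructor
  · rintro ⟨⟨_, n, rfl⟩, hx⟩
    refine ⟨⟨g ^ n, n, rfl⟩, ?_⟩
    rw [← hx]
    show g ^ n • y = ((MulAction.toPerm g : Equiv.Perm X) ^ n) y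
    have := map_zpow (MulAction.toPermHom G X) g n
    rw [MulAction.toPermHom_apply, MulAction.toPermHom_apply] at this
    rw [← this]
    rfl
  · rintro ⟨⟨_, n, rfl⟩, hx⟩
    refine ⟨⟨(MulAction.toPerm g : Equiv.Perm X) ^ n, n, rfl⟩, ?_⟩
    rw [← hx]
    show ((MulAction.toPerm g : Equiv.Perm X) ^ n) y = g ^ n • y
    have := map_zpow (MulAction.toPermHom G X) g n
    rw [MulAction.toPermHom_apply, MulAction.toPermHom_apply] at this
    rw [← this]
    rfl

theorem card_Q (N : ℕ) [NeZero N] : Fintype.card (Q N) = dedekindPsi N := by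
  rw [← Nat.card_eq_fintype_card]
  exact coset_card N

theorem numOrbits_S (N : ℕ) [NeZero N] :
    2 * numOrbits (MulAction.toPerm (ModularGroup.S : SL(2, ℤ)) : Equiv.Perm (Q N)) =
      dedekindPsi N + nuTwo N := by
  classical
  rw [cnt_orbits_two _ (by rw [cnt_toPerm_pow, cnt_S_sq, cnt_toPerm_neg_one]), card_Q,
    cnt_card_fixed, coset_card_fixedBy_S]

theorem numOrbits_ST (N : ℕ) [NeZero N] :
    3 * numOrbits
        (MulAction.toPerm (ModularGroup.S * ModularGroup.T : SL(2, ℤ)) : Equiv.Perm (Q N)) =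
      dedekindPsi N + 2 * nuThree N := by
  classical
  rw [cnt_orbits_three _ (by rw [cnt_toPerm_pow, cnt_ST_cube, cnt_toPerm_neg_one]), card_Q,
    cnt_card_fixed, coset_card_fixedBy_ST]

theorem numOrbits_T (N : ℕ) [NeZero N] :
    numOrbits (MulAction.toPerm (ModularGroup.T : SL(2, ℤ)) : Equiv.Perm (Q N)) =
      cuspCount N := by
  rw [← coset_card_orbits_T N, numOrbits]
  refine Nat.card_congr (Quotient.congr (Equiv.refl _) fun x y => ?_)
  have := cnt_orbitRel_toPerm (X := Q N) (ModularGroup.T : SL(2, ℤ))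
  simp only [Equiv.refl_apply]
  exact Iff.of_eq (congrArg (fun s : Setoid (Q N) => s x y) this)

end Fermat.Agent.S24
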