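import Mathlib

/-!
# S24 / (A11) auxiliary lemmas for `DegreeBound.lean`  (OWNER: helper5)

If `j` is transcendental over `K` and the family `f` is linearly independent over `K(j)`, then
the elements `j ^ l * f i` are linearly independent over `K`.
-/

set_option autoImplicit false

namespace Fermat.Agent.S24

open IntermediateField

theorem db_transcendental_gen {K F : Type*} [Field K] [Field F] [Algebra K F] (j : F)
    (hj : Transcendental K j) : Transcendental K (AdjoinSimple.gen K j) := by
  have h1 : Transcendental K (algebraMap K⟮j⟯ F (AdjoinSimple.gen K j)) := by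
    rw [AdjoinSimple.algebraMap_gen]
    exact hj
  exact (transcendental_algebraMap_iff (algebraMap K⟮j⟯ F).injective).mp h1

theorem db_linearIndependent_pow {K A : Type*} [Field K] [Field A] [Algebra K A] (x : A)
    (hgen : Transcendental K x) : LinearIndependent K (fun l : ℕ => x ^ l) := by
  have h1 := (Polynomial.basisMonomials K).linearIndependent.map'
    (Polynomial.aeval x).toLinearMap
    (LinearMap.ker_eq_bot.mpr (transcendental_iff_injective.mp hgen))
  have hfun : (fun l : ℕ => x ^ l) =
      ⇑(Polynomial.aeval x).toLinearMap ∘ ⇑(Polynomial.basisMonomials K) := by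
    funext l
    simp [Polynomial.coe_basisMonomials]
  rw [hfun]
  exact h1

theorem db_linearIndependent_smul {K F : Type*} [Field K] [Field F] [Algebra K F] (j : F)
    {n : ℕ} (f : Fin n → F) (hf : LinearIndependent K⟮j⟯ f) (L : ℕ)
    (h2 : LinearIndependent K (fun l : Fin (L + 1) => (AdjoinSimple.gen K j) ^ (l : ℕ))) :
    LinearIndependent K
      (fun p : Fin (L + 1) × Fin n => (AdjoinSimple.gen K j) ^ (p.1 : ℕ) • f p.2) := by
  have := linearIndependent_smul (R := K) (S := K⟮j⟯) (A := F) h2 hf
  exact this

theorem db_linearIndependent_reindex {K F : Type*} [Field K] [Field F] [Algebra K F] (j : F)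
    {n : ℕ} (f : Fin n → F) (L : ℕ)
    (hfam : LinearIndependent K
      (fun p : Fin (L + 1) × Fin n => (AdjoinSimple.gen K j) ^ (p.1 : ℕ) • f p.2)) :
    LinearIndependent K (fun q : Fin ((L + 1) * n) =>
      j ^ ((finProdFinEquiv.symm q).1 : ℕ) * f (finProdFinEquiv.symm q).2) := by
  have h1 := hfam.comp finProdFinEquiv.symm finProdFinEquiv.symm.injective
  have hfun : (fun q : Fin ((L + 1) * n) =>
      j ^ ((finProdFinEquiv.symm q).1 : ℕ) * f (finProdFinEquiv.symm q).2) =
      (fun p : Fin (L + 1) × Fin n => (AdjoinSimple.gen K j) ^ (p.1 : ℕ) • f p.2) ∘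
        ⇑finProdFinEquiv.symm := by
    funext q
    rw [Function.comp_apply, Algebra.smul_def, map_pow, AdjoinSimple.algebraMap_gen]
  rw [hfun]
  exact h1

/-- If `j` is transcendental over `K` and `f` is linearly independent over `K(j)`, then the
elements `j ^ l * f i` (`l ≤ L`) are linearly independent over `K`. -/
theorem db_linearIndependent_pow_mul {K F : Type*} [Field K] [Field F] [Algebra K F] (j : F)
    (hj : Transcendental K j) {n : ℕ} (f : Fin n → F) (hf : LinearIndependent K⟮j⟯ f) (L : ℕ) :
    LinearIndependent K (fun q : Fin ((L + 1) * n) =>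
      j ^ ((finProdFinEquiv.symm q).1 : ℕ) * f (finProdFinEquiv.symm q).2) := by
  have hpow := db_linearIndependent_pow (K := K) _ (db_transcendental_gen j hj)
  have h2 : LinearIndependent K (fun l : Fin (L + 1) => (AdjoinSimple.gen K j) ^ (l : ℕ)) :=
    hpow.comp (fun l : Fin (L + 1) => (l : ℕ)) Fin.val_injective
  exact db_linearIndependent_reindex j f L (db_linearIndependent_smul j f hf L h2)

end Fermat.Agent.S24
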