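import Fermat.Agent.S24.Rep
import Fermat.Agent.S20.Basic
import Fermat.Prelude.Thm_ModularCurve_coeff_jqModC_pow_self
import Fermat.Prelude.Thm_ModularCurve_coeff_jqModC_pow_of_lt
import Fermat.Agent.S24.DegreeBoundAux

/-!
# S24 / (A11) `[F : ℚ̄(j)] ≤ μ`  (OWNER: helper5)

* `j` is transcendental: `j = q⁻¹ + …`, so `P(j)` has a pole of order `deg P`
  (prelude `coeff_jq_pow_self`, `coeff_jq_pow_of_lt`).
* Degree bound via the dimension of spaces of modular forms: if `f₀, …, f_μ ∈ F` were linearly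
  independent over `ℚ̄(j)`, the `(L + 1)(μ + 1)` elements `j^l fᵢ` (`l ≤ L`) would be
  `ℚ̄`-linearly independent, hence `ℂ`-linearly independent in `ℂ⸨q⸩` (`linearIndependent_toL`);
  writing `fᵢ = gᵢ / g` with `gᵢ, g ∈ M_k(Γ₀(N))` (`exists_rep_common`), the forms
  `E₄^{3l} Δ^{L-l} gᵢ ∈ M_{12L+k}(Γ₀(N))` (`isRep_j_pow_mul`) are linearly independent, so
  `(L + 1)(μ + 1) ≤ (12 L + k) μ / 12 + 1` (S20 `finrank_modularForm_le`): false for large `L`.
  Conclude with `rank_le`.

Statements FROZEN; extra lemmas welcome (prefix `db_`).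
-/

set_option autoImplicit false

namespace Fermat.Agent.S24

open AlgebraicCurve HahnSeries IntermediateField UpperHalfPlane ModularForm EisensteinSeries
open Fermat.Agent.S20
open scoped MatrixGroups ModularForm

theorem jF_transcendental (N : ℕ) [NeZero N] : Transcendental Kb (jF N) := by
  intro halg
  obtain ⟨P, hP0, hP⟩ := halg
  have h1 := congrArg (toL N) hP
  rw [map_zero, Polynomial.aeval_eq_sum_range, map_sum] at h1
  have h2 := congrArg (fun x : LaurentSeries ℂ => x.coeff (-(P.natDegree : ℤ))) h1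
  simp only [HahnSeries.coeff_zero] at h2
  have hterm : ∀ i ∈ Finset.range (P.natDegree + 1),
      (toL N (P.coeff i • jF N ^ i)).coeff (-(P.natDegree : ℤ)) =
        if i = P.natDegree then iota (P.coeff i) else 0 := by
    intro i hi
    rw [Algebra.smul_def, map_mul, map_pow, toL_algebraMap, toL_jF, HahnSeries.C_apply,
      HahnSeries.coeff_single_zero_mul]
    by_cases hin : i = P.natDegree
    · rw [if_pos hin, hin, ModularCurve.coeff_jqModC_pow_self, mul_one]
    · rw [if_neg hin]
      have hlt : i < P.natDegree := by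
        have := Finset.mem_range.mp hi
        omega
      rw [ModularCurve.coeff_jqModC_pow_of_lt ℂ (by omega), mul_zero]
  have h3 : (∑ i ∈ Finset.range (P.natDegree + 1), toL N (P.coeff i • jF N ^ i)).coeff
      (-(P.natDegree : ℤ)) = iota (P.coeff P.natDegree) := by
    rw [HahnSeries.coeff_sum, Finset.sum_congr rfl hterm, Finset.sum_ite_eq' _ _]
    rw [if_pos (Finset.mem_range.mpr (Nat.lt_succ_self _))]
  rw [h3] at h2
  have h4 : P.coeff P.natDegree = 0 := iota_injective (by rw [h2, map_zero])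
  exact hP0 (Polynomial.leadingCoeff_eq_zero.mp h4)

theorem db_qL_zero (N : ℕ) [NeZero N] (k : ℤ) : qL (⇑(0 : ModularForm (G0 N) k)) = 0 := by
  have := qL_smul N (0 : ℂ) (0 : ModularForm (G0 N) k)
  rw [map_zero, zero_mul] at this
  rw [← this]
  congr 1
  funext z
  simp

/-- `qL` of a finite linear combination. -/
theorem db_qL_sum (N : ℕ) [NeZero N] {k : ℤ} {ι : Type} (s : Finset ι) (a : ι → ℂ)
    (h : ι → ModularForm (G0 N) k) :
    qL (⇑(∑ p ∈ s, a p • h p)) = ∑ p ∈ s, HahnSeries.C (a p) * qL (⇑(h p)) := by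
  classical
  induction s using Finset.induction_on with
  | empty =>
    rw [Finset.sum_empty, Finset.sum_empty]
    exact db_qL_zero N k
  | insert i t hi IH =>
    rw [Finset.sum_insert hi, Finset.sum_insert hi]
    have e1 : ⇑(a i • h i + ∑ x ∈ t, a x • h x) = ⇑(a i • h i) + ⇑(∑ x ∈ t, a x • h x) := rfl
    have e2 : ⇑(a i • h i) = a i • ⇑(h i) := rfl
    rw [e1, qL_add, IH, e2, qL_smul]

/-- The modular forms attached to a linearly independent family (with a common denominator)
are linearly independent. -/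
theorem db_forms_independent (N : ℕ) [NeZero N] {m : ℕ} {K' : ℤ} (v : Fin m → FN N)
    (hv : LinearIndependent ℂ (fun q => toL N (v q)))
    (h₁ : Fin m → ModularForm (G0 N) K') (H : ModularForm (G0 N) K') (hH0 : H ≠ 0)
    (hrep : ∀ q, toL N (v q) * qL (⇑H) = qL (⇑(h₁ q))) : LinearIndependent ℂ h₁ := by
  rw [Fintype.linearIndependent_iff]
  intro a ha
  rw [Fintype.linearIndependent_iff] at hv
  apply hv a
  have h0 : qL (⇑(∑ q, a q • h₁ q)) = 0 := by
    rw [ha]
    exact db_qL_zero N K'
  rw [db_qL_sum] at h0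
  have hH : qL (⇑H) ≠ 0 := by
    intro hH1
    apply hH0
    apply qL_injective N
    rw [hH1, db_qL_zero]
  have h1 : (∑ q, a q • toL N (v q)) * qL (⇑H) = 0 := by
    rw [Finset.sum_mul, ← h0]
    refine Finset.sum_congr rfl fun q _ => ?_
    rw [← hrep q, ← HahnSeries.C_mul_eq_smul, mul_assoc]
  exact (mul_eq_zero.mp h1).resolve_right hH

/-- Key bound: a `ℚ̄(j)`-linearly independent family has at most `μ` elements. -/
theorem db_card_le (N : ℕ) [NeZero N] {n : ℕ} (f : Fin n → FN N)
    (hf : LinearIndependent Kb⟮jF N⟯ f) : n ≤ Nat.card (Q N) := by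
  classical
  set μ := Nat.card (Q N) with hμ
  by_contra hcon
  have hn : μ + 1 ≤ n := by omega
  obtain ⟨k, g₂, g₁, hrep⟩ := exists_rep_common N f
  set L : ℕ := k * μ + 1 with hL
  have hfam := db_linearIndependent_pow_mul (jF N) (jF_transcendental N) f hf L
  have hC := linearIndependent_toL N _ hfam
  -- the modular forms
  have hex : ∀ q : Fin ((L + 1) * n), ∃ h₁ h₂ : ModularForm (G0 N) ((12 * L + k : ℕ) : ℤ),
      IsRep N (jF N ^ ((finProdFinEquiv.symm q).1 : ℕ) * f (finProdFinEquiv.symm q).2) h₁ h₂ ∧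
        (∀ z, h₂ z = ModularForm.discriminant z ^ L * g₂ z) := fun q =>
    isRep_j_pow_mul N (hrep (finProdFinEquiv.symm q).2) L ((finProdFinEquiv.symm q).1 : ℕ)
      (Nat.lt_succ_iff.mp (finProdFinEquiv.symm q).1.isLt)
  choose h₁ h₂ hh hh₂ using hex
  have hpos : 0 < (L + 1) * n := Nat.mul_pos (Nat.succ_pos L) (by omega)
  set H := h₂ ⟨0, hpos⟩ with hH
  have hHeq : ∀ q, h₂ q = H := by
    intro q
    ext z
    rw [hh₂, hH, hh₂]
  have hli : LinearIndependent ℂ h₁ :=
    db_forms_independent N _ hC h₁ H (hh ⟨0, hpos⟩).1 (fun q => by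
      have := (hh q).2
      rwa [hHeq q] at this)
  haveI := finiteDimensional_modularForm N ((12 * L + k : ℕ) : ℤ)
  have hcard := hli.fintype_card_le_finrank
  rw [Fintype.card_fin] at hcard
  have hdim := finrank_modularForm_le N (12 * L + k)
  have hle := hcard.trans hdim
  -- arithmetic
  have e1 : (12 * L + k) * μ = 12 * (L * μ) + k * μ := by ring
  rw [e1] at hle
  have h3 : (L + 1) * (μ + 1) ≤ (L + 1) * n := Nat.mul_le_mul_left _ hn
  have e2 : (L + 1) * (μ + 1) = L * μ + L + μ + 1 := by ring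
  have h4 : k * μ < L := by omega
  omega

/-- The rank of `F` over `ℚ̄(j)` is at most `μ`. -/
theorem db_rank_le (N : ℕ) [NeZero N] :
    Module.rank Kb⟮jF N⟯ (FN N) ≤ (Nat.card (Q N) : Cardinal) := by
  apply rank_le
  intro s hs
  have h1 : LinearIndependent Kb⟮jF N⟯ (fun i : Fin s.card => ((s.equivFin.symm i : s) : FN N)) :=
    hs.comp s.equivFin.symm s.equivFin.symm.injective
  exact db_card_le N _ h1

theorem finiteDimensional_FN (N : ℕ) [NeZero N] : FiniteDimensional Kb⟮jF N⟯ (FN N) := by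
  rw [FiniteDimensional, ← Module.rank_lt_aleph0_iff]
  exact lt_of_le_of_lt (db_rank_le N) (Cardinal.nat_lt_aleph0 _)

theorem finrank_FN_le (N : ℕ) [NeZero N] :
    Module.finrank Kb⟮jF N⟯ (FN N) ≤ Nat.card (Q N) := by
  exact Module.finrank_le_of_rank_le (db_rank_le N)

end Fermat.Agent.S24
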