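import Mathlib
import Fermat.Prelude.Def_ModularCurve_X0

/-!
# S24 / (A7) auxiliary lemmas on Laurent series: coefficients, order, leading coefficient
(OWNER: helper9)
-/

set_option autoImplicit false

namespace Fermat.Agent.S24

open HahnSeries

/-- Coefficients of a power series viewed as a Laurent series. -/
theorem cu_coeff_ofPowerSeries (p : PowerSeries ℂ) (n : ℤ) :
    (HahnSeries.ofPowerSeries ℤ ℂ p).coeff n = if 0 ≤ n then PowerSeries.coeff n.toNat p else 0 := by
  split_ifs with hn
  · obtain ⟨m, rfl⟩ := Int.eq_ofNat_of_zero_le hn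
    rw [HahnSeries.ofPowerSeries_apply_coeff]
    simp
  · rw [HahnSeries.ofPowerSeries_apply]
    refine HahnSeries.embDomain_of_notMem_range ?_
    rintro ⟨m, hm⟩
    apply hn
    rw [← hm]
    simp

/-- Order and leading coefficient under a coefficientwise rotation. -/
theorem cu_order_of_coeff {A B : LaurentSeries ℂ} {a ζ : ℂ} (ha : a ≠ 0) (hζ : ζ ≠ 0)
    (h : ∀ n : ℤ, B.coeff n = a * ζ ^ n * A.coeff n) :
    B.order = A.order ∧ B.leadingCoeff = a * ζ ^ A.order * A.leadingCoeff := by
  have hne : ∀ n : ℤ, B.coeff n ≠ 0 ↔ A.coeff n ≠ 0 := by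
    intro n
    rw [h n]
    constructor
    · intro h1 h2
      rw [h2, mul_zero] at h1
      exact h1 rfl
    · intro h1
      exact mul_ne_zero (mul_ne_zero ha (zpow_ne_zero n hζ)) h1
  by_cases hA : A = 0
  · have hB : B = 0 := by
      ext n
      rw [h n, hA]
      simp
    rw [hA, hB]
    simp
  · have hB : B ≠ 0 := by
      intro hB
      apply hA
      ext n
      by_contra hn
      have := (hne n).mpr hn
      rw [hB] at this
      exact this rfl
    have hord : B.order = A.order := by
      apply le_antisymm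
      · exact HahnSeries.order_le_of_coeff_ne_zero ((hne _).mpr (HahnSeries.coeff_order_eq_zero.not.mpr hA))
      · exact HahnSeries.order_le_of_coeff_ne_zero ((hne _).mp (HahnSeries.coeff_order_eq_zero.not.mpr hB))
    refine ⟨hord, ?_⟩
    rw [HahnSeries.leadingCoeff_eq, HahnSeries.leadingCoeff_eq, hord, h]

end Fermat.Agent.S24
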