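import Fermat.Agent.S24.Embed
import Fermat.Agent.S20.Basic
import Fermat.Agent.S20.InfAnalytic
import Fermat.Agent.S20.LeadInv
import Fermat.Prelude.Thm_UpperHalfPlane_qExpansion_coeff_nat_mul
import Fermat.Agent.S24.CuspAux

/-!
# S24 / (A7) the `q^{1/N}`-expansion at `i∞` as an evaluation
(OWNER: helper9)  PROVED

`cuspEval N`: `dom` = holomorphic functions on `ℍ` which are `N`-periodic and bounded at `i∞`
(the translates `tr g x` are: `mdifferentiable_tr`, `tr_vadd_N`, `isBoundedAtImInfty_tr`);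
`ev h = qExpansion N h` (Mathlib `UpperHalfPlane.qExpansion_mul`, `qExpansion_add`,
`qExpansion_eq_zero_iff`, …, with `analyticAt_cuspFunction_zero`).

* level one: for a form `c` of level one, `ev c = ∑ aₙ s^{N n}`
  (prelude `UpperHalfPlane.qExpansion_coeff_nat_mul`);
* equivariance for `T`: `tr g (T • x) = (tr g x) ∣[k] T⁻¹ = (tr g x)(· - 1)` and
  `qExpansion N (h(· - 1)) = ∑ aₙ ζ⁻ⁿ sⁿ`, `ζ = exp(2πi/N)`.

Statements FROZEN; extra lemmas welcome (prefix `cu_`).
-/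

set_option autoImplicit false

namespace Fermat.Agent.S24

open AlgebraicCurve HahnSeries IntermediateField UpperHalfPlane ModularForm EisensteinSeries
open Fermat.Agent.S20
open scoped MatrixGroups ModularForm Manifold

/-- The domain of the cusp evaluation. -/
def cuDom (N : ℕ) : Subring (ℍ → ℂ) where
  carrier := {h | MDifferentiable 𝓘(ℂ) 𝓘(ℂ) h ∧ (∀ z : ℍ, h ((N : ℝ) +ᵥ z) = h z) ∧
    IsBoundedAtImInfty h}
  one_mem' := ⟨mdifferentiable_const, fun _ => rfl, Filter.const_boundedAtFilter _ _⟩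
  mul_mem' := by
    intro a b ha hb
    refine ⟨ha.1.mul hb.1, fun z => ?_, ha.2.2.mul hb.2.2⟩
    simp only [Pi.mul_apply, ha.2.1 z, hb.2.1 z]
  zero_mem' := ⟨mdifferentiable_const, fun _ => rfl, Filter.const_boundedAtFilter _ _⟩
  add_mem' := by
    intro a b ha hb
    refine ⟨ha.1.add hb.1, fun z => ?_, ha.2.2.add hb.2.2⟩
    simp only [Pi.add_apply, ha.2.1 z, hb.2.1 z]
  neg_mem' := by
    intro a ha
    refine ⟨ha.1.neg, fun z => ?_, ha.2.2.neg⟩
    simp only [Pi.neg_apply, ha.2.1 z]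

theorem cu_N_pos (N : ℕ) [NeZero N] : (0 : ℝ) < (N : ℝ) := Nat.cast_pos.mpr (NeZero.pos N)

theorem cu_periodic {N : ℕ} {h : ℍ → ℂ} (hh : h ∈ cuDom N) :
    Function.Periodic (h ∘ ofComplex) (N : ℝ) := inf_periodic_of_vadd h hh.2.1

theorem cu_analyticAt {N : ℕ} [NeZero N] {h : ℍ → ℂ} (hh : h ∈ cuDom N) :
    AnalyticAt ℂ (cuspFunction (N : ℝ) h) 0 :=
  analyticAt_cuspFunction_zero (cu_N_pos N) (cu_periodic hh) hh.1 hh.2.2

/-- The cusp evaluation. -/
noncomputable def cuEv (N : ℕ) [NeZero N] : cuDom N →+* LaurentSeries ℂ where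
  toFun h := HahnSeries.ofPowerSeries ℤ ℂ (qExpansion (N : ℝ) (h : ℍ → ℂ))
  map_one' := by
    show HahnSeries.ofPowerSeries ℤ ℂ (qExpansion (N : ℝ) (1 : ℍ → ℂ)) = 1
    rw [qExpansion_one, map_one]
  map_mul' := by
    intro a b
    show HahnSeries.ofPowerSeries ℤ ℂ (qExpansion (N : ℝ) ((a : ℍ → ℂ) * (b : ℍ → ℂ))) = _
    rw [qExpansion_mul (cu_analyticAt a.2) (cu_analyticAt b.2), map_mul]
  map_zero' := by
    show HahnSeries.ofPowerSeries ℤ ℂ (qExpansion (N : ℝ) (0 : ℍ → ℂ)) = 0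
    rw [qExpansion_zero, map_zero]
  map_add' := by
    intro a b
    show HahnSeries.ofPowerSeries ℤ ℂ (qExpansion (N : ℝ) ((a : ℍ → ℂ) + (b : ℍ → ℂ))) = _
    rw [qExpansion_add (cu_analyticAt a.2) (cu_analyticAt b.2), map_add]

theorem cuEv_apply (N : ℕ) [NeZero N] (h : cuDom N) :
    cuEv N h = HahnSeries.ofPowerSeries ℤ ℂ (qExpansion (N : ℝ) (h : ℍ → ℂ)) := rfl

theorem cuEv_injective (N : ℕ) [NeZero N] : Function.Injective (cuEv N) := by
  rw [injective_iff_map_eq_zero]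
  intro h hh
  rw [cuEv_apply] at hh
  have h1 : qExpansion (N : ℝ) (h : ℍ → ℂ) = 0 :=
    HahnSeries.ofPowerSeries_injective (by rw [hh, map_zero])
  have h2 := (qExpansion_eq_zero_iff (cu_N_pos N) (cu_periodic h.2) h.2.1 h.2.2.2).mp h1
  exact Subtype.ext h2

theorem cu_const_mem (N : ℕ) (c : ℂ) : (fun _ : ℍ => c) ∈ cuDom N :=
  ⟨mdifferentiable_const, fun _ => rfl, Filter.const_boundedAtFilter _ _⟩

theorem cu_qExpansion_const (N : ℕ) [NeZero N] (c : ℂ) :
    qExpansion (N : ℝ) (fun _ : ℍ => c) = PowerSeries.C c := by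
  have h1 : (fun _ : ℍ => c) = c • (1 : ℍ → ℂ) := by
    funext z
    simp
  have han : AnalyticAt ℂ (cuspFunction (N : ℝ) (1 : ℍ → ℂ)) 0 :=
    cu_analyticAt (N := N) (cuDom N).one_mem
  rw [h1, qExpansion_smul han, qExpansion_one]
  ext n
  simp [PowerSeries.coeff_C, PowerSeries.coeff_one]

/-- The evaluation at the cusp `i∞` in the variable `q^{1/N}`. -/
noncomputable def cuEval (N : ℕ) [NeZero N] : Evaluation N where
  dom := cuDom N
  ev := cuEv N
  inj := cuEv_injective N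
  const_mem := cu_const_mem N
  ev_const := by
    intro c
    rw [cuEv_apply]
    show HahnSeries.ofPowerSeries ℤ ℂ (qExpansion (N : ℝ) (fun _ : ℍ => c)) = _
    rw [cu_qExpansion_const, HahnSeries.ofPowerSeries_C]
  tr_mem := by
    intro k g x
    exact ⟨mdifferentiable_tr g x, tr_vadd_N g x, isBoundedAtImInfty_tr g x⟩

theorem cu_levelOne_periodic {k : ℤ} (c : ModularForm 𝒮ℒ k) :
    Function.Periodic ((c : ℍ → ℂ) ∘ ofComplex) (1 : ℝ) := by
  exact SlashInvariantFormClass.periodic_comp_ofComplex c _root_.one_mem_strictPeriods_SL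

/-- The `q^{1/N}`-expansion of a form of level one. -/
theorem cu_levelOne (N : ℕ) [NeZero N] {k : ℤ} (c : ModularForm 𝒮ℒ k) :
    HahnSeries.ofPowerSeries ℤ ℂ (qExpansion (N : ℝ) (c : ℍ → ℂ)) =
      ModularCurve.qExpand ℂ N (qL c) := by
  have key : ∀ n : ℕ, (qExpansion (N : ℝ) (c : ℍ → ℂ)).coeff n =
      if N ∣ n then (qExpansion (1 : ℝ) (c : ℍ → ℂ)).coeff (n / N) else 0 := by
    intro n
    have := UpperHalfPlane.qExpansion_coeff_nat_mul (h := 1) one_pos (cu_levelOne_periodic c)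
      (ModularFormClass.holo c) (ModularFormClass.bdd_at_infty c) (NeZero.pos N) n
    rwa [mul_one] at this
  ext n
  rw [cu_coeff_ofPowerSeries]
  split_ifs with hn
  · obtain ⟨m, rfl⟩ := Int.eq_ofNat_of_zero_le hn
    rw [Int.toNat_natCast, key]
    split_ifs with hd
    · obtain ⟨l, rfl⟩ := hd
      rw [Nat.mul_div_cancel_left l (NeZero.pos N)]
      push_cast
      rw [ModularCurve.qExpand_coeff_mul, qL, HahnSeries.ofPowerSeries_apply_coeff]
    · rw [ModularCurve.qExpand_coeff_of_not_dvd]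
      intro h
      apply hd
      exact_mod_cast h
  · by_cases hd : (N : ℤ) ∣ n
    · obtain ⟨l, rfl⟩ := hd
      rw [ModularCurve.qExpand_coeff_mul, qL, cu_coeff_ofPowerSeries, if_neg]
      intro hl
      apply hn
      positivity
    · rw [ModularCurve.qExpand_coeff_of_not_dvd _ _ hd]

theorem cu_T_coeff (N : ℕ) [NeZero N] {k : ℤ} (g : ModularForm (G0 N) k) (x : Q N) (n : ℤ) :
    ((cuEval N).evTr g (ModularGroup.T • x)).coeff n =
      1 * Complex.exp (-(2 * Real.pi * Complex.I / N)) ^ n * ((cuEval N).evTr g x).coeff n := by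
  show (HahnSeries.ofPowerSeries ℤ ℂ (qExpansion (N : ℝ) (tr g (ModularGroup.T • x)))).coeff n =
    1 * Complex.exp (-(2 * Real.pi * Complex.I / N)) ^ n *
      (HahnSeries.ofPowerSeries ℤ ℂ (qExpansion (N : ℝ) (tr g x))).coeff n
  rw [cu_coeff_ofPowerSeries, cu_coeff_ofPowerSeries]
  split_ifs with hn
  · obtain ⟨m, rfl⟩ := Int.eq_ofNat_of_zero_le hn
    rw [Int.toNat_natCast]
    have h1 := cf_T_inv_smul g (ModularGroup.T • x) m
    rw [inv_smul_smul] at h1
    simp only [cf] at h1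
    rw [h1, zpow_natCast, ← Complex.exp_nat_mul, one_mul, ← mul_assoc, ← Complex.exp_add]
    have : (m : ℂ) * -(2 * Real.pi * Complex.I / N) + 2 * Real.pi * Complex.I * m / N = 0 := by
      ring
    rw [this, Complex.exp_zero, one_mul]
  · rw [mul_zero]

theorem cu_equivariant (N : ℕ) [NeZero N] :
    (cuEval N).IsEquivariant ModularGroup.T (Complex.exp (-(2 * Real.pi * Complex.I / N))) := by
  refine ⟨fun _ => 1, fun _ => one_ne_zero, fun k g x => ?_⟩
  exact cu_order_of_coeff one_ne_zero (Complex.exp_ne_zero _) (cu_T_coeff N g x)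

theorem exists_cuspEval (N : ℕ) [NeZero N] :
    ∃ Λ : Evaluation N,
      (∀ h : ℍ → ℂ, h ∈ Λ.dom ↔
        (MDifferentiable 𝓘(ℂ) 𝓘(ℂ) h ∧ (∀ z : ℍ, h ((N : ℝ) +ᵥ z) = h z) ∧
          IsBoundedAtImInfty h)) ∧
      (∀ h : Λ.dom, Λ.ev h = HahnSeries.ofPowerSeries ℤ ℂ (qExpansion N (h : ℍ → ℂ))) ∧
      (∀ {k : ℤ} (c : ModularForm 𝒮ℒ k) (hc : (c : ℍ → ℂ) ∈ Λ.dom),
        Λ.ev ⟨c, hc⟩ = ModularCurve.qExpand ℂ N (qL c)) ∧
      Λ.IsEquivariant ModularGroup.T
        (Complex.exp (-(2 * Real.pi * Complex.I / N))) := by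
  refine ⟨cuEval N, fun h => Iff.rfl, fun h => rfl, ?_, cu_equivariant N⟩
  intro k c hc
  exact cu_levelOne N c

theorem isPrimitiveRoot_exp_neg (N : ℕ) [NeZero N] :
    IsPrimitiveRoot (Complex.exp (-(2 * Real.pi * Complex.I / N))) N := by
  have h := (Complex.isPrimitiveRoot_exp N (NeZero.ne N)).inv
  rwa [← Complex.exp_neg] at h

end Fermat.Agent.S24
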