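import Fermat.Agent.S24.Embed
import Fermat.Agent.S20.JInj

/-!
# S24 / (A8) distinct cosets give distinct embeddings  (OWNER: helper3; proofs complete)

`t_x := tr(E₄(N·)³) x / tr(Δ(N·)) x = j(N γ⁻¹ z)` for `x = γ Γ₀(N)`.  If `t_x = t_y` as
functions, evaluate at `z₀ = √2 + i`: by `jinj_main` there is `g ∈ SL₂(ℤ)` with
`diag(N,1) γ_x⁻¹ z₀ = g · diag(N,1) γ_y⁻¹ z₀`; a rational matrix of positive determinant fixing
`z₀` is scalar (its fixed-point equation is a quadratic equation with rational coefficients,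
but `z₀` is not quadratic over `ℚ`... more precisely `c z₀² + (d - a) z₀ - b = 0` with
`z₀² = 1 + 2√2 i`, `1, √2, i, √2 i` linearly independent over `ℚ`), hence
`diag(N,1) γ_x⁻¹ = ± g diag(N,1) γ_y⁻¹`, i.e. `γ_y⁻¹ γ_x ∈ diag(N,1)⁻¹ SL₂(ℤ) diag(N,1) ∩ SL₂(ℤ)
= Γ₀(N)`, i.e. `x = y`.  (See also S20 `RankGe.lean`, which needs the same fact.)

Statements FROZEN; extra lemmas welcome (prefix `dist_`).
-/

set_option autoImplicit false

namespace Fermat.Agent.S24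

open AlgebraicCurve HahnSeries IntermediateField UpperHalfPlane ModularForm EisensteinSeries
open Fermat.Agent.S20
open scoped MatrixGroups ModularForm

lemma dist_rgeLift_apply (N : ℕ) [NeZero N] {k : ℤ} {F : Type*} [FunLike F ℍ ℂ]
    [ModularFormClass F 𝒮ℒ k] (f : F) (z : ℍ) :
    rgeLift N f z = f (dmul N z) * (N : ℂ) ^ (k - 1) := by
  show ((f : ℍ → ℂ) ∣[k] rgeAlpha N) z = _
  rw [ModularForm.slash_apply, lr_alpha_smul, lr_alpha_denom, one_zpow, mul_one]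
  have h1 : σ (rgeAlpha N) = ContinuousAlgEquiv.refl ℝ ℂ := by
    rw [σ, if_pos (rgeAlpha_det_pos N)]
  have h2 : ((|(rgeAlpha N).det.val| : ℝ) : ℂ) = (N : ℂ) := by
    rw [abs_of_pos (rgeAlpha_det_pos N), rgeAlpha_det N]
    simp
  rw [h1, h2]
  rfl

lemma dist_rgeE_apply (N : ℕ) [NeZero N] (z : ℍ) :
    rgeE N z = E₄ (dmul N z) * (N : ℂ) ^ (3 : ℤ) := by
  rw [rgeE, dist_rgeLift_apply]
  norm_num

lemma dist_rgeD_apply (N : ℕ) [NeZero N] (z : ℍ) :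
    rgeD N z = ModularForm.discriminant (dmul N z) * (N : ℂ) ^ (11 : ℤ) := by
  rw [rgeD, dist_rgeLift_apply]
  norm_num

lemma dist_tr_g1 (N : ℕ) [NeZero N] (g₁ : ModularForm (G0 N) 12)
    (hg₁ : ∀ z, g₁ z = E₄ (dmul N z) ^ 3) (x : Q N) (z : ℍ) :
    tr g₁ x z * ((N : ℂ) ^ (3 : ℤ)) ^ 3 = tr (rgeE N) x z ^ 3 := by
  induction x using QuotientGroup.induction_on with
  | H γ =>
    simp only [tr_mk, ModularForm.SL_slash_apply, hg₁, dist_rgeE_apply]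
    set d := denom (γ⁻¹ : SL(2, ℤ)) z
    have e12 : d ^ (-12 : ℤ) = (d ^ (-4 : ℤ)) ^ 3 := by
      rw [← zpow_natCast, ← zpow_mul]; norm_num
    rw [e12]
    ring

lemma dist_tr_g2 (N : ℕ) [NeZero N] (g₂ : ModularForm (G0 N) 12)
    (hg₂ : ∀ z, g₂ z = ModularForm.discriminant (dmul N z)) (x : Q N) (z : ℍ) :
    tr g₂ x z * (N : ℂ) ^ (11 : ℤ) = tr (rgeD N) x z := by
  induction x using QuotientGroup.induction_on with
  | H γ =>
    simp only [tr_mk, ModularForm.SL_slash_apply, hg₂, dist_rgeD_apply]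
    ring

theorem tr_jN_injective (N : ℕ) [NeZero N] (g₁ g₂ : ModularForm (G0 N) 12)
    (hg₁ : ∀ z, g₁ z = E₄ (dmul N z) ^ 3)
    (hg₂ : ∀ z, g₂ z = ModularForm.discriminant (dmul N z)) (x y : Q N)
    (h : ∀ z : ℍ, tr g₁ x z * tr g₂ y z = tr g₁ y z * tr g₂ x z) : x = y := by
  apply rge_separates N x y
  rw [← dist_tr_g1 N g₁ hg₁ x, ← dist_tr_g1 N g₁ hg₁ y, ← dist_tr_g2 N g₂ hg₂ x,
    ← dist_tr_g2 N g₂ hg₂ y]
  linear_combination ((N : ℂ) ^ (3 : ℤ)) ^ 3 * (N : ℂ) ^ (11 : ℤ) * h rgeZ0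

theorem IsEmbeddingOf.injective {N : ℕ} [NeZero N] {Λ : Evaluation N}
    {σ : Q N → FN N →+* LaurentSeries ℂ} (hσ : IsEmbeddingOf Λ σ) : Function.Injective σ := by
  intro x y hxy
  obtain ⟨g₁, g₂, hrep, hg₁, hg₂⟩ := isRep_jd N N (dvd_refl N)
  have hx := hσ x _ 12 g₁ g₂ hrep
  have hy := hσ y _ 12 g₁ g₂ hrep
  rw [hxy] at hx
  have hev : Λ.evTr g₁ x * Λ.evTr g₂ y = Λ.evTr g₁ y * Λ.evTr g₂ x := by
    rw [← hx, ← hy]
    ring
  unfold Evaluation.evTr at hev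
  rw [← map_mul, ← map_mul] at hev
  have h1 := congrArg Subtype.val (Λ.inj hev)
  apply tr_jN_injective N g₁ g₂ hg₁ hg₂ x y
  intro z
  exact congrFun h1 z

end Fermat.Agent.S24
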