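import Fermat.Agent.S24.AnDefs
import Fermat.Agent.S20.LevelOne
import Fermat.Agent.S20.Wronskian
import Fermat.Agent.S24.JFun

/-!
# S24 / (A9) the zeros of `E₄³ - c Δ`  (OWNER: helper2)

* `exists_zero_pencil`: `j` is surjective.  If `φ = E₄³ - c Δ` had no zero on `ℍ`, then `1 / φ`
  would be a modular form of weight `-12` (holomorphic; bounded at `i∞` because `φ → 1`), hence
  `0` (`ModularFormClass.levelOne_neg_weight_eq_zero`) — absurd.
* simple zeros for `c ≠ 0, 1728`: `E₄³ - c Δ = (1 - c/1728) E₄³ + (c/1728) E₆²`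
  (`discriminant_eq_E₄_cube_sub_E₆_sq`), S20 `deriv_pencil_ne_zero`.
* `c = 1728`: `E₄³ - 1728 Δ = E₆²`, `E₆(i) = 0` simple (S20 `E6_I`, `deriv_E6_ne_zero`);
  `c = 0`: `E₄(ρ) = 0` simple (S20 `E4_rho`, `deriv_E4_ne_zero`).

Statements FROZEN; extra lemmas welcome (prefix `ord_`).
-/

set_option autoImplicit false

namespace Fermat.Agent.S24

open AlgebraicCurve UpperHalfPlane ModularForm EisensteinSeries
open Fermat.Agent.S20
open scoped MatrixGroups ModularForm

theorem exists_zero_pencil (c : ℂ) :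
    ∃ τ : ℍ, E₄ τ ^ 3 - c * ModularForm.discriminant τ = 0 := by
  obtain ⟨τ, hτ⟩ := jf_surjective c
  refine ⟨τ, ?_⟩
  have h := jf_sub_const c τ
  rw [hτ, sub_self] at h
  rcases div_eq_zero_iff.mp h.symm with h' | h'
  · exact h'
  · exact absurd h' (ModularForm.discriminant_ne_zero τ)

theorem deriv_pencil_generic (c : ℂ) (hc0 : c ≠ 0) (hc : c ≠ 1728) (τ : ℍ)
    (h : E₄ τ ^ 3 - c * ModularForm.discriminant τ = 0) :
    deriv ((fun z : ℍ => E₄ z ^ 3 - c * ModularForm.discriminant z) ∘ ofComplex) τ ≠ 0 := by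
  have hΔ := ModularForm.discriminant_ne_zero τ
  have hfun : (fun z : ℍ => E₄ z ^ 3 - c * ModularForm.discriminant z) =
      fun z : ℍ => (1 - c / 1728) * E₄ z ^ 3 + (c / 1728) * E₆ z ^ 2 := by
    funext z
    rw [ModularForm.discriminant_eq_E₄_cube_sub_E₆_sq]
    ring
  have h4 : E₄ τ ≠ 0 := by
    intro h0
    rw [h0] at h
    have : c * ModularForm.discriminant τ = 0 := by linear_combination -h
    rcases mul_eq_zero.mp this with h' | h'
    · exact hc0 h'
    · exact hΔ h'
  have h6 : E₆ τ ≠ 0 := by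
    intro h0
    have h1 := ModularForm.discriminant_eq_E₄_cube_sub_E₆_sq τ
    rw [h0] at h1
    have : (1728 - c) * ModularForm.discriminant τ = 0 := by
      linear_combination h + 1728 * h1
    rcases mul_eq_zero.mp this with h' | h'
    · exact hc (sub_eq_zero.mp h').symm
    · exact hΔ h'
  have hab : (1 - c / 1728 : ℂ) ≠ 0 ∨ (c / 1728 : ℂ) ≠ 0 := by
    right
    exact div_ne_zero hc0 (by norm_num)
  rw [hfun]
  apply deriv_pencil_ne_zero _ _ hab h4 h6
  rw [← h, ModularForm.discriminant_eq_E₄_cube_sub_E₆_sq]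
  ring

theorem pencil_1728 (z : ℍ) : E₄ z ^ 3 - 1728 * ModularForm.discriminant z = E₆ z ^ 2 := by
  rw [ModularForm.discriminant_eq_E₄_cube_sub_E₆_sq]
  ring

theorem S_inv_smul_I : ModularGroup.S⁻¹ • (I : ℍ) = I := by
  rw [inv_smul_eq_iff]
  exact S_smul_I.symm

theorem S_smul_I' : ModularGroup.S • (I : ℍ) = I := by
  exact S_smul_I

theorem ST_smul_rho' : (ModularGroup.S * ModularGroup.T) • rho = rho := by
  exact ST_smul_rho

end Fermat.Agent.S24
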