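import Fermat.Agent.S24.Taylor
import Fermat.Agent.S24.Cusp
import Fermat.Agent.S24.Distinct
import Fermat.Agent.S24.Orders

/-!
# S24 / (A10) the local data of the modular function field  (OWNER: see table `s24_modules`)

Above `c ∈ ℚ̄`: choose `τ_c ∈ ℍ` with `j(τ_c) = ι c` (`τ_{1728} = i`, `τ_0 = ρ`), take the
embeddings attached to the Taylor evaluation at `τ_c`.  `σ_x(j - c) · ev(Δ) = ev(E₄³ - ι(c) Δ)`
(`isRep_j_sub`, `tr_eq_of_levelOne`), `Δ(τ_c) ≠ 0`, and `E₄³ - ι(c) Δ` vanishes at `τ_c` to order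
`1` (generic, `deriv_pencil_generic`), `2` (`= E₆²`, `c = 1728`), `3` (`= E₄³`, `c = 0`).
Monodromy: trivial, `S` (rotation `-1`), `S T` (rotation a primitive cube root of unity).

Above `∞`: the `q^{1/N}`-evaluation; `σ_x(j⁻¹) · ev(E₄³) = ev(Δ)`, of order `N`;
monodromy `T`, rotation `exp(-2πi/N)`.

Statements FROZEN; extra lemmas welcome (prefix `lda_`).
-/

set_option autoImplicit false

namespace Fermat.Agent.S24

open AlgebraicCurve HahnSeries IntermediateField UpperHalfPlane ModularForm EisensteinSeries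
open Fermat.Agent.S20
open scoped MatrixGroups ModularForm Manifold

/-- The order of `f(q^N)`. -/
theorem lda_order_qExpand (N : ℕ) [NeZero N] (f : LaurentSeries ℂ) (hf : f ≠ 0) :
    (ModularCurve.qExpand ℂ N f).order = (N : ℤ) * f.order := by
  have hcoeff' : (ModularCurve.qExpand ℂ N f).coeff ((N : ℤ) * f.order) ≠ 0 := by
    rw [ModularCurve.qExpand_coeff_mul]
    exact fun h => hf (HahnSeries.coeff_order_eq_zero.mp h)
  have hne : ModularCurve.qExpand ℂ N f ≠ 0 := HahnSeries.ne_zero_of_coeff_ne_zero hcoeff'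
  have hbelow : ∀ k : ℤ, k < (N : ℤ) * f.order → (ModularCurve.qExpand ℂ N f).coeff k = 0 := by
    intro k hk
    by_cases hdvd : (N : ℤ) ∣ k
    · obtain ⟨j, rfl⟩ := hdvd
      rw [ModularCurve.qExpand_coeff_mul]
      refine HahnSeries.coeff_eq_zero_of_lt_order ?_
      have hp : (0 : ℤ) < (N : ℤ) := by exact_mod_cast Nat.pos_of_ne_zero (NeZero.ne N)
      exact lt_of_mul_lt_mul_left hk hp.le
    · exact ModularCurve.qExpand_coeff_of_not_dvd N f hdvd
  refine le_antisymm (HahnSeries.order_le_of_coeff_ne_zero hcoeff') ?_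
  by_contra hlt
  rw [not_le] at hlt
  exact hne (HahnSeries.coeff_order_eq_zero.mp (hbelow _ hlt))

/-- The evaluation of the translates of a form which is pointwise equal to `F`. -/
theorem lda_evTr_eq {N : ℕ} [NeZero N] (Λ : Evaluation N) {k : ℤ} (g : ModularForm (G0 N) k)
    (F : ModularForm 𝒮ℒ k) (hg : ∀ z, g z = F z) (φ : ℍ → ℂ) (hφ : ∀ z, F z = φ z) (x : Q N) :
    ∃ hmem : φ ∈ Λ.dom, Λ.evTr g x = Λ.ev ⟨φ, hmem⟩ := by
  have h1 : tr g x = φ := by
    funext z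
    rw [tr_eq_of_levelOne N F g hg x z, hφ]
  have hmem : φ ∈ Λ.dom := h1 ▸ Λ.tr_mem g x
  refine ⟨hmem, ?_⟩
  unfold Evaluation.evTr
  congr 1
  exact Subtype.ext h1

/-- The order of `σ_x f` from a representation. -/
theorem lda_order_of_rep {N : ℕ} [NeZero N] {Λ : Evaluation N}
    {σ : Q N → FN N →+* LaurentSeries ℂ} (hσ : IsEmbeddingOf Λ σ) (f : FN N) {k : ℤ}
    (g₁ g₂ : ModularForm (G0 N) k) (hrep : IsRep N f g₁ g₂) (x : Q N) (a b : ℤ)
    (h1 : (Λ.evTr g₁ x).order = a) (h1' : Λ.evTr g₁ x ≠ 0) (h2 : (Λ.evTr g₂ x).order = b) :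
    (σ x f).order = a - b := by
  have h := hσ x f k g₁ g₂ hrep
  have hne2 : Λ.evTr g₂ x ≠ 0 := evTr_ne_zero Λ g₂ hrep.1 x
  have hne : σ x f ≠ 0 := by
    intro h0
    rw [h0, zero_mul] at h
    exact h1' h.symm
  have := HahnSeries.order_mul hne hne2
  rw [h, h1, h2] at this
  omega

/-- Assembly of the local data from an evaluation. -/
theorem lda_core (N : ℕ) [NeZero N] (t : FN N) (Λ : Evaluation N)
    (σ : Q N → FN N →+* LaurentSeries ℂ) (hσ : IsEmbeddingOf Λ σ)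
    (ht : ∀ x y : Q N, σ x t = σ y t)
    (m : ℕ) (hm : 0 < m) (δ : SL(2, ℤ)) (ζ : ℂ) (hζ : IsPrimitiveRoot ζ m)
    (hΛ : Λ.IsEquivariant δ ζ) (hord : ∀ x : Q N, (σ x t).order = (m : ℤ)) :
    ∃ D : LocalData iota (Q N) t, D.m = m ∧ D.ρ = MulAction.toPerm δ :=
  ⟨{ σ := σ
     σ_const := fun x a => hσ.const x a
     σ_inj := hσ.injective
     σ_t := ht
     m := m
     m_pos := hm
     order_t := hord
     ρ := MulAction.toPerm δ
     ζ := ζ
     hζ := hζ
     order_ρ := fun x f => (hσ.equivariant hΛ x f).1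
     lc_ρ := fun x f => (hσ.equivariant hΛ x f).2 }, rfl, rfl⟩

/-- The local data above `c`, from the order of vanishing of `E₄³ - ι(c) Δ` at a point `τ₀`
fixed by `δ`. -/
theorem lda_fin (N : ℕ) [NeZero N] (c : Kb) (τ₀ : ℍ) (m : ℕ) (hm : 0 < m)
    (δ : SL(2, ℤ)) (hδ : δ • τ₀ = τ₀) (hζ : IsPrimitiveRoot (denom δ⁻¹ τ₀ ^ (-2 : ℤ)) m)
    (hord : ∀ Λ : Evaluation N,
      (∀ h : ℍ → ℂ, h ∈ Λ.dom ↔ MDifferentiable 𝓘(ℂ) 𝓘(ℂ) h) →
      (∀ h : Λ.dom, (h : ℍ → ℂ) τ₀ = 0 → deriv ((h : ℍ → ℂ) ∘ ofComplex) τ₀ ≠ 0 →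
        (Λ.ev h).order = 1) →
      ∀ hmem : (fun z : ℍ => E₄ z ^ 3 - iota c * ModularForm.discriminant z) ∈ Λ.dom,
        (Λ.ev ⟨_, hmem⟩).order = (m : ℤ)) :
    ∃ D : LocalData iota (Q N) (jF N - algebraMap Kb (FN N) c),
      D.m = m ∧ D.ρ = MulAction.toPerm δ := by
  obtain ⟨Λ, hdom, h0, h1, -, heq⟩ := exists_taylorEval N τ₀
  obtain ⟨σ, hσ⟩ := exists_embedding Λ
  refine lda_core N _ Λ σ hσ (fun x y => (hσ.levelOne x y c).1) m hm δ _ hζ (heq δ hδ) ?_
  intro x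
  obtain ⟨g₁, g₂, hrep, hg1, hg2⟩ := isRep_j_sub N c
  obtain ⟨hm1, e1⟩ := lda_evTr_eq Λ g₁ (rcComb (1 - iota c / 1728) (iota c / 1728))
    (fun z => by rw [hg1, emb_pencil_apply])
    (fun z : ℍ => E₄ z ^ 3 - iota c * ModularForm.discriminant z)
    (fun z => emb_pencil_apply _ z) x
  obtain ⟨hm2, e2⟩ := lda_evTr_eq Λ g₂ (rcComb (1 / 1728) (-(1 / 1728)))
    (fun z => by rw [hg2, emb_delta_apply])
    (fun z : ℍ => ModularForm.discriminant z)
    (fun z => emb_delta_apply z) x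
  have o1 : (Λ.evTr g₁ x).order = (m : ℤ) := by
    rw [e1]
    exact hord Λ hdom h1 hm1
  have o2 : (Λ.evTr g₂ x).order = 0 := by
    rw [e2]
    exact h0 _ (ModularForm.discriminant_ne_zero τ₀)
  have hne : Λ.evTr g₁ x ≠ 0 := by
    intro h
    rw [h, HahnSeries.order_zero] at o1
    omega
  have := lda_order_of_rep hσ _ g₁ g₂ hrep x _ _ o1 hne o2
  rw [this, sub_zero]

theorem lda_iota_injective : Function.Injective iota := iota.injective

theorem lda_denom_one (τ₀ : ℍ) : denom (1 : SL(2, ℤ))⁻¹ τ₀ ^ (-2 : ℤ) = 1 := by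
  simp [denom]

theorem exists_localData_fin (N : ℕ) [NeZero N] (c : Kb) :
    ∃ D : LocalData iota (Q N) (jF N - algebraMap Kb (FN N) c),
      (c ≠ 0 → c ≠ 1728 → D.m = 1) ∧
      (c = 1728 → D.ρ = MulAction.toPerm (ModularGroup.S : SL(2, ℤ))) ∧
      (c = 0 → D.ρ = MulAction.toPerm (ModularGroup.S * ModularGroup.T : SL(2, ℤ))) := by
  by_cases hc0 : c = 0
  · -- `c = 0`, `τ₀ = ρ`, order `3`
    subst hc0
    have hST : IsPrimitiveRoot
        (denom ((ModularGroup.S * ModularGroup.T : SL(2, ℤ)) : GL (Fin 2) ℝ)⁻¹ (rho : ℍ) ^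
          (-2 : ℤ)) 3 := by
      have := isPrimitiveRoot_denom_ST_inv_rho
      simpa only [map_mul] using this
    obtain ⟨D, -, hD⟩ := lda_fin N 0 rho 3 (by norm_num) (ModularGroup.S * ModularGroup.T)
      ST_smul_rho' hST (by
        intro Λ hdom h1 hmem
        have h4 : (⇑E₄ : ℍ → ℂ) ∈ Λ.dom := (hdom _).mpr (ModularFormClass.holo E₄)
        have e : (⟨_, hmem⟩ : Λ.dom) = ⟨_, h4⟩ ^ 3 := by
          refine Subtype.ext ?_
          funext z
          simp
        rw [e, map_pow, HahnSeries.order_pow, h1 ⟨_, h4⟩ E4_rho (deriv_E4_ne_zero E4_rho)]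
        norm_num)
    refine ⟨D, fun h => absurd rfl h, fun h => ?_, fun _ => hD⟩
    exact absurd h (by norm_num)
  by_cases hc : c = 1728
  · -- `c = 1728`, `τ₀ = i`, order `2`
    subst hc
    have hS : IsPrimitiveRoot (denom (ModularGroup.S : SL(2, ℤ))⁻¹ (I : ℍ) ^ (-2 : ℤ)) 2 := by
      rw [denom_S_inv_I]
      exact IsPrimitiveRoot.neg_one 0 (by norm_num)
    obtain ⟨D, -, hD⟩ := lda_fin N 1728 I 2 (by norm_num) ModularGroup.S
      S_smul_I' hS (by
        intro Λ hdom h1 hmem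
        have h6 : (⇑E₆ : ℍ → ℂ) ∈ Λ.dom := (hdom _).mpr (ModularFormClass.holo E₆)
        have e : (⟨_, hmem⟩ : Λ.dom) = ⟨_, h6⟩ ^ 2 := by
          refine Subtype.ext ?_
          funext z
          have := pencil_1728 z
          rw [← show iota 1728 = 1728 from map_ofNat iota 1728] at this
          simpa using this
        rw [e, map_pow, HahnSeries.order_pow, h1 ⟨_, h6⟩ E6_I (deriv_E6_ne_zero E6_I)]
        norm_num)
    exact ⟨D, fun _ h => absurd rfl h, fun _ => hD, fun h => absurd h hc0⟩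
  · -- generic `c`
    have hi0 : iota c ≠ 0 := fun h => hc0 (lda_iota_injective (h.trans (map_zero iota).symm))
    have hi : iota c ≠ 1728 := fun h =>
      hc (lda_iota_injective (h.trans (map_ofNat iota 1728).symm))
    obtain ⟨τ₀, hτ₀⟩ := exists_zero_pencil (iota c)
    obtain ⟨D, hD, -⟩ := lda_fin N c τ₀ 1 one_pos 1 (one_smul _ τ₀)
      (by rw [lda_denom_one]; exact IsPrimitiveRoot.one) (by
        intro Λ hdom h1 hmem
        rw [h1 ⟨_, hmem⟩ hτ₀ (deriv_pencil_generic (iota c) hi0 hi τ₀ hτ₀)]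
        norm_num)
    exact ⟨D, fun _ _ => hD, fun h => absurd h hc, fun h => absurd h hc0⟩

theorem exists_localData_inf (N : ℕ) [NeZero N] :
    ∃ D : LocalData iota (Q N) (jF N)⁻¹,
      D.ρ = MulAction.toPerm (ModularGroup.T : SL(2, ℤ)) := by
  obtain ⟨Λ, -, -, hlev, heq⟩ := exists_cuspEval N
  obtain ⟨σ, hσ⟩ := exists_embedding Λ
  have hN : 0 < N := Nat.pos_of_ne_zero (NeZero.ne N)
  obtain ⟨D, -, hD⟩ := lda_core N (jF N)⁻¹ Λ σ hσ (fun x y => (hσ.levelOne x y 0).2) N hN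
    ModularGroup.T _ (isPrimitiveRoot_exp_neg N) heq (by
      intro x
      obtain ⟨g₁, g₂, hrep, hg1, hg2⟩ := isRep_j_inv N
      obtain ⟨hm1, e1⟩ := lda_evTr_eq Λ g₁ (rcComb (1 / 1728) (-(1 / 1728)))
        (fun z => by rw [hg1, emb_delta_apply])
        (⇑(rcComb (1 / 1728) (-(1 / 1728)))) (fun z => rfl) x
      obtain ⟨hm2, e2⟩ := lda_evTr_eq Λ g₂ (rcComb 1 0)
        (fun z => by rw [hg2, emb_E4cube_apply])
        (⇑(rcComb 1 0)) (fun z => rfl) x
      have q1 : qL (⇑(rcComb (1 / 1728) (-(1 / 1728)))) = qL ModularForm.discriminant := by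
        congr 1
        funext z
        exact emb_delta_apply z
      have q2 : qL (⇑(rcComb 1 0)) = qL E₄ ^ 3 := by
        have h3 : (⇑(rcComb 1 0) : ℍ → ℂ) = ⇑(E₄.pow 3) := by
          funext z
          rw [emb_E4cube_apply, ModularForm.coe_pow, Pi.pow_apply]
        unfold qL
        rw [h3, ModularForm.qExpansion_pow one_pos one_mem_strictPeriods_SL, map_pow]
      have o1 : (Λ.evTr g₁ x).order = (N : ℤ) := by
        rw [e1, hlev _ hm1, q1, lda_order_qExpand N _ qL_discriminant_ne_zero,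
          order_qL_discriminant, mul_one]
      have o2 : (Λ.evTr g₂ x).order = 0 := by
        rw [e2, hlev _ hm2, q2, lda_order_qExpand N _ (pow_ne_zero 3 qL_E4_ne_zero),
          HahnSeries.order_pow, order_qL_E4]
        simp
      have hne : Λ.evTr g₁ x ≠ 0 := by
        intro h
        rw [h, HahnSeries.order_zero] at o1
        omega
      have := lda_order_of_rep hσ _ g₁ g₂ hrep x _ _ o1 hne o2
      rw [this, sub_zero])
  exact ⟨D, hD⟩

end Fermat.Agent.S24
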