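import Fermat.Agent.S24.RH
import Fermat.Agent.S24.LocalDataAn
import Fermat.Agent.S24.DegreeBound
import Fermat.Agent.S24.Count
import Fermat.Agent.S20.Assembly

/-!
# S24: final assembly  (OWNER: helper4)

`genus = (deg (div ω) + 2).toNat / 2` and `deg (div ω) = (μ - o_S) + (μ - o_{ST}) - (μ + o_T)`
(`riemann_hurwitz`) with `2 o_S = μ + ν₂`, `3 o_{ST} = μ + 2 ν₃`, `o_T = ν_∞` (`Count.lean`);
`genusFormula N` is a natural number by S20.
-/

set_option autoImplicit false

namespace Fermat.Agent.S24

open AlgebraicCurve HahnSeries IntermediateField UpperHalfPlane ModularCurve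
open Fermat.Agent.S20
open scoped MatrixGroups ModularForm

theorem s24_assembly (N : ℕ) [NeZero N]
    [AlgebraicCurve.HasCanonicalDivisor (K := AlgebraicClosure ℚ)
      (F := ↥(ModularCurve.modularFunctionFieldBar N))] :
    (AlgebraicCurve.genus (AlgebraicClosure ℚ) ↥(ModularCurve.modularFunctionFieldBar N) : ℚ)
      = ModularCurve.genusFormula N := by
  classical
  -- the analytic input
  choose Dfin hDfin using exists_localData_fin N
  obtain ⟨Dinf, hDinf⟩ := exists_localData_inf N
  have hj := jF_transcendental N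
  have := finiteDimensional_FN N
  have hdeg : Module.finrank Kb⟮jF N⟯ (FN N) ≤ Fintype.card (Q N) := by
    rw [← Nat.card_eq_fintype_card]
    exact finrank_FN_le N
  have hgen : ∀ c : Kb, c ∉ ({0, 1728} : Finset Kb) → (Dfin c).m = 1 := by
    intro c hc
    simp only [Finset.mem_insert, Finset.mem_singleton, not_or] at hc
    exact (hDfin c).1 hc.1 hc.2
  have hex : ∃ ω : Ω[FN N⁄Kb], ω ≠ 0 := exists_differential_ne_zero iota (jF N) Dinf
  -- the degree of the canonical divisor
  have hRH := riemann_hurwitz iota (jF N) hj hdeg Dfin Dinf {0, 1728} hgen hex.choose_spec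
  have h01728 : (0 : Kb) ≠ 1728 := by norm_num
  rw [Finset.sum_pair h01728, (hDfin 0).2.2 rfl, (hDfin 1728).2.1 rfl, hDinf, card_Q] at hRH
  have hS := numOrbits_S N
  have hST := numOrbits_ST N
  have hT := numOrbits_T N
  rw [hT] at hRH
  -- the genus formula is a natural number
  have hg := s20_assembly N
  set g₀ := Module.finrank ℂ (CuspForm (CongruenceSubgroup.Gamma0 N) 2) with hg₀
  -- conclusion
  have hgenus : AlgebraicCurve.genus (AlgebraicClosure ℚ)
      ↥(ModularCurve.modularFunctionFieldBar N) =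
      (Divisor.degree (canonicalDivisorOf hex.choose_spec) + 2).toNat / 2 := by
    unfold AlgebraicCurve.genus
    rw [dif_pos hex]
  have key : Divisor.degree (canonicalDivisorOf hex.choose_spec) + 2 = 2 * (g₀ : ℤ) := by
    have h1 : ((Divisor.degree (canonicalDivisorOf hex.choose_spec) + 2 : ℤ) : ℚ) =
        ((2 * (g₀ : ℤ) : ℤ) : ℚ) := by
      rw [hRH]
      push_cast
      rw [hg, genusFormula]
      have hS' : (numOrbits (MulAction.toPerm (ModularGroup.S : SL(2, ℤ)) :
          Equiv.Perm (Q N)) : ℚ) = ((dedekindPsi N : ℚ) + nuTwo N) / 2 := by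
        have : (2 : ℚ) * numOrbits (MulAction.toPerm (ModularGroup.S : SL(2, ℤ)) :
            Equiv.Perm (Q N)) = dedekindPsi N + nuTwo N := by exact_mod_cast hS
        linarith
      have hST' : (numOrbits (MulAction.toPerm (ModularGroup.S * ModularGroup.T : SL(2, ℤ)) :
          Equiv.Perm (Q N)) : ℚ) = ((dedekindPsi N : ℚ) + 2 * nuThree N) / 3 := by
        have : (3 : ℚ) * numOrbits
            (MulAction.toPerm (ModularGroup.S * ModularGroup.T : SL(2, ℤ)) :
              Equiv.Perm (Q N)) = dedekindPsi N + 2 * nuThree N := by exact_mod_cast hST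
        linarith
      rw [hS', hST']
      ring
    exact_mod_cast h1
  rw [hgenus, key, ← hg]
  have : (2 * (g₀ : ℤ)).toNat / 2 = g₀ := by
    have h2 : (2 * (g₀ : ℤ)).toNat = 2 * g₀ := by omega
    rw [h2]
    omega
  rw [this]

end Fermat.Agent.S24
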