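import Mathlib
import Fermat.Prelude.Def_ModularCurve_ArithmeticGalois
import Fermat.Prelude.Def_ModularCurve_GenusNumerics
import Fermat.Prelude.Def_AlgebraicCurve_CanonicalDivisor

/-!
# S24 (genus of the modular function field): abstract definitions  (OWNER: helper4)

`F / K` is a function field of one variable (`IsFF1`), `K` algebraically closed of
characteristic `0`.  Places are studied through ring embeddings `σ : F →+* L⸨s⸩`
(`L ⊇ K` via `ι : K →+* L`): `σ` *induces* the place `P` when `𝒪_P = σ⁻¹(L⟦s⟧)`.

`LocalData ι X t` packages `|X|` pairwise distinct embeddings which agree on `t`, with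
`ord_s σ(t) = m > 0`, together with a permutation `ρ` of `X` which changes `σ_x` by a
"rotation of order `m`" (the local monodromy).  The abstract theorem (`Local.lean`) says that,
when `[F : K(t)] ≤ |X|`, the zeros of `t` are exactly the places induced by the `σ_x`, they are
in bijection with the `ρ`-orbits, and `ord_P t` is the size of the orbit.

FROZEN.  Do not change (tell helper4 if something is wrong).
-/

set_option autoImplicit false

namespace Fermat.Agent.S24

open AlgebraicCurve HahnSeries IntermediateField

section Abstract

variable {K F L : Type*} [Field K] [Field F] [Algebra K F] [Field L]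

/-- `F / K` is a function field of one variable: finite over `K(t)` for some transcendental `t`. -/
def IsFF1 (K F : Type*) [Field K] [Field F] [Algebra K F] : Prop :=
  ∃ t : F, Transcendental K t ∧ FiniteDimensional K⟮t⟯ F

/-- The embedding `σ` induces the place `P`: `𝒪_P = σ⁻¹(L⟦s⟧)`.
(`HahnSeries.order 0 = 0`, so the statement is also correct for `f = 0`.) -/
def Induces (σ : F →+* LaurentSeries L) (P : Place K F) : Prop :=
  ∀ f : F, f ∈ P.toValuationSubring ↔ 0 ≤ (σ f).order

/-- The zeros of `t`. -/
def zeroSet (K : Type*) {F : Type*} [Field K] [Field F] [Algebra K F] (t : F) :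
    Set (Place K F) :=
  {P | 0 < P.ord t}

/-- Local uniformisation data above the point `t = 0`. -/
structure LocalData (ι : K →+* L) (X : Type) (t : F) where
  /-- the embeddings -/
  σ : X → F →+* LaurentSeries L
  σ_const : ∀ (x : X) (a : K), σ x (algebraMap K F a) = HahnSeries.C (ι a)
  σ_inj : Function.Injective σ
  σ_t : ∀ x y : X, σ x t = σ y t
  /-- the order of `t` in the local parameter -/
  m : ℕ
  m_pos : 0 < m
  order_t : ∀ x : X, (σ x t).order = (m : ℤ)
  /-- the local monodromy -/
  ρ : Equiv.Perm X
  /-- the rotation number -/
  ζ : L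
  hζ : IsPrimitiveRoot ζ m
  order_ρ : ∀ (x : X) (f : F), (σ (ρ x) f).order = (σ x f).order
  lc_ρ : ∀ (x : X) (f : F),
    (σ (ρ x) f).leadingCoeff = ζ ^ (σ x f).order * (σ x f).leadingCoeff

/-- The number of orbits of a permutation. -/
noncomputable def numOrbits {X : Type} (ρ : Equiv.Perm X) : ℕ :=
  Nat.card (MulAction.orbitRel.Quotient (Subgroup.zpowers ρ) X)

end Abstract

end Fermat.Agent.S24
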