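import Fermat.Agent.S24.Rep
import Fermat.Agent.S20.RankinCohen

/-!
# S24 / (A5) embeddings of the function field from evaluations of modular forms
(OWNER: see table `s24_modules`)

An `Evaluation N` is an injective ring homomorphism `ev` from a ring `dom` of functions on `ℍ`
(containing the constants and all `SL₂(ℤ)`-translates `tr g x` of modular forms of level
`Γ₀(N)`) to `ℂ⸨s⸩`.  Examples: Taylor expansion at a point of `ℍ` (`Taylor.lean`),
`q^{1/N}`-expansion at `i∞` (`Cusp.lean`).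

For `x : Q N` put `σ_x(f) := ev(tr g₁ x) / ev(tr g₂ x)` for any representation `f = g₁ / g₂`
(`exists_rep`); this is well defined by `IsRep.cross_mul`
(`g₁ h₂ = h₁ g₂` ⟹ `tr g₁ x · tr h₂ x = tr h₁ x · tr g₂ x`), and a ring homomorphism because
representations can be added and multiplied.

`IsEquivariant Λ δ ζ`: translating by `δ` changes orders and leading coefficients of `ev` like a
rotation `s ↦ ζ s` (up to a constant depending on the weight only).

Statements FROZEN; extra lemmas welcome (prefix `emb_`).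
-/

set_option autoImplicit false

namespace Fermat.Agent.S24

open AlgebraicCurve HahnSeries IntermediateField UpperHalfPlane ModularForm EisensteinSeries
open Fermat.Agent.S20
open scoped MatrixGroups ModularForm

/-- An evaluation of modular forms of level `Γ₀(N)` (and of their translates). -/
structure Evaluation (N : ℕ) where
  /-- the domain of the evaluation -/
  dom : Subring (ℍ → ℂ)
  /-- the evaluation -/
  ev : dom →+* LaurentSeries ℂ
  inj : Function.Injective ev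
  const_mem : ∀ c : ℂ, (fun _ : ℍ => c) ∈ dom
  ev_const : ∀ c : ℂ, ev ⟨fun _ : ℍ => c, const_mem c⟩ = HahnSeries.C c
  tr_mem : ∀ {k : ℤ} (g : ModularForm (G0 N) k) (x : Q N), tr g x ∈ dom

/-- The evaluation of a translate. -/
noncomputable def Evaluation.evTr {N : ℕ} (Λ : Evaluation N) {k : ℤ}
    (g : ModularForm (G0 N) k) (x : Q N) : LaurentSeries ℂ :=
  Λ.ev ⟨tr g x, Λ.tr_mem g x⟩

/-- `δ` acts on the evaluation like the rotation `s ↦ ζ s`. -/
def Evaluation.IsEquivariant {N : ℕ} (Λ : Evaluation N) (δ : SL(2, ℤ)) (ζ : ℂ) : Prop :=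
  ∃ a : ℤ → ℂ, (∀ k, a k ≠ 0) ∧
    ∀ (k : ℤ) (g : ModularForm (G0 N) k) (x : Q N),
      (Λ.evTr g (δ • x)).order = (Λ.evTr g x).order ∧
        (Λ.evTr g (δ • x)).leadingCoeff =
          a k * ζ ^ (Λ.evTr g x).order * (Λ.evTr g x).leadingCoeff

/-- `σ` is the family of embeddings attached to the evaluation `Λ`. -/
def IsEmbeddingOf {N : ℕ} (Λ : Evaluation N) (σ : Q N → FN N →+* LaurentSeries ℂ) : Prop :=
  ∀ (x : Q N) (f : FN N) (k : ℤ) (g₁ g₂ : ModularForm (G0 N) k),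
    IsRep N f g₁ g₂ → σ x f * Λ.evTr g₂ x = Λ.evTr g₁ x

theorem evTr_ne_zero {N : ℕ} [NeZero N] (Λ : Evaluation N) {k : ℤ} (g : ModularForm (G0 N) k)
    (hg : g ≠ 0) (x : Q N) : Λ.evTr g x ≠ 0 := by
  intro h
  have h0 : Λ.ev ⟨tr g x, Λ.tr_mem g x⟩ = Λ.ev 0 := by
    rw [map_zero]; exact h
  have h1 := Λ.inj h0
  have h2 : tr g x = 0 := congrArg Subtype.val h1
  exact tr_ne_zero N g hg x h2

/-- `evTr` is additive. -/
theorem emb_evTr_add {N : ℕ} (Λ : Evaluation N) {k : ℤ} (g h : ModularForm (G0 N) k)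
    (x : Q N) : Λ.evTr (g + h) x = Λ.evTr g x + Λ.evTr h x := by
  unfold Evaluation.evTr
  rw [← map_add]
  congr 1
  exact Subtype.ext (tr_add N g h x)

/-- `evTr` is multiplicative. -/
theorem emb_evTr_mul {N : ℕ} (Λ : Evaluation N) {k l : ℤ} (g : ModularForm (G0 N) k)
    (h : ModularForm (G0 N) l) (x : Q N) :
    Λ.evTr (g.mul h) x = Λ.evTr g x * Λ.evTr h x := by
  unfold Evaluation.evTr
  rw [← map_mul]
  congr 1
  exact Subtype.ext (tr_mul N g h x)

theorem emb_evTr_of_eq {N : ℕ} (Λ : Evaluation N) {k l : ℤ} (g : ModularForm (G0 N) k)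
    (h : ModularForm (G0 N) l) (hkl : k = l) (hgh : ∀ z, g z = h z) (x : Q N) :
    Λ.evTr g x = Λ.evTr h x := by
  unfold Evaluation.evTr
  congr 1
  exact Subtype.ext (tr_of_eq N g h hkl hgh x)

/-- The translates of a form of weight `0` with constant values. -/
theorem emb_tr_const {N : ℕ} (g : ModularForm (G0 N) 0) (c : ℂ) (hg : ∀ z, g z = c)
    (x : Q N) : tr g x = fun _ => c := by
  obtain ⟨γ, rfl⟩ := QuotientGroup.mk_surjective x
  funext z
  rw [tr_mk, ModularForm.SL_slash_apply, hg]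
  simp

theorem emb_evTr_const {N : ℕ} (Λ : Evaluation N) (g : ModularForm (G0 N) 0) (c : ℂ)
    (hg : ∀ z, g z = c) (x : Q N) : Λ.evTr g x = HahnSeries.C c := by
  unfold Evaluation.evTr
  rw [← Λ.ev_const c]
  congr 1
  exact Subtype.ext (emb_tr_const g c hg x)

/-- Cross multiplication of two representations. -/
theorem emb_cross {N : ℕ} [NeZero N] (Λ : Evaluation N) {f : FN N} {k k' : ℤ}
    {g₁ g₂ : ModularForm (G0 N) k} {h₁ h₂ : ModularForm (G0 N) k'}
    (hg : IsRep N f g₁ g₂) (hh : IsRep N f h₁ h₂) (x : Q N) :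
    Λ.evTr g₁ x * Λ.evTr h₂ x = Λ.evTr h₁ x * Λ.evTr g₂ x := by
  rw [← emb_evTr_mul, ← emb_evTr_mul]
  refine emb_evTr_of_eq Λ _ _ (add_comm k k') (fun z => ?_) x
  exact hg.cross_mul hh z

/-- The value of the embedding at `f`, through a chosen representation. -/
noncomputable def embVal {N : ℕ} [NeZero N] (Λ : Evaluation N) (x : Q N) (f : FN N) :
    LaurentSeries ℂ :=
  Λ.evTr (exists_rep N f).choose_spec.choose x /
    Λ.evTr (exists_rep N f).choose_spec.choose_spec.choose x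

theorem emb_val_spec {N : ℕ} [NeZero N] (Λ : Evaluation N) (x : Q N) (f : FN N) {k : ℤ}
    (g₁ g₂ : ModularForm (G0 N) k) (hg : IsRep N f g₁ g₂) :
    embVal Λ x f * Λ.evTr g₂ x = Λ.evTr g₁ x := by
  have hh : IsRep N f (exists_rep N f).choose_spec.choose
      (exists_rep N f).choose_spec.choose_spec.choose :=
    (exists_rep N f).choose_spec.choose_spec.choose_spec
  have hne : Λ.evTr (exists_rep N f).choose_spec.choose_spec.choose x ≠ 0 :=
    evTr_ne_zero Λ _ hh.1 x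
  have hc := emb_cross Λ hg hh x
  unfold embVal
  rw [div_mul_eq_mul_div, div_eq_iff hne, mul_comm, hc, mul_comm]

theorem emb_val_unique {N : ℕ} [NeZero N] (Λ : Evaluation N) (x : Q N) (f : FN N) {k : ℤ}
    (g₁ g₂ : ModularForm (G0 N) k) (hg : IsRep N f g₁ g₂) (s : LaurentSeries ℂ)
    (hs : s * Λ.evTr g₂ x = Λ.evTr g₁ x) : embVal Λ x f = s := by
  have hne : Λ.evTr g₂ x ≠ 0 := evTr_ne_zero Λ _ hg.1 x
  have h1 := emb_val_spec Λ x f g₁ g₂ hg
  exact mul_right_cancel₀ hne (h1.trans hs.symm)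

theorem emb_val_const {N : ℕ} [NeZero N] (Λ : Evaluation N) (x : Q N) (a : Kb) :
    embVal Λ x (algebraMap Kb (FN N) a) = HahnSeries.C (iota a) := by
  obtain ⟨g₁, g₂, hrep, h1, h2⟩ := isRep_const N a
  refine emb_val_unique Λ x _ g₁ g₂ hrep _ ?_
  rw [emb_evTr_const Λ g₁ (iota a) h1, emb_evTr_const Λ g₂ 1 h2, map_one, mul_one]

theorem emb_isRep_add {N : ℕ} [NeZero N] {f f' : FN N} {k : ℤ}
    {g₁ g₁' g₂ : ModularForm (G0 N) k} (hf : IsRep N f g₁ g₂) (hf' : IsRep N f' g₁' g₂) :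
    IsRep N (f + f') (g₁ + g₁') g₂ := by
  refine ⟨hf.1, ?_⟩
  rw [map_add, add_mul, hf.2, hf'.2, show (⇑(g₁ + g₁') : ℍ → ℂ) = ⇑g₁ + ⇑g₁' from rfl, qL_add]

theorem emb_isRep_mul {N : ℕ} [NeZero N] {f f' : FN N} {k : ℤ}
    {g₁ g₁' g₂ : ModularForm (G0 N) k} (hf : IsRep N f g₁ g₂) (hf' : IsRep N f' g₁' g₂) :
    IsRep N (f * f') (g₁.mul g₁') (g₂.mul g₂) := by
  refine ⟨?_, ?_⟩
  · intro h
    have h1 : qL (g₂.mul g₂) = 0 := by
      rw [h]
      have := qL_smul N (0 : ℂ) (0 : ModularForm (G0 N) (k + k))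
      simpa using this
    rw [qL_mul] at h1
    have h2 : qL g₂ = 0 := by
      rcases mul_eq_zero.mp h1 with h | h <;> exact h
    have h3 : qL (0 : ModularForm (G0 N) k) = 0 := by
      have := qL_smul N (0 : ℂ) (0 : ModularForm (G0 N) k)
      simpa using this
    exact hf.1 (qL_injective N g₂ 0 (h2.trans h3.symm))
  · rw [map_mul, qL_mul, qL_mul, ← hf.2, ← hf'.2]
    ring

theorem exists_embedding {N : ℕ} [NeZero N] (Λ : Evaluation N) :
    ∃ σ : Q N → FN N →+* LaurentSeries ℂ, IsEmbeddingOf Λ σ := by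
  classical
  have hadd : ∀ (x : Q N) (f f' : FN N),
      embVal Λ x (f + f') = embVal Λ x f + embVal Λ x f' := by
    intro x f f'
    obtain ⟨k, g₂, g₁, hrep⟩ := exists_rep_common N ![f, f']
    have h0 : IsRep N f (g₁ 0) g₂ := hrep 0
    have h1 : IsRep N f' (g₁ 1) g₂ := hrep 1
    refine emb_val_unique Λ x _ _ g₂ (emb_isRep_add h0 h1) _ ?_
    rw [add_mul, emb_val_spec Λ x f _ _ h0, emb_val_spec Λ x f' _ _ h1, emb_evTr_add]
  have hmul : ∀ (x : Q N) (f f' : FN N),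
      embVal Λ x (f * f') = embVal Λ x f * embVal Λ x f' := by
    intro x f f'
    obtain ⟨k, g₂, g₁, hrep⟩ := exists_rep_common N ![f, f']
    have h0 : IsRep N f (g₁ 0) g₂ := hrep 0
    have h1 : IsRep N f' (g₁ 1) g₂ := hrep 1
    refine emb_val_unique Λ x _ _ _ (emb_isRep_mul h0 h1) _ ?_
    rw [emb_evTr_mul, emb_evTr_mul, ← emb_val_spec Λ x f _ _ h0, ← emb_val_spec Λ x f' _ _ h1]
    ring
  have hone : ∀ x : Q N, embVal Λ x 1 = 1 := by
    intro x
    have := emb_val_const Λ x 1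
    rwa [map_one, map_one, map_one] at this
  have hzero : ∀ x : Q N, embVal Λ x 0 = 0 := by
    intro x
    have := emb_val_const Λ x 0
    rwa [map_zero, map_zero, map_zero] at this
  refine ⟨fun x =>
    { toFun := embVal Λ x
      map_one' := hone x
      map_mul' := hmul x
      map_zero' := hzero x
      map_add' := hadd x }, ?_⟩
  intro x f k g₁ g₂ hrep
  exact emb_val_spec Λ x f g₁ g₂ hrep

theorem IsEmbeddingOf.const {N : ℕ} [NeZero N] {Λ : Evaluation N}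
    {σ : Q N → FN N →+* LaurentSeries ℂ} (hσ : IsEmbeddingOf Λ σ) (x : Q N) (a : Kb) :
    σ x (algebraMap Kb (FN N) a) = HahnSeries.C (iota a) := by
  obtain ⟨g₁, g₂, hrep, h1, h2⟩ := isRep_const N a
  have h := hσ x _ 0 g₁ g₂ hrep
  rw [emb_evTr_const Λ g₁ (iota a) h1, emb_evTr_const Λ g₂ 1 h2, map_one, mul_one] at h
  exact h

/-- Two representations by forms which are pointwise of level one. -/
theorem emb_levelOne_aux {N : ℕ} [NeZero N] {Λ : Evaluation N}
    {σ : Q N → FN N →+* LaurentSeries ℂ} (hσ : IsEmbeddingOf Λ σ) (x y : Q N) (f : FN N)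
    {k : ℤ} (g₁ g₂ : ModularForm (G0 N) k) (hrep : IsRep N f g₁ g₂)
    (F₁ F₂ : ModularForm 𝒮ℒ k) (h1 : ∀ z, g₁ z = F₁ z) (h2 : ∀ z, g₂ z = F₂ z) :
    σ x f = σ y f := by
  have hx := hσ x f k g₁ g₂ hrep
  have hy := hσ y f k g₁ g₂ hrep
  have e1 : Λ.evTr g₁ x = Λ.evTr g₁ y := by
    unfold Evaluation.evTr
    congr 1
    refine Subtype.ext ?_
    funext z
    show tr g₁ x z = tr g₁ y z
    rw [tr_eq_of_levelOne N F₁ g₁ h1 x z, tr_eq_of_levelOne N F₁ g₁ h1 y z]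
  have e2 : Λ.evTr g₂ x = Λ.evTr g₂ y := by
    unfold Evaluation.evTr
    congr 1
    refine Subtype.ext ?_
    funext z
    show tr g₂ x z = tr g₂ y z
    rw [tr_eq_of_levelOne N F₂ g₂ h2 x z, tr_eq_of_levelOne N F₂ g₂ h2 y z]
  have hne : Λ.evTr g₂ y ≠ 0 := evTr_ne_zero Λ _ hrep.1 y
  rw [e1, e2] at hx
  exact mul_right_cancel₀ hne (hx.trans hy.symm)

/-- `Δ` as a combination of `E₄³` and `E₆²`. -/
theorem emb_delta_apply (z : ℍ) :
    rcComb (1 / 1728) (-(1 / 1728)) z = ModularForm.discriminant z := by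
  rw [rcComb_apply, discriminant_eq_E₄_cube_sub_E₆_sq]
  ring

theorem emb_pencil_apply (c : ℂ) (z : ℍ) :
    rcComb (1 - c / 1728) (c / 1728) z = E₄ z ^ 3 - c * ModularForm.discriminant z := by
  rw [rcComb_apply, discriminant_eq_E₄_cube_sub_E₆_sq]
  ring

theorem emb_E4cube_apply (z : ℍ) : rcComb 1 0 z = E₄ z ^ 3 := by
  rw [rcComb_apply]
  ring

/-- Elements of `ℚ̄(j)` have the same image under all `σ_x`. -/
theorem IsEmbeddingOf.levelOne {N : ℕ} [NeZero N] {Λ : Evaluation N}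
    {σ : Q N → FN N →+* LaurentSeries ℂ} (hσ : IsEmbeddingOf Λ σ) (x y : Q N) (c : Kb) :
    σ x (jF N - algebraMap Kb (FN N) c) = σ y (jF N - algebraMap Kb (FN N) c) ∧
      σ x (jF N)⁻¹ = σ y (jF N)⁻¹ := by
  constructor
  · obtain ⟨g₁, g₂, hrep, h1, h2⟩ := isRep_j_sub N c
    exact emb_levelOne_aux hσ x y _ g₁ g₂ hrep (rcComb (1 - iota c / 1728) (iota c / 1728))
      (rcComb (1 / 1728) (-(1 / 1728)))
      (fun z => by rw [h1, emb_pencil_apply]) (fun z => by rw [h2, emb_delta_apply])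
  · obtain ⟨g₁, g₂, hrep, h1, h2⟩ := isRep_j_inv N
    exact emb_levelOne_aux hσ x y _ g₁ g₂ hrep (rcComb (1 / 1728) (-(1 / 1728)))
      (rcComb 1 0)
      (fun z => by rw [h1, emb_delta_apply]) (fun z => by rw [h2, emb_E4cube_apply])

theorem IsEmbeddingOf.equivariant {N : ℕ} [NeZero N] {Λ : Evaluation N}
    {σ : Q N → FN N →+* LaurentSeries ℂ} (hσ : IsEmbeddingOf Λ σ) {δ : SL(2, ℤ)} {ζ : ℂ}
    (hΛ : Λ.IsEquivariant δ ζ) (x : Q N) (f : FN N) :
    (σ (δ • x) f).order = (σ x f).order ∧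
      (σ (δ • x) f).leadingCoeff = ζ ^ (σ x f).order * (σ x f).leadingCoeff := by
  obtain ⟨a, ha, hΛ'⟩ := hΛ
  obtain ⟨k, g₁, g₂, hrep⟩ := exists_rep N f
  by_cases hf : f = 0
  · subst hf
    simp
  have hg₁ : g₁ ≠ 0 := fun h => hf (hrep.eq_zero_iff.mpr h)
  have hσx : σ x f ≠ 0 := (map_ne_zero (σ x)).mpr hf
  have hσy : σ (δ • x) f ≠ 0 := (map_ne_zero (σ (δ • x))).mpr hf
  have hx := hσ x f k g₁ g₂ hrep
  have hy := hσ (δ • x) f k g₁ g₂ hrep
  have n1x : Λ.evTr g₁ x ≠ 0 := evTr_ne_zero Λ _ hg₁ x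
  have n2x : Λ.evTr g₂ x ≠ 0 := evTr_ne_zero Λ _ hrep.1 x
  have n1y : Λ.evTr g₁ (δ • x) ≠ 0 := evTr_ne_zero Λ _ hg₁ (δ • x)
  have n2y : Λ.evTr g₂ (δ • x) ≠ 0 := evTr_ne_zero Λ _ hrep.1 (δ • x)
  obtain ⟨o1, l1⟩ := hΛ' k g₁ x
  obtain ⟨o2, l2⟩ := hΛ' k g₂ x
  -- orders
  have hox : (σ x f).order + (Λ.evTr g₂ x).order = (Λ.evTr g₁ x).order := by
    rw [← HahnSeries.order_mul hσx n2x, hx]
  have hoy : (σ (δ • x) f).order + (Λ.evTr g₂ (δ • x)).order = (Λ.evTr g₁ (δ • x)).order := by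
    rw [← HahnSeries.order_mul hσy n2y, hy]
  have hord : (σ (δ • x) f).order = (σ x f).order := by
    rw [o1, o2] at hoy
    omega
  refine ⟨hord, ?_⟩
  -- leading coefficients
  have hlx : (σ x f).leadingCoeff * (Λ.evTr g₂ x).leadingCoeff
      = (Λ.evTr g₁ x).leadingCoeff := by
    rw [← HahnSeries.leadingCoeff_mul, hx]
  have hly : (σ (δ • x) f).leadingCoeff * (Λ.evTr g₂ (δ • x)).leadingCoeff
      = (Λ.evTr g₁ (δ • x)).leadingCoeff := by
    rw [← HahnSeries.leadingCoeff_mul, hy]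
  rw [l1, l2] at hly
  have hlc2 : (Λ.evTr g₂ x).leadingCoeff ≠ 0 := HahnSeries.leadingCoeff_ne_zero.mpr n2x
  have hlc1 : (Λ.evTr g₁ x).leadingCoeff ≠ 0 := HahnSeries.leadingCoeff_ne_zero.mpr n1x
  have hak : a k ≠ 0 := ha k
  by_cases hζ : ζ = 0
  · -- then all orders vanish
    subst hζ
    have hz1 : (0 : ℂ) ^ (Λ.evTr g₁ x).order ≠ 0 := by
      intro h
      have hl := HahnSeries.leadingCoeff_ne_zero.mpr n1y
      rw [l1, h] at hl
      simp at hl
    have hz2 : (0 : ℂ) ^ (Λ.evTr g₂ x).order ≠ 0 := by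
      intro h
      have hl := HahnSeries.leadingCoeff_ne_zero.mpr n2y
      rw [l2, h] at hl
      simp at hl
    have e1 : (Λ.evTr g₁ x).order = 0 := by
      by_contra h
      exact hz1 (zero_zpow _ h)
    have e2 : (Λ.evTr g₂ x).order = 0 := by
      by_contra h
      exact hz2 (zero_zpow _ h)
    have e0 : (σ x f).order = 0 := by omega
    rw [e1, e2] at hly
    rw [e0]
    simp only [zpow_zero, mul_one, one_mul] at hly ⊢
    have h3 : (σ (δ • x) f).leadingCoeff * (a k * (Λ.evTr g₂ x).leadingCoeff)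
        = (σ x f).leadingCoeff * (a k * (Λ.evTr g₂ x).leadingCoeff) := by
      rw [hly, ← hlx]
      ring
    exact mul_right_cancel₀ (mul_ne_zero hak hlc2) h3
  · have hz2 : ζ ^ (Λ.evTr g₂ x).order ≠ 0 := zpow_ne_zero _ hζ
    have h3 : (σ (δ • x) f).leadingCoeff * (a k * ζ ^ (Λ.evTr g₂ x).order
          * (Λ.evTr g₂ x).leadingCoeff)
        = (ζ ^ (σ x f).order * (σ x f).leadingCoeff) * (a k * ζ ^ (Λ.evTr g₂ x).order
          * (Λ.evTr g₂ x).leadingCoeff) := by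
      rw [hly, ← hlx, ← hox, zpow_add₀ hζ]
      ring
    exact mul_right_cancel₀ (mul_ne_zero (mul_ne_zero hak hz2) hlc2) h3

end Fermat.Agent.S24
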