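import Mathlib
import Fermat.Prelude.Def_AlgebraicCurve_DivisorClassGroup

/-!
# S24 / general function-field lemmas (G1)  (OWNER: helper6)

`K` algebraically closed, `F/K` a field extension with a transcendental element `x` such that
`F / K(x)` is finite ("function field of a curve").

* `ff_isAlgebraic_of_transcendental`, `ff_finite_of_transcendental`: `F / K(t)` is finite for
  every `t ∈ F` transcendental over `K`.
* `ff_transcendental_of_not_mem`: elements outside `K` are transcendental.
* `ff_residue_bijective`, `ff_deg_eq_one`: every place has residue field `K`.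
-/

set_option autoImplicit false

namespace Fermat.Agent.S24

open AlgebraicCurve IntermediateField

universe u v

variable {K : Type u} {F : Type v} [Field K] [Field F] [Algebra K F]

/-- If `F` is algebraic over `K(x)`, it is algebraic over `K(t)` for every transcendental `t`. -/
theorem ff_isAlgebraic_of_transcendental (x t : F) [Algebra.IsAlgebraic K⟮x⟯ F]
    (ht : Transcendental K t) : Algebra.IsAlgebraic K⟮t⟯ F := by
  have halg : Algebra.IsAlgebraic (Algebra.adjoin K ({x} : Set F)) F :=
    (IntermediateField.isAlgebraic_adjoin_iff_top (F := K) (s := ({x} : Set F)) (S := F)).mp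
      inferInstance
  have hle : Algebra.trdeg K F ≤ 1 := by
    have := Algebra.IsAlgebraic.trdeg_le_cardinalMk K ({x} : Set F)
    simpa using this
  have hind : AlgebraicIndependent K (fun _ : PUnit.{v + 1} => t) :=
    algebraicIndependent_unique_type_iff.mpr ht
  have hbasis : IsTranscendenceBasis K (fun _ : PUnit.{v + 1} => t) :=
    hind.isTranscendenceBasis_of_trdeg_le_of_finite (by simpa using hle)
  have := hbasis.isAlgebraic_field
  rwa [Set.range_const] at this

/-- If `F / K(x)` is finite, then `F / K(t)` is finite for every transcendental `t`. -/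
theorem ff_finite_of_transcendental (x t : F) [FiniteDimensional K⟮x⟯ F]
    (ht : Transcendental K t) : FiniteDimensional K⟮t⟯ F := by
  have halg : Algebra.IsAlgebraic K⟮t⟯ F := ff_isAlgebraic_of_transcendental x t ht
  have h1 : Algebra.EssFiniteType K K⟮x⟯ :=
    IntermediateField.essFiniteType_iff.mpr ⟨{x}, by simp⟩
  have h2 : Algebra.EssFiniteType K F := Algebra.EssFiniteType.comp K K⟮x⟯ F
  have h3 : Algebra.EssFiniteType K⟮t⟯ F := Algebra.EssFiniteType.of_comp K K⟮t⟯ F
  exact Algebra.finite_of_essFiniteType_of_isAlgebraic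

/-- Over an algebraically closed field, an element outside `K` is transcendental. -/
theorem ff_transcendental_of_not_mem [IsAlgClosed K] {f : F}
    (hf : f ∉ Set.range (algebraMap K F)) : Transcendental K f := by
  intro halg
  apply hf
  have : Algebra.IsAlgebraic K K⟮f⟯ := isAlgebraic_adjoin_simple halg.isIntegral
  have hbot := IntermediateField.eq_bot_of_isAlgClosed_of_isAlgebraic K⟮f⟯
  have hmem : f ∈ K⟮f⟯ := mem_adjoin_simple_self K f
  rw [hbot] at hmem
  exact IntermediateField.mem_bot.mp hmem

/-! ### `ord` and membership in the valuation ring -/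

section ord

variable (v : Place K F)

theorem ff_ord_nonneg_of_mem {f : F} (hf : f ∈ v.toValuationSubring) : 0 ≤ v.ord f := by
  rcases eq_or_ne f 0 with rfl | hf0
  · simp
  obtain ⟨π, hπ⟩ := IsDiscreteValuationRing.exists_irreducible v.toValuationSubring
  have hf0' : (⟨f, hf⟩ : v.toValuationSubring) ≠ 0 := by
    intro h
    exact hf0 (congrArg Subtype.val h)
  obtain ⟨n, u, hu⟩ := IsDiscreteValuationRing.eq_unit_mul_pow_irreducible hf0' hπ
  have hfu : f = ((u : v.toValuationSubring) : F) * ((π : F) ^ (n : ℤ)) := by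
    have := congrArg Subtype.val hu
    simpa using this
  rw [hfu, v.ord_unit_smul_zpow u hπ]
  exact Int.natCast_nonneg n

theorem ff_mem_of_ord_nonneg {f : F} (hf : 0 ≤ v.ord f) : f ∈ v.toValuationSubring := by
  rcases eq_or_ne f 0 with rfl | hf0
  · exact zero_mem _
  obtain ⟨π, hπ⟩ := IsDiscreteValuationRing.exists_irreducible v.toValuationSubring
  obtain ⟨u, hu⟩ := v.exists_unit_mul_zpow hf0 hπ
  rw [hu]
  obtain ⟨n, hn⟩ := Int.eq_ofNat_of_zero_le hf
  rw [hn, zpow_natCast]
  exact mul_mem (u : v.toValuationSubring).2 (pow_mem π.2 n)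

theorem ff_ord_nonneg_iff {f : F} : 0 ≤ v.ord f ↔ f ∈ v.toValuationSubring :=
  ⟨ff_mem_of_ord_nonneg v, ff_ord_nonneg_of_mem v⟩

/-- `ord f > 0` iff `f ≠ 0` and `f⁻¹` is not in the valuation ring. -/
theorem ff_ord_pos_iff {f : F} : 0 < v.ord f ↔ f⁻¹ ∉ v.toValuationSubring := by
  rw [← ff_ord_nonneg_iff, v.ord_inv]
  omega

/-- `ord f < 0` iff `f` is not in the valuation ring. -/
theorem ff_ord_neg_iff {f : F} : v.ord f < 0 ↔ f ∉ v.toValuationSubring := by
  rw [← ff_ord_nonneg_iff]
  omega

/-- `ord f > 0` iff `f` is a nonzero element of the maximal ideal. -/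
theorem ff_ord_pos_iff_mem_maximalIdeal {f : F} (hf : f ∈ v.toValuationSubring) (hf0 : f ≠ 0) :
    0 < v.ord f ↔ (⟨f, hf⟩ : v.toValuationSubring) ∈
      IsLocalRing.maximalIdeal v.toValuationSubring := by
  rw [ff_ord_pos_iff, IsLocalRing.mem_maximalIdeal, mem_nonunits_iff]
  constructor
  · intro h hu
    apply h
    obtain ⟨u, hu⟩ := hu
    have h2 : (u : v.toValuationSubring) * ((u⁻¹ : v.toValuationSubringˣ) : v.toValuationSubring)
        = 1 := u.mul_inv
    rw [hu] at h2
    have h3 : f * ((((u⁻¹ : v.toValuationSubringˣ) : v.toValuationSubring)) : F) = 1 :=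
      congrArg Subtype.val h2
    rw [← eq_inv_of_mul_eq_one_right h3]
    exact Subtype.mem _
  · intro h hinv
    apply h
    exact ⟨⟨⟨f, hf⟩, ⟨f⁻¹, hinv⟩, Subtype.ext (mul_inv_cancel₀ hf0),
      Subtype.ext (inv_mul_cancel₀ hf0)⟩, rfl⟩

theorem ff_ord_add_le {f g : F} (hfg : f + g ≠ 0) (hf : f ≠ 0) (hg : g ≠ 0) :
    min (v.ord f) (v.ord g) ≤ v.ord (f + g) := by
  -- scale by `f` or `g`
  wlog h : v.ord f ≤ v.ord g generalizing f g
  · have := this (by rwa [add_comm]) hg hf (le_of_not_ge h)
    rwa [min_comm, add_comm]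
  rw [min_eq_left h]
  have h1 : f + g = f * (1 + g / f) := by field_simp
  have h2 : 1 + g / f ≠ 0 := by
    intro h0
    rw [h0, mul_zero] at h1
    exact hfg h1
  rw [h1, v.ord_mul hf h2]
  have h3 : 0 ≤ v.ord (g / f) := by
    rw [div_eq_mul_inv, v.ord_mul hg (inv_ne_zero hf), v.ord_inv]
    omega
  have h4 : 1 + g / f ∈ v.toValuationSubring :=
    add_mem (one_mem _) (ff_mem_of_ord_nonneg v h3)
  have := ff_ord_nonneg_of_mem v h4
  omega

end ord

/-! ### The residue field of a place is `K` -/

section residue

variable (x : F) [Algebra.IsAlgebraic K⟮x⟯ F] (v : Place K F)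

/-- For a polynomial `p` over `K` and `a` in the valuation ring, `p(a)` computed in `F` is the
image of `p(a)` computed in the valuation ring. -/
theorem ff_aeval_coe (a : v.toValuationSubring) (p : Polynomial K) :
    Polynomial.aeval (a : F) p = ((Polynomial.aeval a p : v.toValuationSubring) : F) :=
  Polynomial.aeval_algebraMap_apply F a p

include x in
/-- A valuation ring of a place cannot contain `K(a)` for a transcendental `a`. -/
theorem ff_not_adjoin_le (a : F) (ha : Transcendental K a) :
    ¬ (∀ z ∈ K⟮a⟯, z ∈ v.toValuationSubring) := by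
  intro hle
  have halg : Algebra.IsAlgebraic K⟮a⟯ F := ff_isAlgebraic_of_transcendental x a ha
  apply v.ne_top'
  refine SetLike.ext fun z => ⟨fun _ => ValuationSubring.mem_top z, fun _ => ?_⟩
  -- `z` is integral over `K(a)`, hence over the valuation ring
  obtain ⟨p, hp, hpz⟩ := (halg.isAlgebraic z).isIntegral
  let i : K⟮a⟯ →+* v.toValuationSubring :=
    (algebraMap K⟮a⟯ F).codRestrict v.toValuationSubring.toSubring (fun y => hle y y.2)
  have hint : IsIntegral v.toValuationSubring z := by
    refine ⟨p.map i, hp.map i, ?_⟩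
    rw [Polynomial.eval₂_map]
    exact hpz
  obtain ⟨y, hy⟩ := IsIntegrallyClosed.isIntegral_iff.mp hint
  rw [← hy]
  exact y.2

include x in
theorem ff_residue_isAlgebraic [IsAlgClosed K] (b : v.ResidueField) : IsAlgebraic K b := by
  by_contra hb
  obtain ⟨a, rfl⟩ := IsLocalRing.residue_surjective b
  have hres : ∀ p : Polynomial K, Polynomial.aeval (IsLocalRing.residue v.toValuationSubring a) p
      = IsLocalRing.residue v.toValuationSubring (Polynomial.aeval a p) := fun p =>
    Polynomial.aeval_algebraMap_apply v.ResidueField a p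
  have hunit : ∀ p : Polynomial K, p ≠ 0 → IsUnit (Polynomial.aeval a p) := by
    intro p hp
    by_contra hnu
    apply hb
    refine ⟨p, hp, ?_⟩
    rw [hres]
    exact (IsLocalRing.residue_eq_zero_iff _).mpr ((IsLocalRing.mem_maximalIdeal _).mpr hnu)
  have htr : Transcendental K (a : F) := by
    intro halg
    obtain ⟨p, hp, hpa⟩ := halg
    have := hunit p hp
    rw [ff_aeval_coe] at hpa
    have h0 : Polynomial.aeval a p = 0 := Subtype.ext hpa
    rw [h0] at this
    exact not_isUnit_zero this
  refine ff_not_adjoin_le x v (a : F) htr fun z hz => ?_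
  obtain ⟨r, s, rfl⟩ := (mem_adjoin_simple_iff K z).mp hz
  rcases eq_or_ne s 0 with rfl | hs
  · simp
  · rw [div_eq_mul_inv, ff_aeval_coe, ff_aeval_coe]
    refine mul_mem (Subtype.mem _) ?_
    obtain ⟨u, hu⟩ := hunit s hs
    have h2 : (u : v.toValuationSubring) * ((u⁻¹ : v.toValuationSubringˣ) : v.toValuationSubring)
        = 1 := u.mul_inv
    rw [hu] at h2
    have h3 : ((Polynomial.aeval a s : v.toValuationSubring) : F) *
        ((((u⁻¹ : v.toValuationSubringˣ) : v.toValuationSubring)) : F) = 1 :=
      congrArg Subtype.val h2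
    rw [← eq_inv_of_mul_eq_one_right h3]
    exact Subtype.mem _

include x in
/-- **(G1)** The residue field of every place is `K`. -/
theorem ff_residue_bijective [IsAlgClosed K] :
    Function.Bijective (algebraMap K v.ResidueField) := by
  have : Algebra.IsIntegral K v.ResidueField :=
    ⟨fun b => (ff_residue_isAlgebraic x v b).isIntegral⟩
  exact IsAlgClosed.algebraMap_bijective_of_isIntegral

include x in
/-- **(G1)** Every place has degree `1`. -/
theorem ff_deg_eq_one [IsAlgClosed K] : v.deg = 1 := by
  have hb := ff_residue_bijective x v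
  have e : K ≃ₗ[K] v.ResidueField := LinearEquiv.ofBijective (Algebra.linearMap K v.ResidueField) hb
  rw [Place.deg, ← e.finrank_eq, Module.finrank_self]

include x in
/-- Every element of the valuation ring is congruent to a (unique) constant. -/
theorem ff_exists_const [IsAlgClosed K] (a : v.toValuationSubring) :
    ∃ c : K, a - algebraMap K v.toValuationSubring c ∈
      IsLocalRing.maximalIdeal v.toValuationSubring := by
  obtain ⟨c, hc⟩ := (ff_residue_bijective x v).2 (IsLocalRing.residue _ a)
  refine ⟨c, ?_⟩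
  rw [← IsLocalRing.residue_eq_zero_iff, map_sub, sub_eq_zero, ← hc]
  rfl

include x in
/-- For `a` in the valuation ring, not a constant, there is a unique `c ∈ K` with
`ord (a - c) > 0`. -/
theorem ff_exists_ord_sub_pos [IsAlgClosed K] {a : F} (ha : a ∈ v.toValuationSubring)
    (hK : a ∉ Set.range (algebraMap K F)) : ∃ c : K, 0 < v.ord (a - algebraMap K F c) := by
  obtain ⟨c, hc⟩ := ff_exists_const x v ⟨a, ha⟩
  refine ⟨c, ?_⟩
  have hne : a - algebraMap K F c ≠ 0 := fun h => hK ⟨c, (sub_eq_zero.mp h).symm⟩
  have hmem : a - algebraMap K F c ∈ v.toValuationSubring :=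
    sub_mem ha (v.algebraMap_mem' c)
  rw [ff_ord_pos_iff_mem_maximalIdeal v hmem hne]
  exact hc

end residue

end Fermat.Agent.S24
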