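import Fermat.Agent.S24.FFBasic

/-!
# S24 / general function-field lemmas (G2, part 1): places and height-one primes
(OWNER: helper6)

`B` a Dedekind domain with fraction field `F`, containing `K`.

* `ff_ord_eq_of_valuation`: `P.ord` is computed by any surjective `ℤᵐ⁰`-valued valuation whose
  valuation ring is `𝒪_P`.
* `ff_ord_ofHeightOneSpectrum`: `ord` at the place of a height-one prime `Q` is the `Q`-adic
  valuation.
* `ff_ofHeightOneSpectrum_injective`.
* `ff_exists_heightOneSpectrum`: every place whose valuation ring contains `B` comes from a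
  height-one prime of `B`.
-/

set_option autoImplicit false

namespace Fermat.Agent.S24

open AlgebraicCurve IsDedekindDomain WithZero

variable {K F : Type*} [Field K] [Field F] [Algebra K F]

/-- `P.ord` is computed by any valuation with value group `ℤ` and valuation ring `𝒪_P`. -/
theorem ff_ord_eq_of_valuation (P : Place K F) (w : Valuation F ℤᵐ⁰)
    (hw : w.valuationSubring = P.toValuationSubring) (hsurj : ∃ ϖ : F, w ϖ = exp (-1 : ℤ))
    {f : F} (hf : f ≠ 0) : P.ord f = - log (w f) := by
  have hmem : ∀ x : F, x ∈ P.toValuationSubring ↔ w x ≤ 1 := by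
    intro x
    rw [← hw, Valuation.mem_valuationSubring_iff]
  obtain ⟨π, hπ⟩ := IsDiscreteValuationRing.exists_irreducible P.toValuationSubring
  have hπ0 : (π : F) ≠ 0 := by
    simpa [ne_eq, ZeroMemClass.coe_eq_zero] using hπ.ne_zero
  -- units have valuation one
  have hunit : ∀ u : P.toValuationSubringˣ, w ((u : P.toValuationSubring) : F) = 1 := by
    intro u
    have h1 : w ((u : P.toValuationSubring) : F) ≤ 1 := (hmem _).mp (Subtype.mem _)
    have h2 : w (((u⁻¹ : P.toValuationSubringˣ) : P.toValuationSubring) : F) ≤ 1 :=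
      (hmem _).mp (Subtype.mem _)
    have h3 : ((u : P.toValuationSubring) : F) *
        (((u⁻¹ : P.toValuationSubringˣ) : P.toValuationSubring) : F) = 1 := by
      have : (u : P.toValuationSubring) * ((u⁻¹ : P.toValuationSubringˣ) : P.toValuationSubring)
          = 1 := u.mul_inv
      exact congrArg Subtype.val this
    have h4 := congrArg w h3
    rw [map_mul, map_one] at h4
    exact le_antisymm h1 (by
      by_contra hlt
      rw [not_le] at hlt
      have : w ((u : P.toValuationSubring) : F) *
          w (((u⁻¹ : P.toValuationSubringˣ) : P.toValuationSubring) : F) < 1 :=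
        mul_lt_one_of_lt_of_le hlt h2
      rw [h4] at this
      exact lt_irrefl _ this)
  -- the valuation of an element in terms of `ord`
  have hwπ0 : w (π : F) ≠ 0 := (Valuation.ne_zero_iff _).mpr hπ0
  have key : ∀ g : F, g ≠ 0 → log (w g) = P.ord g * log (w (π : F)) := by
    intro g hg
    obtain ⟨u, hu⟩ := P.exists_unit_mul_zpow hg hπ
    conv_lhs => rw [hu]
    rw [map_mul, hunit, one_mul, map_zpow₀, log_zpow, smul_eq_mul]
  obtain ⟨ϖ, hϖ⟩ := hsurj
  have hϖ0 : ϖ ≠ 0 := by
    intro h0
    rw [h0, map_zero] at hϖ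
    exact (exp_ne_zero (M := ℤ)).symm hϖ
  have h1 := key ϖ hϖ0
  rw [hϖ, log_exp] at h1
  -- `log (w π) < 0`
  have hπlt : w (π : F) < 1 := by
    have hnot : (π : F)⁻¹ ∉ P.toValuationSubring := by
      intro hinv
      apply hπ.not_isUnit
      exact ⟨⟨π, ⟨(π : F)⁻¹, hinv⟩, Subtype.ext (mul_inv_cancel₀ hπ0),
        Subtype.ext (inv_mul_cancel₀ hπ0)⟩, rfl⟩
    rw [hmem, map_inv₀, not_le] at hnot
    by_contra hge
    rw [not_lt] at hge
    have : (w (π : F))⁻¹ ≤ 1 := inv_le_one_of_one_le₀ hge
    exact absurd hnot (not_lt.mpr this)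
  have hlogneg : log (w (π : F)) < 0 := by
    have := (log_lt_log hwπ0 (one_ne_zero)).mpr hπlt
    simpa using this
  -- so `log (w π) = -1`
  have hlog : log (w (π : F)) = -1 := by
    have h2 : P.ord ϖ * log (w (π : F)) = -1 := h1.symm
    rcases Int.isUnit_iff.mp (IsUnit.of_mul_eq_one (-(P.ord ϖ)) (by
      show log (w (π : F)) * -(P.ord ϖ) = 1
      linarith [h2, mul_comm (P.ord ϖ) (log (w (π : F)))])) with h | h
    · omega
    · exact h
  rw [key f hf, hlog]
  ring

section Dedekind

variable {B : Type*} [CommRing B] [IsDedekindDomain B] [Algebra B F] [IsFractionRing B F]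
  [Algebra K B] [IsScalarTower K B F]

/-- `ord` at the place of a height-one prime is the adic valuation. -/
theorem ff_ord_ofHeightOneSpectrum (Q : HeightOneSpectrum B) {f : F} (hf : f ≠ 0) :
    (Place.ofHeightOneSpectrum (K := K) Q).ord f = - log (Q.valuation F f) :=
  ff_ord_eq_of_valuation _ _ rfl (Q.valuation_exists_uniformizer F) hf

theorem ff_ofHeightOneSpectrum_injective :
    Function.Injective (fun Q : HeightOneSpectrum B =>
      (Place.ofHeightOneSpectrum (K := K) (F := F) Q)) := by
  intro Q Q' h
  have h' : (Q.valuation F).valuationSubring = (Q'.valuation F).valuationSubring :=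
    congrArg Place.toValuationSubring h
  exact HeightOneSpectrum.eq_of_valuation_isEquiv_valuation
    ((Valuation.isEquiv_iff_valuationSubring _ _).mpr h')

/-- Every place whose valuation ring contains `B` comes from a height-one prime of `B`. -/
theorem ff_exists_heightOneSpectrum (P : Place K F)
    (hB : ∀ b : B, algebraMap B F b ∈ P.toValuationSubring) :
    ∃ Q : HeightOneSpectrum B, Place.ofHeightOneSpectrum (K := K) Q = P := by
  let φ : B →+* P.toValuationSubring :=
    (algebraMap B F).codRestrict P.toValuationSubring.toSubring hB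
  let Q₀ : Ideal B := (IsLocalRing.maximalIdeal P.toValuationSubring).comap φ
  have hQ₀prime : Q₀.IsPrime := Ideal.comap_isPrime φ _
  have hunit : ∀ b : B, b ∉ Q₀ → (algebraMap B F b)⁻¹ ∈ P.toValuationSubring := by
    intro b hb
    have hb' : IsUnit (φ b) := by
      by_contra hnu
      exact hb ((IsLocalRing.mem_maximalIdeal _).mpr hnu)
    obtain ⟨u, hu⟩ := hb'
    have h2 : (u : P.toValuationSubring) * ((u⁻¹ : P.toValuationSubringˣ) : P.toValuationSubring)
        = 1 := u.mul_inv
    rw [hu] at h2
    have h3 : algebraMap B F b * ((((u⁻¹ : P.toValuationSubringˣ) : P.toValuationSubring)) : F)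
        = 1 := congrArg Subtype.val h2
    rw [← eq_inv_of_mul_eq_one_right h3]
    exact Subtype.mem _
  have hQ₀ne : Q₀ ≠ ⊥ := by
    intro hbot
    apply P.ne_top'
    refine SetLike.ext fun z => ⟨fun _ => ValuationSubring.mem_top z, fun _ => ?_⟩
    obtain ⟨a, s, hs, rfl⟩ := IsFractionRing.div_surjective (A := B) z
    have hs0 : s ≠ 0 := nonZeroDivisors.ne_zero hs
    have hsQ : s ∉ Q₀ := by
      rw [hbot, Ideal.mem_bot]
      exact hs0
    rw [div_eq_mul_inv]
    exact mul_mem (hB a) (hunit s hsQ)
  refine ⟨⟨Q₀, hQ₀prime, hQ₀ne⟩, ?_⟩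
  apply Place.ext
  show ((⟨Q₀, hQ₀prime, hQ₀ne⟩ : HeightOneSpectrum B).valuation F).valuationSubring
    = P.toValuationSubring
  have hle : ((⟨Q₀, hQ₀prime, hQ₀ne⟩ : HeightOneSpectrum B).valuation F).valuationSubring
      ≤ P.toValuationSubring := by
    intro z hz
    rw [Valuation.mem_valuationSubring_iff] at hz
    obtain ⟨n, d, hnd⟩ :=
      HeightOneSpectrum.exists_primeCompl_mul_eq_of_integer
        (⟨Q₀, hQ₀prime, hQ₀ne⟩ : HeightOneSpectrum B) z hz
    have hd : (d : B) ∉ Q₀ := d.2
    have hd0 : algebraMap B F d ≠ 0 := by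
      intro h0
      apply hd
      have : (d : B) = 0 := (IsFractionRing.injective B F) (by rw [h0, map_zero])
      rw [this]
      exact Q₀.zero_mem
    have hz' : z = algebraMap B F n * (algebraMap B F d)⁻¹ := by
      rw [← hnd]
      field_simp
    rw [hz']
    exact mul_mem (hB n) (hunit d hd)
  have : IsDiscreteValuationRing
      ((⟨Q₀, hQ₀prime, hQ₀ne⟩ : HeightOneSpectrum B).valuation F).valuationSubring :=
    inferInstanceAs (IsDiscreteValuationRing
      (Place.ofHeightOneSpectrum (K := K) (F := F)
        (⟨Q₀, hQ₀prime, hQ₀ne⟩ : HeightOneSpectrum B)).toValuationSubring)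
  exact ValuationSubring.eq_of_le_of_ne_top _ hle P.ne_top'

end Dedekind

end Fermat.Agent.S24
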