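import Fermat.Agent.S24.FFSpec

/-!
# S24 / general function-field lemmas (G2, part 2): the fundamental identity  (OWNER: helper6)

For `t ∈ F` transcendental over `K` with `F / K(t)` finite (`K` algebraically closed of
characteristic `0`): the zeros of `t` are finitely many and `∑ ord_P t = [F : K(t)]`.

`A = K[t] = Algebra.adjoin K {t}`, `B =` integral closure of `A` in `F`.
-/

set_option autoImplicit false
set_option linter.deprecated false
set_option linter.style.haveILetI false

namespace Fermat.Agent.S24

open AlgebraicCurve IsDedekindDomain WithZero IntermediateField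
open scoped IntermediateField.algebraAdjoinAdjoin

variable {K F : Type*} [Field K] [Field F] [Algebra K F]

/-- `K[t]` is a principal ideal ring for transcendental `t`. -/
theorem ff_adjoin_isPrincipalIdealRing (t : F) (ht : Transcendental K t) :
    IsPrincipalIdealRing (Algebra.adjoin K {t}) :=
  IsPrincipalIdealRing.of_surjective
    (Polynomial.algEquivOfTranscendental K t ht).toRingEquiv.toRingHom
    (Polynomial.algEquivOfTranscendental K t ht).surjective

/-- The element `t` of `K[t]`. -/
def ffGen (K : Type*) {F : Type*} [Field K] [Field F] [Algebra K F] (t : F) :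
    Algebra.adjoin K {t} :=
  ⟨t, Algebra.self_mem_adjoin_singleton K t⟩

theorem ff_gen_ne_zero (t : F) (ht : Transcendental K t) : ffGen K t ≠ 0 := by
  intro h
  have h0 : t = 0 := congrArg Subtype.val h
  exact ht (h0 ▸ isAlgebraic_zero)

theorem ff_algEquiv_X (t : F) (ht : Transcendental K t) :
    (Polynomial.algEquivOfTranscendental K t ht) Polynomial.X = ffGen K t := by
  apply Subtype.ext
  simp [ffGen]

theorem ff_gen_prime (t : F) (ht : Transcendental K t) : Prime (ffGen K t) := by
  rw [← ff_algEquiv_X t ht]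
  exact (MulEquiv.prime_iff (Polynomial.algEquivOfTranscendental K t ht)).mpr Polynomial.prime_X

/-- Every element of `K[t]` is congruent to a constant modulo `t`. -/
theorem ff_adjoin_exists_const (t : F) (ht : Transcendental K t) (a : Algebra.adjoin K {t}) :
    ∃ c : K, a - algebraMap K (Algebra.adjoin K {t}) c ∈ Ideal.span {ffGen K t} := by
  obtain ⟨q, rfl⟩ := (Polynomial.algEquivOfTranscendental K t ht).surjective a
  refine ⟨q.coeff 0, ?_⟩
  rw [Ideal.mem_span_singleton]
  obtain ⟨r, hr⟩ : Polynomial.X ∣ q - Polynomial.C (q.coeff 0) := by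
    rw [Polynomial.X_dvd_iff]
    simp
  refine ⟨(Polynomial.algEquivOfTranscendental K t ht) r, ?_⟩
  rw [← ff_algEquiv_X t ht, ← map_mul, ← hr, map_sub]
  congr 1
  exact ((Polynomial.algEquivOfTranscendental K t ht).commutes (q.coeff 0)).symm

/-- A valuation ring of a place containing `t` contains the integral closure of `K[t]`. -/
theorem ff_integralClosure_le (t : F) (P : Place K F) (htP : t ∈ P.toValuationSubring)
    (b : integralClosure (Algebra.adjoin K {t}) F) : (b : F) ∈ P.toValuationSubring := by
  -- `K[t] ⊆ 𝒪_P`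
  let O' : Subalgebra K F :=
    { P.toValuationSubring.toSubring with algebraMap_mem' := P.algebraMap_mem' }
  have hA : Algebra.adjoin K {t} ≤ O' :=
    Algebra.adjoin_le (Set.singleton_subset_iff.mpr htP)
  obtain ⟨q, hq, hqb⟩ := b.2
  let i : Algebra.adjoin K {t} →+* P.toValuationSubring :=
    (algebraMap (Algebra.adjoin K {t}) F).codRestrict P.toValuationSubring.toSubring
      (fun y => hA y.2)
  have hint : IsIntegral P.toValuationSubring (b : F) := by
    refine ⟨q.map i, hq.map i, ?_⟩
    rw [Polynomial.eval₂_map]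
    exact hqb
  obtain ⟨y, hy⟩ := IsIntegrallyClosed.isIntegral_iff.mp hint
  rw [← hy]
  exact y.2

section Main

variable [IsAlgClosed K] [CharZero K]

/-- **Fundamental identity.** -/
theorem ff_fundamental (t : F) (ht : Transcendental K t) [FiniteDimensional K⟮t⟯ F] :
    {P : Place K F | 0 < P.ord t}.Finite ∧
      ∑ᶠ P ∈ {P : Place K F | 0 < P.ord t}, P.ord t = (Module.finrank K⟮t⟯ F : ℤ) := by
  classical
  have ht0 : t ≠ 0 := fun h => ht (h ▸ isAlgebraic_zero)
  haveI := ff_adjoin_isPrincipalIdealRing t ht
  haveI : IsDedekindDomain (integralClosure (Algebra.adjoin K {t}) F) :=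
    IsIntegralClosure.isDedekindDomain (Algebra.adjoin K {t}) K⟮t⟯ F _
  haveI : Module.Finite (Algebra.adjoin K {t}) (integralClosure (Algebra.adjoin K {t}) F) :=
    IsIntegralClosure.finite (Algebra.adjoin K {t}) K⟮t⟯ F _
  haveI : IsFractionRing (integralClosure (Algebra.adjoin K {t}) F) F :=
    integralClosure.isFractionRing_of_finite_extension K⟮t⟯ F
  haveI : Algebra.IsAlgebraic K⟮t⟯ F := Algebra.IsAlgebraic.of_finite _ _
  -- the prime `p = (t)`
  set p : Ideal (Algebra.adjoin K {t}) := Ideal.span {ffGen K t} with hp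
  have hp0 : p ≠ ⊥ := by
    rw [hp, Ne, Ideal.span_singleton_eq_bot]
    exact ff_gen_ne_zero t ht
  haveI hpprime : p.IsPrime :=
    (Ideal.span_singleton_prime (ff_gen_ne_zero t ht)).mpr (ff_gen_prime t ht)
  haveI hpmax : p.IsMaximal := hpprime.isMaximal hp0
  let v : HeightOneSpectrum (Algebra.adjoin K {t}) := ⟨p, hpprime, hp0⟩
  have hsum := Ideal.sum_ramification_inertia (R := Algebra.adjoin K {t})
    (integralClosure (Algebra.adjoin K {t}) F) K⟮t⟯ F hp0
  have hmem : ∀ Q : Ideal (integralClosure (Algebra.adjoin K {t}) F),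
      Q ∈ IsDedekindDomain.primesOverFinset p (integralClosure (Algebra.adjoin K {t}) F) ↔
        Q.IsPrime ∧ Q.LiesOver p := fun Q => by
    rw [IsDedekindDomain.mem_primesOverFinset_iff hp0]
    exact Iff.rfl
  have hne : ∀ Q : Ideal (integralClosure (Algebra.adjoin K {t}) F), Q.LiesOver p → Q ≠ ⊥ :=
    fun Q hQ => Ideal.ne_bot_of_liesOver_of_ne_bot hp0 Q
  let w : {Q // Q ∈ IsDedekindDomain.primesOverFinset p (integralClosure (Algebra.adjoin K {t}) F)} →
      HeightOneSpectrum (integralClosure (Algebra.adjoin K {t}) F) := fun Q =>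
    ⟨Q.1, ((hmem Q.1).mp Q.2).1, hne Q.1 ((hmem Q.1).mp Q.2).2⟩
  let g : {Q // Q ∈ IsDedekindDomain.primesOverFinset p (integralClosure (Algebra.adjoin K {t}) F)} →
      Place K F := fun Q => Place.ofHeightOneSpectrum (K := K) (w Q)
  -- the valuation of `t`
  have hvt : v.valuation K⟮t⟯ (AdjoinSimple.gen K t) = exp (-1 : ℤ) := by
    have h1 : AdjoinSimple.gen K t = algebraMap (Algebra.adjoin K {t}) K⟮t⟯ (ffGen K t) := rfl
    rw [h1, HeightOneSpectrum.valuation_of_algebraMap]
    exact HeightOneSpectrum.intValuation_singleton v (ff_gen_ne_zero t ht) rfl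
  have hval : ∀ Q, (w Q).valuation F t = exp (-(p.ramificationIdx' Q.1 : ℤ)) := by
    intro Q
    haveI : (w Q).asIdeal.LiesOver v.asIdeal := ((hmem Q.1).mp Q.2).2
    have := HeightOneSpectrum.valuation_liesOver F v (w Q) (AdjoinSimple.gen K t)
    rw [AdjoinSimple.algebraMap_gen, hvt] at this
    have h2 : exp (-1 : ℤ) ^ (p.ramificationIdx' Q.1) = (w Q).valuation F t := this
    rw [← h2, ← exp_nsmul]
    simp
  have hord : ∀ Q, (g Q).ord t = (p.ramificationIdx' Q.1 : ℤ) := by
    intro Q
    rw [ff_ord_ofHeightOneSpectrum (w Q) ht0, hval Q, log_exp, neg_neg]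
  -- all inertia degrees are one
  have hfone : ∀ Q ∈ IsDedekindDomain.primesOverFinset p (integralClosure (Algebra.adjoin K {t}) F),
      p.inertiaDeg' Q = 1 := by
    intro Q hQ
    haveI hQprime : Q.IsPrime := ((hmem Q).mp hQ).1
    haveI hQover : Q.LiesOver p := ((hmem Q).mp hQ).2
    rw [Ideal.inertiaDeg'_algebraMap]
    have hne1 : (1 : (integralClosure (Algebra.adjoin K {t}) F) ⧸ Q) ≠ 0 := by
      intro h10
      apply hQprime.ne_top
      rw [Ideal.eq_top_iff_one]
      exact Ideal.Quotient.eq_zero_iff_mem.mp h10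
    letI : Field ((Algebra.adjoin K {t}) ⧸ p) := Ideal.Quotient.field p
    refine (finrank_eq_one_iff_of_nonzero'
      (1 : (integralClosure (Algebra.adjoin K {t}) F) ⧸ Q) hne1).mpr fun x => ?_
    obtain ⟨b, rfl⟩ := Ideal.Quotient.mk_surjective x
    -- `b` is congruent to a constant modulo `Q`
    have hbO : (b : F) ∈ (g ⟨Q, hQ⟩).toValuationSubring := by
      show (b : F) ∈ ((w ⟨Q, hQ⟩).valuation F).valuationSubring
      rw [Valuation.mem_valuationSubring_iff]
      exact HeightOneSpectrum.valuation_le_one _ b
    obtain ⟨c, hc⟩ := ff_exists_const t (g ⟨Q, hQ⟩) ⟨(b : F), hbO⟩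
    have hbc : b - algebraMap K (integralClosure (Algebra.adjoin K {t}) F) c ∈ Q := by
      by_cases h0 : b - algebraMap K (integralClosure (Algebra.adjoin K {t}) F) c = 0
      · rw [h0]
        exact Q.zero_mem
      · have h0F : (b : F) - algebraMap K F c ≠ 0 := by
          intro h
          apply h0
          apply Subtype.ext
          simpa using h
        have hmemF : (b : F) - algebraMap K F c ∈ (g ⟨Q, hQ⟩).toValuationSubring :=
          sub_mem hbO ((g ⟨Q, hQ⟩).algebraMap_mem' c)
        have hpos : 0 < (g ⟨Q, hQ⟩).ord ((b : F) - algebraMap K F c) :=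
          (ff_ord_pos_iff_mem_maximalIdeal _ hmemF h0F).mpr hc
        rw [ff_ord_ofHeightOneSpectrum (w ⟨Q, hQ⟩) h0F] at hpos
        have hlt : (w ⟨Q, hQ⟩).valuation F ((b : F) - algebraMap K F c) < 1 := by
          have hv0 : (w ⟨Q, hQ⟩).valuation F ((b : F) - algebraMap K F c) ≠ 0 :=
            (Valuation.ne_zero_iff _).mpr h0F
          rw [← log_lt_log hv0 one_ne_zero, log_one]
          omega
        have hcoe : (b : F) - algebraMap K F c = algebraMap
            (integralClosure (Algebra.adjoin K {t}) F) F
            (b - algebraMap K (integralClosure (Algebra.adjoin K {t}) F) c) := by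
          rw [map_sub]
          rfl
        rw [hcoe, HeightOneSpectrum.valuation_lt_one_iff_mem] at hlt
        exact hlt
    refine ⟨Ideal.Quotient.mk p (algebraMap K (Algebra.adjoin K {t}) c), ?_⟩
    rw [Algebra.smul_def, mul_one]
    have : algebraMap ((Algebra.adjoin K {t}) ⧸ p)
        ((integralClosure (Algebra.adjoin K {t}) F) ⧸ Q)
        (Ideal.Quotient.mk p (algebraMap K (Algebra.adjoin K {t}) c))
        = Ideal.Quotient.mk Q (algebraMap K (integralClosure (Algebra.adjoin K {t}) F) c) := rfl
    rw [this]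
    exact (Ideal.Quotient.eq.mpr hbc).symm
  -- injectivity of `g`
  have hinj : Function.Injective g := by
    intro Q Q' h
    have := ff_ofHeightOneSpectrum_injective (K := K) (F := F) h
    exact Subtype.ext (congrArg HeightOneSpectrum.asIdeal this)
  -- the zeros of `t` are the places `g Q`
  have hrange : {P : Place K F | 0 < P.ord t} = Set.range g := by
    ext P
    constructor
    · intro hP
      have hP' : 0 < P.ord t := hP
      have htP : t ∈ P.toValuationSubring := (ff_ord_nonneg_iff P).mp hP'.le
      obtain ⟨Q', hQ'⟩ := ff_exists_heightOneSpectrum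
        (B := integralClosure (Algebra.adjoin K {t}) F) P
        (fun b => ff_integralClosure_le t P htP b)
      -- `Q'` lies over `p`
      have htQ' : (⟨t, (integralClosure (Algebra.adjoin K {t}) F).algebraMap_mem (ffGen K t)⟩ :
          integralClosure (Algebra.adjoin K {t}) F) ∈ Q'.asIdeal := by
        rw [← HeightOneSpectrum.valuation_lt_one_iff_mem (K := F)]
        have h1 : (Place.ofHeightOneSpectrum (K := K) Q').ord t = P.ord t := by rw [hQ']
        rw [ff_ord_ofHeightOneSpectrum Q' ht0] at h1
        have hv0 : Q'.valuation F t ≠ 0 := (Valuation.ne_zero_iff _).mpr ht0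
        show Q'.valuation F t < 1
        rw [← log_lt_log hv0 one_ne_zero, log_one]
        omega
      have hover : Q'.asIdeal.LiesOver p := by
        constructor
        refine (hpmax.eq_of_le ?_ ?_)
        · intro h
          have h1 : (1 : Algebra.adjoin K {t}) ∈ Q'.asIdeal.under (Algebra.adjoin K {t}) := by
            rw [h]
            exact Submodule.mem_top
          have h2 : (1 : integralClosure (Algebra.adjoin K {t}) F) ∈ Q'.asIdeal := by
            have := Ideal.mem_comap.mp h1
            simpa using this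
          exact Q'.isPrime.ne_top ((Ideal.eq_top_iff_one _).mpr h2)
        · rw [hp, Ideal.span_le, Set.singleton_subset_iff]
          exact htQ'
      have hQmem : Q'.asIdeal ∈ IsDedekindDomain.primesOverFinset p
          (integralClosure (Algebra.adjoin K {t}) F) := (hmem _).mpr ⟨Q'.isPrime, hover⟩
      exact ⟨⟨Q'.asIdeal, hQmem⟩, hQ'⟩
    · rintro ⟨Q, rfl⟩
      show 0 < (g Q).ord t
      rw [hord Q]
      haveI : (Q.1).IsPrime := ((hmem Q.1).mp Q.2).1
      haveI : (Q.1).LiesOver p := ((hmem Q.1).mp Q.2).2
      have := Ideal.IsDedekindDomain.ramificationIdx'_ne_zero_of_liesOver Q.1 hp0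
      omega
  constructor
  · rw [hrange]
    exact Set.finite_range g
  · rw [hrange, finsum_mem_range hinj, finsum_eq_sum_of_fintype, ← hsum]
    push_cast
    rw [← Finset.sum_attach (IsDedekindDomain.primesOverFinset p
      (integralClosure (Algebra.adjoin K {t}) F))]
    refine Finset.sum_congr rfl fun Q _ => ?_
    rw [hord Q, hfone Q.1 Q.2]
    simp

end Main

end Fermat.Agent.S24
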