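import Fermat.Agent.S24.Residue
import Fermat.Agent.S24.FFSum

/-!
# S24 / (B4) the fundamental identity `∑ e = n`  (OWNER: see table `s24_modules`)

For transcendental `t` with `F / K(t)` finite: the zeros of `t` are finitely many and
`∑_{P : ord_P t > 0} ord_P t = [F : K(t)]` (all residue degrees are `1`, `K` algebraically
closed of char. `0`).

Sketch (Mathlib).  `A := K[t] = Algebra.adjoin K {t}` is a polynomial ring, hence a PID;
`B := integralClosure A F` is a Dedekind domain, finite over `A` (`F / K(t)` finite separable:
`IsIntegralClosure.finite`), `Frac B = F`; `p := (t)` is maximal.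
`Ideal.sum_ramification_inertia` (or `Ideal.sum_ramification_inertia_eq_finrank`) gives
`∑_{q ∣ p} e(q) f(q) = [F : K(t)]`.  Dictionary: `q ↦ Place.ofHeightOneSpectrum q` (prelude) is a
bijection from the primes above `p` onto `zeroSet K t`
(a valuation ring `𝒪 ∋ t` with `t ∈ 𝔪` contains `A`, hence `B`; `𝔪 ∩ B = q` is a nonzero prime,
`B_q ⊆ 𝒪` and `B_q` is a DVR, hence equality, `place_eq_of_le`),
`e(q) = ord_P t` (`Mathlib/NumberTheory/RamificationInertia/Valuation.lean`), `f(q) = 1`
(`exists_const_sub`).

Statements FROZEN; extra lemmas welcome (prefix `fi_`).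
-/

set_option autoImplicit false

namespace Fermat.Agent.S24

open AlgebraicCurve HahnSeries IntermediateField

variable {K F : Type*} [Field K] [Field F] [Algebra K F]

theorem fundamental_identity [IsAlgClosed K] [CharZero K] (t : F) (ht : Transcendental K t)
    [FiniteDimensional K⟮t⟯ F] :
    (zeroSet K t).Finite ∧
      ∑ᶠ P ∈ zeroSet K t, P.ord t = (Module.finrank K⟮t⟯ F : ℤ) := by
  exact ff_fundamental t ht

end Fermat.Agent.S24
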