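import Fermat.Agent.S24.AnDefs

/-!
# S24 / (A1) the embedding `ℚ̄ → ℂ` on Laurent series  (OWNER: see table `s24_modules`)

* `toL` is an injective ring homomorphism, `ι`-semilinear;
* **linear disjointness**: `ℚ̄`-linearly independent elements of `ℚ̄⸨q⸩` stay `ℂ`-linearly
  independent in `ℂ⸨q⸩` (if `∑ cᵢ ι(vᵢ) = 0`, choose a `ℚ̄`-basis of the `ℚ̄`-span of the `cᵢ` in
  `ℂ` — or: the rank of the (infinite) coefficient matrix is the size of a nonvanishing minor).

Statements FROZEN; extra lemmas welcome (prefix `io_`).
-/

set_option autoImplicit false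

namespace Fermat.Agent.S24

open AlgebraicCurve HahnSeries IntermediateField UpperHalfPlane
open Fermat.Agent.S20
open scoped MatrixGroups ModularForm

theorem iota_injective : Function.Injective iota := iota.injective

theorem toL_injective (N : ℕ) : Function.Injective (toL N) := (toL N).injective

theorem toL_algebraMap (N : ℕ) (a : Kb) :
    toL N (algebraMap Kb (FN N) a) = HahnSeries.C (iota a) := by
  show ModularCurve.coeffMap iota (algebraMap Kb (LaurentSeries Kb) a) = _
  rw [ModularCurve.algebraMap_laurentSeries_eq_single, ModularCurve.coeffMap_single]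
  rfl

lemma io_coeffMap_qExpand {R S : Type*} [CommRing R] [CommRing S] (φ : R →+* S) (d : ℕ)
    [NeZero d] (f : LaurentSeries R) :
    ModularCurve.coeffMap φ (ModularCurve.qExpand R d f)
      = ModularCurve.qExpand S d (ModularCurve.coeffMap φ f) := by
  ext k
  rw [ModularCurve.coeffMap_coeff]
  by_cases hk : (d : ℤ) ∣ k
  · obtain ⟨m, rfl⟩ := hk
    rw [ModularCurve.qExpand_coeff_mul, ModularCurve.qExpand_coeff_mul,
      ModularCurve.coeffMap_coeff]
  · rw [ModularCurve.qExpand_coeff_of_not_dvd d f hk,
      ModularCurve.qExpand_coeff_of_not_dvd d _ hk, map_zero]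

lemma io_coeffMap_jq :
    ModularCurve.coeffMap (iota.comp (algebraMap ℚ Kb)) ModularCurve.jq
      = ModularCurve.jqModC ℂ := by
  rw [← ModularCurve.jqModC_rat]
  exact ModularCurve.map_jqModC _

theorem toL_jd (N d : ℕ) [NeZero d] (hd : d ∣ N) :
    toL N (jd N d hd) = ModularCurve.qExpand ℂ d (ModularCurve.jqModC ℂ) := by
  show ModularCurve.coeffMap iota
      (ModularCurve.coeffEmb Kb (ModularCurve.qExpand ℚ d ModularCurve.jq)) = _
  rw [ModularCurve.coeffEmb, ModularCurve.coeffMap_coeffMap, io_coeffMap_qExpand,
    io_coeffMap_jq]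

theorem toL_jF (N : ℕ) : toL N (jF N) = ModularCurve.jqModC ℂ := by
  rw [jF, toL_jd, ModularCurve.qExpand_one_apply]

/-- Linear disjointness of `ℚ̄⸨q⸩` and `ℂ` over `ℚ̄`. -/
theorem linearIndependent_toL (N : ℕ) {n : ℕ} (v : Fin n → FN N)
    (hv : LinearIndependent Kb v) : LinearIndependent ℂ (fun i => toL N (v i)) := by
  classical
  letI : Algebra Kb ℂ := iota.toAlgebra
  have halg : ∀ a : Kb, algebraMap Kb ℂ a = iota a := fun _ => rfl
  let b := Module.Basis.ofVectorSpace Kb ℂ
  rw [Fintype.linearIndependent_iff]
  intro c hc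
  -- coefficients of the `c i` with respect to the basis
  have hcoord : ∀ β, ∀ i, b.repr (c i) β = 0 := by
    intro β
    have hrel : ∑ i, (b.repr (c i) β) • v i = 0 := by
      apply Subtype.ext
      apply HahnSeries.ext
      funext k
      have h1 : (∑ i, c i • toL N (v i)).coeff k = 0 := by rw [hc]; rfl
      have h2 : (∑ i, c i • toL N (v i)).coeff k
          = ∑ i, c i * iota ((v i : LaurentSeries Kb).coeff k) := by
        rw [← HahnSeries.coeff.addMonoidHom_apply, map_sum]
        refine Finset.sum_congr rfl fun i _ => ?_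
        rw [HahnSeries.coeff.addMonoidHom_apply, HahnSeries.coeff_smul, smul_eq_mul]
        rfl
      rw [h2] at h1
      have h3 : b.repr (∑ i, c i * iota ((v i : LaurentSeries Kb).coeff k)) β = 0 := by
        rw [h1, map_zero]
        rfl
      rw [map_sum, Finsupp.finset_sum_apply] at h3
      have h4 : ∀ i, b.repr (c i * iota ((v i : LaurentSeries Kb).coeff k)) β
          = (v i : LaurentSeries Kb).coeff k * b.repr (c i) β := by
        intro i
        have : c i * iota ((v i : LaurentSeries Kb).coeff k)
            = ((v i : LaurentSeries Kb).coeff k) • c i := by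
          rw [Algebra.smul_def, halg, mul_comm]
        rw [this, map_smul, Finsupp.smul_apply, smul_eq_mul]
      rw [Finset.sum_congr rfl fun i _ => h4 i] at h3
      show ((∑ i, (b.repr (c i) β) • v i : FN N) : LaurentSeries Kb).coeff k = 0
      have h5 : ((∑ i, (b.repr (c i) β) • v i : FN N) : LaurentSeries Kb)
          = ∑ i, (b.repr (c i) β) • (v i : LaurentSeries Kb) := by
        rw [AddSubmonoidClass.coe_finset_sum]
        refine Finset.sum_congr rfl fun i _ => ?_
        have hsm : ∀ (a : Kb) (x : LaurentSeries Kb),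
            a • x = algebraMap Kb (LaurentSeries Kb) a * x := by
          intro a x
          rw [ModularCurve.algebraMap_laurentSeries_eq_single]
          exact (HahnSeries.C_mul_eq_smul (r := a) (x := x)).symm
        rw [hsm, Algebra.smul_def]
        rfl
      rw [h5, ← HahnSeries.coeff.addMonoidHom_apply, map_sum, ← h3]
      refine Finset.sum_congr rfl fun i _ => ?_
      rw [HahnSeries.coeff.addMonoidHom_apply, HahnSeries.coeff_smul, smul_eq_mul, mul_comm]
    intro i
    exact (Fintype.linearIndependent_iff.mp hv) _ hrel i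
  intro i
  have : b.repr (c i) = 0 := Finsupp.ext fun β => hcoord β i
  exact (b.repr.map_eq_zero_iff).mp this

/-- The function field is generated by the `j(q^d)`: induction principle. -/
theorem FN_induction (N : ℕ) [NeZero N] (p : FN N → Prop)
    (hconst : ∀ a : Kb, p (algebraMap Kb (FN N) a))
    (hgen : ∀ (d : ℕ) [NeZero d] (hd : d ∣ N), p (jd N d hd))
    (hadd : ∀ f g, p f → p g → p (f + g)) (hmul : ∀ f g, p f → p g → p (f * g))
    (hinv : ∀ f, p f → p f⁻¹) (f : FN N) : p f := by
  -- the inner induction: images of elements of the rational function field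
  have inner : ∀ y : LaurentSeries ℚ,
      ∀ hy : y ∈ IntermediateField.adjoin ℚ (ModularCurve.divisorExpansions N),
      p ⟨ModularCurve.coeffEmb Kb y, ModularCurve.coeffEmb_mem_laurentBaseChange Kb hy⟩ := by
    intro y hy
    induction hy using IntermediateField.adjoin_induction with
    | mem x hx =>
      obtain ⟨d, hd0, hd, rfl⟩ := hx
      exact hgen d hd
    | algebraMap c =>
      have := hconst (algebraMap ℚ Kb c)
      convert this using 1
      apply Subtype.ext
      show ModularCurve.coeffEmb Kb (algebraMap ℚ (LaurentSeries ℚ) c)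
        = algebraMap Kb (LaurentSeries Kb) (algebraMap ℚ Kb c)
      rw [ModularCurve.algebraMap_laurentSeries_eq_single,
        ModularCurve.algebraMap_laurentSeries_eq_single, ModularCurve.coeffEmb,
        ModularCurve.coeffMap_single]
    | add x y hx hy ihx ihy =>
      have := hadd _ _ ihx ihy
      convert this using 1
      apply Subtype.ext
      exact map_add (ModularCurve.coeffEmb Kb) x y
    | inv x hx ihx =>
      have := hinv _ ihx
      convert this using 1
      apply Subtype.ext
      exact map_inv₀ (ModularCurve.coeffEmb Kb) x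
    | mul x y hx hy ihx ihy =>
      have := hmul _ _ ihx ihy
      convert this using 1
      apply Subtype.ext
      exact map_mul (ModularCurve.coeffEmb Kb) x y
  have outer : ∀ x : LaurentSeries Kb,
      ∀ hx : x ∈ IntermediateField.adjoin Kb (⇑(ModularCurve.coeffEmb Kb) ''
        ((ModularCurve.modularFunctionFieldFull N : IntermediateField ℚ (LaurentSeries ℚ)) :
          Set (LaurentSeries ℚ))), p ⟨x, hx⟩ := by
    intro x hx
    induction hx using IntermediateField.adjoin_induction with
    | mem x hx =>
      obtain ⟨y, hy, rfl⟩ := hx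
      exact inner y hy
    | algebraMap a =>
      have := hconst a
      have e : (⟨algebraMap Kb (LaurentSeries Kb) a,
          IntermediateField.algebraMap_mem _ a⟩ : FN N) = algebraMap Kb (FN N) a :=
        Subtype.ext rfl
      rw [e]
      exact this
    | add x y hx hy ihx ihy =>
      have := hadd _ _ ihx ihy
      have e : (⟨x + y, add_mem hx hy⟩ : FN N) = ⟨x, hx⟩ + ⟨y, hy⟩ := Subtype.ext rfl
      rw [e]
      exact this
    | inv x hx ihx =>
      have := hinv _ ihx
      have e : (⟨x⁻¹, inv_mem hx⟩ : FN N) = ⟨x, hx⟩⁻¹ := Subtype.ext rfl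
      rw [e]
      exact this
    | mul x y hx hy ihx ihy =>
      have := hmul _ _ ihx ihy
      have e : (⟨x * y, mul_mem hx hy⟩ : FN N) = ⟨x, hx⟩ * ⟨y, hy⟩ := Subtype.ext rfl
      rw [e]
      exact this
  exact outer f.1 f.2

end Fermat.Agent.S24
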