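import Fermat.Agent.S24.JFun

/-!
# S24: local behaviour of the analytic `j`-function  (helper2)

For every `τ₀ ∈ ℍ`, `j - j(τ₀)` vanishes at `τ₀` to order exactly `jfRam τ₀ ∈ {1, 2, 3}`:
`3` on the orbit of `ρ` (zeros of `E₄`), `2` on the orbit of `i` (zeros of `E₆`), `1` otherwise.
-/

set_option autoImplicit false

namespace Fermat.Agent.S24

open UpperHalfPlane ModularForm EisensteinSeries Filter CongruenceSubgroup
open scoped MatrixGroups ModularForm Manifold Topology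
open Fermat.Agent.S20

/-- Local factorisation of `φ^e / ψ` at a simple zero of `φ`. -/
theorem jf_factor_of_simple (φ ψ : ℍ → ℂ) (hφ : MDiff φ) (hψ : MDiff ψ) (τ₀ : ℍ)
    (h0 : φ τ₀ = 0) (hd : deriv (φ ∘ ofComplex) τ₀ ≠ 0) (hψ0 : ψ τ₀ ≠ 0) (e : ℕ) :
    ∃ g : ℂ → ℂ, AnalyticAt ℂ g τ₀ ∧ g τ₀ ≠ 0 ∧
      ∀ᶠ z in 𝓝 (τ₀ : ℂ), φ (ofComplex z) ^ e / ψ (ofComplex z) = (z - τ₀) ^ e * g z := by
  have hφd : DifferentiableOn ℂ (φ ∘ ofComplex) {z | 0 < z.im} :=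
    UpperHalfPlane.mdifferentiable_iff.mp hφ
  have hψd : DifferentiableOn ℂ (ψ ∘ ofComplex) {z | 0 < z.im} :=
    UpperHalfPlane.mdifferentiable_iff.mp hψ
  have hUo : IsOpen {z : ℂ | 0 < z.im} := isOpen_upperHalfPlaneSet
  have hU : {z : ℂ | 0 < z.im} ∈ 𝓝 (τ₀ : ℂ) := hUo.mem_nhds τ₀.im_pos
  have hφz₀ : (φ ∘ ofComplex) τ₀ = 0 := by rw [comp_ofComplex]; exact h0
  have hψz₀ : (ψ ∘ ofComplex) τ₀ ≠ 0 := by rw [comp_ofComplex]; exact hψ0
  have hds : AnalyticAt ℂ (dslope (φ ∘ ofComplex) τ₀) τ₀ :=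
    ((Complex.differentiableOn_dslope hU).mpr hφd).analyticAt hU
  have hψa : AnalyticAt ℂ (ψ ∘ ofComplex) τ₀ := hψd.analyticAt hU
  refine ⟨fun z => dslope (φ ∘ ofComplex) τ₀ z ^ e / (ψ ∘ ofComplex) z,
    (hds.pow e).div hψa hψz₀, ?_, ?_⟩
  · simp only
    rw [dslope_same]
    exact div_ne_zero (pow_ne_zero _ hd) hψz₀
  · refine Eventually.of_forall fun z => ?_
    have h1 : (φ ∘ ofComplex) z = (z - τ₀) * dslope (φ ∘ ofComplex) τ₀ z := by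
      have := sub_smul_dslope (φ ∘ ofComplex) (τ₀ : ℂ) z
      rw [hφz₀, sub_zero, smul_eq_mul] at this
      exact this.symm
    simp only [Function.comp_apply] at h1 ⊢
    rw [h1, mul_pow, mul_div_assoc]

/-- The ramification index of `j` at `τ₀`. -/
noncomputable def jfRam (τ₀ : ℍ) : ℕ := if E₄ τ₀ = 0 then 3 else if E₆ τ₀ = 0 then 2 else 1

theorem jfRam_of_E4 {τ₀ : ℍ} (h : E₄ τ₀ = 0) : jfRam τ₀ = 3 := by simp [jfRam, h]

theorem jfRam_of_E6 {τ₀ : ℍ} (h : E₆ τ₀ = 0) : jfRam τ₀ = 2 := by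
  have h4 : E₄ τ₀ ≠ 0 := (E4_E6_not_both_zero τ₀).resolve_right (not_not.mpr h)
  simp [jfRam, h, h4]

theorem jfRam_of_ne {τ₀ : ℍ} (h4 : E₄ τ₀ ≠ 0) (h6 : E₆ τ₀ ≠ 0) : jfRam τ₀ = 1 := by
  simp [jfRam, h4, h6]

theorem jfRam_pos (τ₀ : ℍ) : 0 < jfRam τ₀ := by
  unfold jfRam; split_ifs <;> norm_num

theorem jfRam_smul (γ : SL(2, ℤ)) (τ₀ : ℍ) : jfRam (γ • τ₀) = jfRam τ₀ := by
  unfold jfRam
  simp only [div_levelOne_smul_eq_zero_iff]

theorem jfRam_rho : jfRam rho = 3 := jfRam_of_E4 E4_rho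

theorem jfRam_I : jfRam I = 2 := jfRam_of_E6 E6_I

/-- **Local form of `j`.** -/
theorem jf_local (τ₀ : ℍ) :
    ∃ g : ℂ → ℂ, AnalyticAt ℂ g τ₀ ∧ g τ₀ ≠ 0 ∧
      ∀ᶠ z in 𝓝 (τ₀ : ℂ), jf (ofComplex z) - jf τ₀ = (z - τ₀) ^ jfRam τ₀ * g z := by
  have h4d : MDiff (⇑E₄) := ModularFormClass.holo E₄
  have h6d : MDiff (⇑E₆) := ModularFormClass.holo E₆
  have hΔ0 := ModularForm.discriminant_ne_zero τ₀
  by_cases h4 : E₄ τ₀ = 0
  · obtain ⟨g, hg, hg0, hev⟩ := jf_factor_of_simple (⇑E₄) ModularForm.discriminant h4d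
      jf_delta_mdiff τ₀ h4 (deriv_E4_ne_zero h4) hΔ0 3
    refine ⟨g, hg, hg0, ?_⟩
    rw [jfRam_of_E4 h4, (jf_eq_zero_iff τ₀).mpr h4]
    filter_upwards [hev] with z hz
    rw [sub_zero, jf, hz]
  by_cases h6 : E₆ τ₀ = 0
  · obtain ⟨g, hg, hg0, hev⟩ := jf_factor_of_simple (⇑E₆) ModularForm.discriminant h6d
      jf_delta_mdiff τ₀ h6 (deriv_E6_ne_zero h6) hΔ0 2
    refine ⟨g, hg, hg0, ?_⟩
    rw [jfRam_of_E6 h6, (jf_eq_1728_iff τ₀).mpr h6]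
    filter_upwards [hev] with z hz
    rw [jf_sub_1728, hz]
  · set c : ℂ := jf τ₀ with hc
    set a : ℂ := 1 - c / 1728 with ha
    set b : ℂ := c / 1728 with hb
    let φ : ℍ → ℂ := fun τ => a * E₄ τ ^ 3 + b * E₆ τ ^ 2
    have hφeq : ∀ τ : ℍ, jf τ - c = φ τ / ModularForm.discriminant τ := by
      intro τ
      rw [jf_sub_const, ModularForm.discriminant_eq_E₄_cube_sub_E₆_sq]
      congr 1
      simp only [φ, ha, hb]
      ring
    have hφ0 : φ τ₀ = 0 := by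
      have := hφeq τ₀
      rw [sub_self] at this
      rcases div_eq_zero_iff.mp this.symm with h | h
      · exact h
      · exact absurd h hΔ0
    have hab : a ≠ 0 ∨ b ≠ 0 := by
      by_contra hcon
      push Not at hcon
      have : a + b = 1 := by simp only [ha, hb]; ring
      rw [hcon.1, hcon.2] at this
      norm_num at this
    have hφd : MDiff φ :=
      (mdifferentiable_const.mul (h4d.pow 3)).add (mdifferentiable_const.mul (h6d.pow 2))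
    have hder : deriv (φ ∘ ofComplex) τ₀ ≠ 0 := deriv_pencil_ne_zero a b hab h4 h6 hφ0
    obtain ⟨g, hg, hg0, hev⟩ := jf_factor_of_simple φ ModularForm.discriminant hφd
      jf_delta_mdiff τ₀ hφ0 hder hΔ0 1
    refine ⟨g, hg, hg0, ?_⟩
    rw [jfRam_of_ne h4 h6]
    filter_upwards [hev] with z hz
    rw [hφeq, ← hz, pow_one]

theorem jf_analyticAt (τ₀ : ℍ) : AnalyticAt ℂ (fun z => jf (ofComplex z)) τ₀ := by
  have hd : DifferentiableOn ℂ (jf ∘ ofComplex) {z | 0 < z.im} :=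
    UpperHalfPlane.mdifferentiable_iff.mp jf_mdiff
  exact hd.analyticAt (isOpen_upperHalfPlaneSet.mem_nhds τ₀.im_pos)

/-- The order of vanishing of `j - j(τ₀)` at `τ₀` is `jfRam τ₀`. -/
theorem jf_analyticOrderAt (τ₀ : ℍ) :
    analyticOrderAt (fun z => jf (ofComplex z) - jf τ₀) (τ₀ : ℂ) = jfRam τ₀ := by
  have ha : AnalyticAt ℂ (fun z => jf (ofComplex z) - jf τ₀) (τ₀ : ℂ) :=
    (jf_analyticAt τ₀).sub analyticAt_const
  rw [ha.analyticOrderAt_eq_natCast]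
  obtain ⟨g, hg, hg0, hev⟩ := jf_local τ₀
  exact ⟨g, hg, hg0, by simpa [smul_eq_mul] using hev⟩

end Fermat.Agent.S24
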