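import Mathlib

/-!
# S24 / (B3) auxiliary lemmas for `Kaehler.lean`  (OWNER: helper5)

`ffdField W`: the elements of `F` whose differential lies in the `F`-submodule `W` of `Ω[F⁄K]`
form an intermediate field; `ffd_span_D`: in characteristic `0`, `Ω[F⁄K] = F · D x` as soon as
`F` is algebraic over `K(x)`.
-/

set_option autoImplicit false

namespace Fermat.Agent.S24

open KaehlerDifferential Polynomial

variable {K F : Type*} [Field K] [Field F] [Algebra K F]

/-- The elements whose differential lies in a given `F`-submodule of `Ω[F⁄K]` form an
intermediate field. -/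
def ffdField (W : Submodule F Ω[F⁄K]) : IntermediateField K F where
  carrier := {f | D K F f ∈ W}
  mul_mem' := by
    intro a b ha hb
    change D K F (a * b) ∈ W
    rw [Derivation.leibniz]
    exact W.add_mem (W.smul_mem _ hb) (W.smul_mem _ ha)
  add_mem' := by
    intro a b ha hb
    change D K F (a + b) ∈ W
    rw [map_add]
    exact W.add_mem ha hb
  algebraMap_mem' := by
    intro r
    change D K F (algebraMap K F r) ∈ W
    rw [Derivation.map_algebraMap]
    exact W.zero_mem
  inv_mem' := by
    intro a ha
    change D K F a⁻¹ ∈ W
    rw [Derivation.leibniz_inv]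
    exact W.smul_mem _ ha

theorem mem_ffdField {W : Submodule F Ω[F⁄K]} {f : F} : f ∈ ffdField W ↔ D K F f ∈ W := Iff.rfl

/-- For a polynomial `p` with coefficients in an intermediate field `E ≤ ffdField W`,
`D (p(f)) - p'(f) • D f ∈ W`. -/
theorem ffd_D_aeval_sub (W : Submodule F Ω[F⁄K]) (E : IntermediateField K F)
    (hE : E ≤ ffdField W) (f : F) (p : E[X]) :
    D K F (aeval f p) - aeval f (derivative p) • D K F f ∈ W := by
  induction p using Polynomial.induction_on' with
  | add p q hp hq =>
    have : D K F (aeval f (p + q)) - aeval f (derivative (p + q)) • D K F f =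
        (D K F (aeval f p) - aeval f (derivative p) • D K F f) +
        (D K F (aeval f q) - aeval f (derivative q) • D K F f) := by
      simp only [map_add, add_smul]
      abel
    rw [this]
    exact W.add_mem hp hq
  | monomial n a =>
    have ha : D K F (a : F) ∈ W := hE a.2
    have h1 : aeval f (monomial n a) = (a : F) * f ^ n := by
      rw [aeval_monomial]
      rfl
    have h2 : aeval f (derivative (monomial n a)) = (a : F) * (n : F) * f ^ (n - 1) := by
      rw [derivative_monomial, aeval_monomial, map_mul, map_natCast]
      rfl
    rw [h1, h2, Derivation.leibniz, Derivation.leibniz_pow]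
    have : (a : F) • n • f ^ (n - 1) • D K F f + f ^ n • D K F (a : F) -
        ((a : F) * (n : F) * f ^ (n - 1)) • D K F f = f ^ n • D K F (a : F) := by
      rw [← Nat.cast_smul_eq_nsmul F n, smul_smul, smul_smul, mul_assoc]
      abel
    rw [this]
    exact W.smul_mem _ ha

/-- **(D1)** In characteristic `0`, if `F` is algebraic over `K(x)` then `Ω[F⁄K]` is spanned by
`D x`. -/
theorem ffd_span_D [CharZero K] (x : F)
    (halg : Algebra.IsAlgebraic (IntermediateField.adjoin K {x}) F) :
    Submodule.span F {D K F x} = ⊤ := by
  set W : Submodule F Ω[F⁄K] := Submodule.span F {D K F x} with hW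
  have hx : x ∈ ffdField W := Submodule.subset_span rfl
  have hle : IntermediateField.adjoin K {x} ≤ ffdField W :=
    IntermediateField.adjoin_simple_le_iff.mpr hx
  have hall : ∀ f : F, D K F f ∈ W := by
    intro f
    have hchar : CharZero (IntermediateField.adjoin K {x}) :=
      charZero_of_injective_algebraMap (algebraMap K _).injective
    have hf : IsIntegral (IntermediateField.adjoin K {x}) f := (halg.isAlgebraic f).isIntegral
    set p := minpoly (IntermediateField.adjoin K {x}) f with hp
    have hsep : p.Separable := (minpoly.irreducible hf).separable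
    have h0 : aeval f p = 0 := minpoly.aeval _ f
    have hne : aeval f (derivative p) ≠ 0 := hsep.aeval_derivative_ne_zero h0
    have key := ffd_D_aeval_sub W _ hle f p
    rw [h0, map_zero, zero_sub] at key
    have key2 := W.smul_mem (-(aeval f (derivative p))⁻¹) key
    rwa [smul_neg, neg_smul, neg_neg, smul_smul, inv_mul_cancel₀ hne, one_smul] at key2
  rw [eq_top_iff, ← KaehlerDifferential.span_range_derivation, Submodule.span_le]
  rintro _ ⟨f, rfl⟩
  exact hall f

end Fermat.Agent.S24
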