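import Fermat.Agent.S24.Defs
import Fermat.Agent.S24.KaehlerAux

/-!
# S24 / (B3) Kähler differentials of a function field of one variable
(OWNER: helper5)

`Ω[F⁄K]` is spanned by `D t` for every transcendental `t` with `F / K(t)` finite (char. 0).

Sketch.  `S := {f | D f ∈ F · D t}` is a subfield of `F` (Leibniz) containing `K` and `t`.
If `f` is algebraic over `S` with minimal polynomial `p = ∑ aᵢ Xⁱ`, then
`0 = D (p(f)) = p'(f) · D f + ∑ (D aᵢ) fⁱ` and `p'(f) ≠ 0` (separable, char. 0), so `f ∈ S`.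
As `F / K(t)` is algebraic, `S = F`; conclude with `KaehlerDifferential.span_range_derivation`.

Statements FROZEN; extra lemmas welcome (prefix `kd_`).
-/

set_option autoImplicit false

namespace Fermat.Agent.S24

open AlgebraicCurve IntermediateField KaehlerDifferential

variable {K F : Type*} [Field K] [Field F] [Algebra K F]

theorem span_D_eq_top [CharZero K] (t : F) [FiniteDimensional K⟮t⟯ F] :
    Submodule.span F {KaehlerDifferential.D K F t} = ⊤ := by
  exact ffd_span_D t (Algebra.IsAlgebraic.of_finite K⟮t⟯ F)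

/-- `Ω[F⁄K]` has dimension at most `1`. -/
theorem span_singleton_eq_top [CharZero K] (hFF : IsFF1 K F) {ω : Ω[F⁄K]} (hω : ω ≠ 0) :
    Submodule.span F {ω} = ⊤ := by
  obtain ⟨t, -, hfin⟩ := hFF
  have ht := span_D_eq_top (K := K) t
  have hmem : ω ∈ Submodule.span F {KaehlerDifferential.D K F t} := ht ▸ Submodule.mem_top
  obtain ⟨c, hc⟩ := Submodule.mem_span_singleton.mp hmem
  have hc0 : c ≠ 0 := by
    rintro rfl
    rw [zero_smul] at hc
    exact hω hc.symm
  rw [eq_top_iff, ← ht, Submodule.span_le, Set.singleton_subset_iff]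
  refine Submodule.mem_span_singleton.mpr ⟨c⁻¹, ?_⟩
  rw [← hc, smul_smul, inv_mul_cancel₀ hc0, one_smul]

theorem exists_eq_smul [CharZero K] (hFF : IsFF1 K F) {ω : Ω[F⁄K]} (hω : ω ≠ 0) (η : Ω[F⁄K]) :
    ∃ g : F, η = g • ω := by
  have hmem : η ∈ Submodule.span F {ω} := span_singleton_eq_top hFF hω ▸ Submodule.mem_top
  obtain ⟨g, hg⟩ := Submodule.mem_span_singleton.mp hmem
  exact ⟨g, hg.symm⟩

end Fermat.Agent.S24
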