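import Fermat.Agent.S24.Unique
import Fermat.Agent.S24.Fundamental

/-!
# S24 / (B6) the local theorem: zeros of `t` ↔ orbits of the monodromy
(OWNER: helper4)

Let `D : LocalData ι X t` with `[F : K(t)] ≤ |X| =: μ`.  Every `σ_x` induces a place `P_x`
(`exists_place_of_embedding`), a zero of `t`.  For a place `P` put
`n_P := #{x | σ_x induces P} ≤ e_P := ord_P t` (`card_induces_le`).  Then
`μ = ∑_{P ∈ 𝒫} n_P ≤ ∑_{P ∈ 𝒫} e_P ≤ ∑_{P ∈ zeroSet t} e_P = [F : K(t)] ≤ μ`
(`fundamental_identity`), so: every zero of `t` is some `P_x`, `n_P = e_P`, `[F : K(t)] = μ`.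
Orbits: `order_ρ` shows `P_{ρ x} = P_x`, so `h_x := |orbit x| ≤ n_{P_x}`; and `ρ ^ h x = x`
with `lc_ρ` gives `ζ ^ (h · ord_s σ_x f) = 1` for all `f`, i.e. `m ∣ h k` with `m = k e`, so
`e ∣ h`.  Hence `h = n = e`: the fibres of `x ↦ P_x` are exactly the `ρ`-orbits.

Statements FROZEN.
-/

set_option autoImplicit false

namespace Fermat.Agent.S24

open AlgebraicCurve HahnSeries IntermediateField

variable {K F L : Type*} [Field K] [Field F] [Algebra K F] [Field L]

lemma loc_induces_congr {σ σ' : F →+* LaurentSeries L} {P : Place K F}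
    (h : ∀ f, (σ' f).order = (σ f).order) (hσ : Induces σ P) : Induces σ' P := by
  intro f
  rw [h f]
  exact hσ f

lemma loc_t_ne_zero {ι : K →+* L} {X : Type} {t : F} (D : LocalData ι X t) (x : X) : t ≠ 0 := by
  rintro rfl
  have h := D.order_t x
  rw [map_zero, HahnSeries.order_zero] at h
  have := D.m_pos
  omega

/-- iterating the monodromy -/
lemma loc_iterate {ι : K →+* L} {X : Type} {t : F} (D : LocalData ι X t) (x : X) (f : F)
    (n : ℕ) :
    (D.σ ((D.ρ ^ n) x) f).order = (D.σ x f).order ∧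
      (D.σ ((D.ρ ^ n) x) f).leadingCoeff =
        D.ζ ^ ((n : ℤ) * (D.σ x f).order) * (D.σ x f).leadingCoeff := by
  induction n with
  | zero => simp
  | succ n ih =>
    have e : (D.ρ ^ (n + 1)) x = D.ρ ((D.ρ ^ n) x) := by
      rw [pow_succ', Equiv.Perm.mul_apply]
    rw [e, D.order_ρ, D.lc_ρ, ih.1, ih.2]
    refine ⟨rfl, ?_⟩
    have hζ0 : D.ζ ≠ 0 := D.hζ.ne_zero (Nat.pos_iff_ne_zero.mp D.m_pos)
    rw [← mul_assoc, ← zpow_add₀ hζ0]
    congr 2
    push_cast
    ring

/-- The places attached to the embeddings of a local datum. -/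
lemma loc_exists_place (ι : K →+* L) {X : Type} {t : F} (D : LocalData ι X t) (x : X) :
    ∃ P : Place K F, Induces (D.σ x) P :=
  exists_place_of_embedding ι (D.σ x) (D.σ_const x)
    ⟨t, by rw [D.order_t x]; exact_mod_cast D.m_pos.ne'⟩

lemma loc_index {ι : K →+* L} {X : Type} {t : F} (D : LocalData ι X t) {x : X} {P : Place K F}
    (hP : Induces (D.σ x) P) :
    ∃ k : ℕ, 0 < k ∧ (∀ f : F, f ≠ 0 → (D.σ x f).order = (k : ℤ) * P.ord f) ∧
      (D.m : ℤ) = k * P.ord t ∧ 0 < P.ord t := by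
  obtain ⟨k, hk, hkf⟩ := hP.exists_index
  have h1 : (D.m : ℤ) = k * P.ord t := by
    rw [← hkf t (loc_t_ne_zero D x), D.order_t x]
  refine ⟨k, hk, hkf, h1, ?_⟩
  have hm : (0 : ℤ) < D.m := by exact_mod_cast D.m_pos
  have hk' : (0 : ℤ) < k := by exact_mod_cast hk
  rw [h1] at hm
  exact (pos_iff_pos_of_mul_pos hm).mp hk'

lemma loc_place_pow {ι : K →+* L} {X : Type} {t : F} (D : LocalData ι X t) {x : X}
    {P : Place K F} (hP : Induces (D.σ x) P) (n : ℕ) : Induces (D.σ ((D.ρ ^ n) x)) P :=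
  loc_induces_congr (fun f => (loc_iterate D x f n).1) hP

lemma loc_place_zpow {ι : K →+* L} {X : Type} {t : F} (D : LocalData ι X t)
    (Pof : X → Place K F) (hPof : ∀ x, Induces (D.σ x) (Pof x)) (x : X) (n : ℤ) :
    Pof ((D.ρ ^ n) x) = Pof x := by
  have hnat : ∀ (y : X) (k : ℕ), Pof ((D.ρ ^ k) y) = Pof y := fun y k =>
    (hPof _).place_unique (loc_place_pow D (hPof y) k)
  rcases Int.eq_nat_or_neg n with ⟨k, rfl | rfl⟩
  · simpa using hnat x k
  · have := hnat ((D.ρ ^ (-(k : ℤ))) x) k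
    rw [← this]
    congr 1
    rw [← Equiv.Perm.mul_apply, ← zpow_natCast, ← zpow_add]
    simp

/-- `ord_P t` divides the period of `x`. -/
lemma loc_ord_le_period [CharZero L] {ι : K →+* L} {X : Type} {t : F} (D : LocalData ι X t)
    {x : X} {P : Place K F} (hP : Induces (D.σ x) P) {h : ℕ} (hh : 0 < h)
    (hx : (D.ρ ^ h) x = x) : P.ord t ≤ h := by
  obtain ⟨k, hk, hkf, hm, hpos⟩ := loc_index D hP
  obtain ⟨π, hπ⟩ := exists_ord_eq_one P
  have hπ0 : π ≠ 0 := by
    rintro rfl
    simp at hπ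
  have hord : (D.σ x π).order = k := by rw [hkf π hπ0, hπ, mul_one]
  have hlc := (loc_iterate D x π h).2
  rw [hx, hord] at hlc
  have hlc0 : (D.σ x π).leadingCoeff ≠ 0 := by
    rw [HahnSeries.leadingCoeff_ne_zero]
    exact (map_ne_zero (D.σ x)).mpr hπ0
  have h1 : D.ζ ^ ((h : ℤ) * k) = 1 := by
    have h2 : D.ζ ^ ((h : ℤ) * k) * (D.σ x π).leadingCoeff = 1 * (D.σ x π).leadingCoeff := by
      rw [one_mul]; exact hlc.symm
    exact mul_right_cancel₀ hlc0 h2
  have hdvd : (D.m : ℤ) ∣ (h : ℤ) * k := (D.hζ.zpow_eq_one_iff_dvd _).mp h1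
  rw [hm] at hdvd
  have hk' : (k : ℤ) ≠ 0 := by exact_mod_cast hk.ne'
  have hdvd' : P.ord t ∣ (h : ℤ) := by
    rw [mul_comm (h : ℤ)] at hdvd
    exact (mul_dvd_mul_iff_left hk').mp hdvd
  exact Int.le_of_dvd (by exact_mod_cast hh) hdvd'

/-- orbit size ≥ `ord` -/
lemma loc_orbit_card [CharZero L] {ι : K →+* L} {X : Type} [Fintype X]
    {t : F} (D : LocalData ι X t) {x : X} {P : Place K F} (hP : Induces (D.σ x) P) :
    P.ord t ≤ (Nat.card (MulAction.orbit (Subgroup.zpowers D.ρ) x) : ℤ) := by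
  classical
  have hcard := MulAction.minimalPeriod_eq_card D.ρ x
  set h := Function.minimalPeriod (fun y => D.ρ • y) x with hh
  have hpos : 0 < h := by
    rw [hcard]
    exact Fintype.card_pos_iff.mpr ⟨⟨x, MulAction.mem_orbit_self x⟩⟩
  have hper : (D.ρ ^ h) x = x := by
    have := Function.iterate_minimalPeriod (f := fun y => D.ρ • y) (x := x)
    rw [smul_iterate] at this
    exact this
  have hle := loc_ord_le_period D hP hpos hper
  rw [Nat.card_eq_fintype_card, ← hcard]
  exact hle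

theorem local_main [IsAlgClosed K] [CharZero K] [CharZero L] (ι : K →+* L) {X : Type}
    [Fintype X] {t : F} (D : LocalData ι X t) (ht : Transcendental K t)
    [FiniteDimensional K⟮t⟯ F] (hdeg : Module.finrank K⟮t⟯ F ≤ Fintype.card X) :
    (zeroSet K t).Finite ∧
      (∀ P ∈ zeroSet K t, ∃ x : X, Induces (D.σ x) P) ∧
      (∀ x : X, ∃ P ∈ zeroSet K t, Induces (D.σ x) P) ∧
      (∑ᶠ P ∈ zeroSet K t, P.ord t = (Fintype.card X : ℤ)) ∧
      Nat.card (zeroSet K t) = numOrbits D.ρ := by
  classical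
  have hFF : IsFF1 K F := ⟨t, ht, inferInstance⟩
  obtain ⟨hfin, hsum⟩ := fundamental_identity (K := K) t ht
  choose Pof hPof using fun x => loc_exists_place ι D x
  have hzero : ∀ x, Pof x ∈ zeroSet K t := fun x => by
    obtain ⟨k, -, -, -, hpos⟩ := loc_index D (hPof x)
    exact hpos
  have hfib : ∀ x P, Induces (D.σ x) P ↔ Pof x = P := fun x P =>
    ⟨fun h => (hPof x).place_unique h, fun h => h ▸ hPof x⟩
  have hmaps : Set.MapsTo Pof (↑(Finset.univ : Finset X)) (↑hfin.toFinset) := by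
    intro x _
    simpa using hzero x
  have hcardX := Finset.card_eq_sum_card_fiberwise hmaps
  rw [Finset.card_univ] at hcardX
  have hfibcard : ∀ P, Nat.card {x : X // Induces (D.σ x) P} =
      (Finset.univ.filter (fun x => Pof x = P)).card := by
    intro P
    rw [Nat.card_eq_fintype_card, Fintype.card_subtype]
    congr 1
    ext x
    simp [hfib]
  have hle : ∀ P ∈ hfin.toFinset,
      ((Finset.univ.filter (fun x => Pof x = P)).card : ℤ) ≤ P.ord t := by
    intro P hP
    rw [← hfibcard]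
    have hP' : P ∈ zeroSet K t := by simpa using hP
    exact card_induces_le hFF ι P D.σ D.σ_inj D.σ_const hP' D.σ_t
  have hsumZ : ∑ P ∈ hfin.toFinset, P.ord t = (Module.finrank K⟮t⟯ F : ℤ) := by
    rw [← hsum, finsum_mem_eq_finite_toFinset_sum]
  have hcardX' : (Fintype.card X : ℤ) =
      ∑ P ∈ hfin.toFinset, ((Finset.univ.filter (fun x => Pof x = P)).card : ℤ) := by
    rw [hcardX]
    push_cast
    rfl
  have hsumle := Finset.sum_le_sum hle
  have hdeg' : (Module.finrank K⟮t⟯ F : ℤ) ≤ Fintype.card X := by exact_mod_cast hdeg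
  have hsumeq : ∑ P ∈ hfin.toFinset, ((Finset.univ.filter (fun x => Pof x = P)).card : ℤ) =
      ∑ P ∈ hfin.toFinset, P.ord t := le_antisymm hsumle (by rw [hsumZ, ← hcardX']; exact hdeg')
  have heq := (Finset.sum_eq_sum_iff_of_le hle).mp hsumeq
  have hsurj : ∀ P ∈ zeroSet K t, ∃ x : X, Induces (D.σ x) P := by
    intro P hP
    have h1 := heq P (by simpa using hP)
    have h2 : 0 < (Finset.univ.filter (fun x => Pof x = P)).card := by
      have : (0 : ℤ) < P.ord t := hP
      rw [← h1] at this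
      exact_mod_cast this
    obtain ⟨x, hx⟩ := Finset.card_pos.mp h2
    exact ⟨x, (hfib x P).mpr (by simpa using hx)⟩
  refine ⟨hfin, hsurj, fun x => ⟨Pof x, hzero x, hPof x⟩, ?_, ?_⟩
  · rw [finsum_mem_eq_finite_toFinset_sum _ hfin, ← hsumeq, ← hcardX']
  · -- the bijection orbits ↔ zeros
    have horb : ∀ x y, y ∈ MulAction.orbit (Subgroup.zpowers D.ρ) x → Pof y = Pof x := by
      rintro x y ⟨⟨g, hg⟩, rfl⟩
      obtain ⟨n, rfl⟩ := Subgroup.mem_zpowers_iff.mp hg
      exact loc_place_zpow D Pof hPof x n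
    have horb' : ∀ x y, Pof y = Pof x → y ∈ MulAction.orbit (Subgroup.zpowers D.ρ) x := by
      intro x y hxy
      have hsub : MulAction.orbit (Subgroup.zpowers D.ρ) x ⊆ {z | Pof z = Pof x} :=
        fun z hz => horb x z hz
      have hc1 := loc_orbit_card D (hPof x)
      have hc2 := heq (Pof x) (by simpa using hzero x)
      have hc3 : ({z | Pof z = Pof x} : Set X).ncard ≤
          (MulAction.orbit (Subgroup.zpowers D.ρ) x).ncard := by
        have e1 : ({z | Pof z = Pof x} : Set X).ncard =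
            (Finset.univ.filter (fun z => Pof z = Pof x)).card := by
          rw [← Set.ncard_coe_finset]
          congr 1
          ext z
          simp
        rw [e1, ← Nat.card_coe_set_eq (MulAction.orbit (Subgroup.zpowers D.ρ) x)]
        have : ((Finset.univ.filter (fun z => Pof z = Pof x)).card : ℤ) ≤
            (Nat.card (MulAction.orbit (Subgroup.zpowers D.ρ) x) : ℤ) := by
          rw [hc2]; exact hc1
        exact_mod_cast this
      have hEq := Set.eq_of_subset_of_ncard_le hsub hc3 (Set.toFinite _)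
      rw [hEq]
      exact hxy
    unfold numOrbits
    symm
    refine Nat.card_congr (Equiv.ofBijective
      (Quotient.lift (s := MulAction.orbitRel (Subgroup.zpowers D.ρ) X)
        (fun x => (⟨Pof x, hzero x⟩ : zeroSet K t)) ?_) ⟨?_, ?_⟩)
    · intro a b hab
      have := horb b a (MulAction.orbitRel_apply.mp hab)
      exact Subtype.ext this
    · intro a b
      induction a using Quotient.inductionOn with
      | _ a =>
        induction b using Quotient.inductionOn with
        | _ b =>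
          intro h
          have h' : Pof a = Pof b := congrArg Subtype.val h
          exact Quotient.sound (MulAction.orbitRel_apply.mpr (horb' b a h'))
    · rintro ⟨P, hP⟩
      obtain ⟨x, hx⟩ := hsurj P hP
      exact ⟨Quotient.mk _ x, Subtype.ext ((hfib x P).mp hx)⟩

/-- If `m = 1` then `t` is a uniformizer at each of its zeros. -/
theorem local_unramified [IsAlgClosed K] [CharZero K] [CharZero L] (ι : K →+* L) {X : Type}
    [Fintype X] {t : F} (D : LocalData ι X t) (hm : D.m = 1) {P : Place K F} {x : X}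
    (hP : Induces (D.σ x) P) : P.ord t = 1 := by
  obtain ⟨k, hk, -, hmk, hpos⟩ := loc_index D hP
  rw [hm] at hmk
  have hk' : (0 : ℤ) < k := by exact_mod_cast hk
  have h1 : (k : ℤ) * P.ord t = 1 := by exact_mod_cast hmk.symm
  have h2 : P.ord t ≤ 1 := by
    by_contra hcon
    rw [not_le] at hcon
    nlinarith
  omega

end Fermat.Agent.S24
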