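import Mathlib

/-!
# S24 / (B7) auxiliary lemmas for `OrdDiff.lean`  (OWNER: helper5)

* The derivative `d/ds` of Laurent series: coefficients, Leibniz rule (`ffd_deriv_leibniz`),
  constants, and `order (d/ds f) = order f - 1` for `order f ≠ 0` in characteristic `0`.
* For a ring homomorphism `σ : F →+* L⸨s⸩` which maps `K` to constants, `f ↦ d/ds (σ f)` is a
  `K`-derivation of `F` with values in `FfdMod σ` (= `L⸨s⸩` with the `F`-module structure
  through `σ`); hence a relation `D f = c • D g` in `Ω[F⁄K]` gives
  `d/ds (σ f) = σ c * d/ds (σ g)` (`ffd_transport`).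
-/


set_option autoImplicit false

namespace Fermat.Agent.S24

open KaehlerDifferential HahnSeries

section laurent

variable {L : Type*} [Field L]

/-- coefficients of the derivative -/
theorem ffd_deriv_coeff (f : LaurentSeries L) (n : ℤ) :
    (LaurentSeries.derivative L f).coeff n = ((n + 1 : ℤ) : L) * f.coeff (n + 1) := by
  rw [LaurentSeries.derivative_apply, LaurentSeries.hasseDeriv_coeff]
  simp

/-- the derivative of a power series -/
theorem ffd_deriv_ofPowerSeries (p : PowerSeries L) :
    LaurentSeries.derivative L (HahnSeries.ofPowerSeries ℤ L p) =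
      HahnSeries.ofPowerSeries ℤ L (PowerSeries.derivative L p) := by
  ext n
  rw [ffd_deriv_coeff, PowerSeries.coeff_coe, PowerSeries.coeff_coe]
  by_cases hn : n < 0
  · rw [if_pos hn]
    by_cases h1 : n + 1 < 0
    · rw [if_pos h1, mul_zero]
    · have : n + 1 = 0 := by omega
      rw [this]
      simp
  · rw [if_neg hn, if_neg (by omega)]
    obtain ⟨m, rfl⟩ := Int.eq_ofNat_of_zero_le (not_lt.mp hn)
    have h1 : ((m : ℤ) + 1).natAbs = m + 1 := by omega
    rw [h1, Int.natAbs_natCast, PowerSeries.coeff_derivative]
    push_cast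
    ring

/-- the derivative of `s^n f` -/
theorem ffd_deriv_single_mul (n : ℤ) (f : LaurentSeries L) :
    LaurentSeries.derivative L (single n (1 : L) * f) =
      single n (1 : L) * LaurentSeries.derivative L f +
        single (n - 1) ((n : ℤ) : L) * f := by
  ext m
  rw [ffd_deriv_coeff, HahnSeries.coeff_add, HahnSeries.coeff_single_mul,
    HahnSeries.coeff_single_mul, HahnSeries.coeff_single_mul, ffd_deriv_coeff]
  have h1 : m + 1 - n = m - n + 1 := by ring
  have h2 : m - (n - 1) = m - n + 1 := by ring
  rw [h1, h2]
  push_cast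
  ring

/-- The Leibniz rule for the derivative of Laurent series. -/
theorem ffd_deriv_leibniz (f g : LaurentSeries L) :
    LaurentSeries.derivative L (f * g) =
      f * LaurentSeries.derivative L g + g * LaurentSeries.derivative L f := by
  obtain ⟨a, p, rfl⟩ : ∃ (a : ℤ) (p : PowerSeries L),
      f = single a (1 : L) * HahnSeries.ofPowerSeries ℤ L p :=
    ⟨_, _, (LaurentSeries.single_order_mul_powerSeriesPart f).symm⟩
  obtain ⟨b, q, rfl⟩ : ∃ (b : ℤ) (q : PowerSeries L),
      g = single b (1 : L) * HahnSeries.ofPowerSeries ℤ L q :=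
    ⟨_, _, (LaurentSeries.single_order_mul_powerSeriesPart g).symm⟩
  have e1 : single a (1 : L) * HahnSeries.ofPowerSeries ℤ L p *
      (single b (1 : L) * HahnSeries.ofPowerSeries ℤ L q) =
      single (a + b) (1 : L) * HahnSeries.ofPowerSeries ℤ L (p * q) := by
    rw [map_mul, mul_mul_mul_comm, HahnSeries.single_mul_single, one_mul]
  rw [e1, ffd_deriv_single_mul, ffd_deriv_single_mul, ffd_deriv_single_mul,
    ffd_deriv_ofPowerSeries, ffd_deriv_ofPowerSeries, ffd_deriv_ofPowerSeries,
    Derivation.leibniz, map_add]
  simp only [smul_eq_mul, map_mul]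
  have s1 : single (a + b) (1 : L) = single a (1 : L) * single b (1 : L) := by
    rw [HahnSeries.single_mul_single, one_mul]
  have s2 : single (a + b - 1) (((a + b : ℤ) : ℤ) : L) =
      single (a - 1) ((a : ℤ) : L) * single b (1 : L) +
        single a (1 : L) * single (b - 1) ((b : ℤ) : L) := by
    rw [HahnSeries.single_mul_single, HahnSeries.single_mul_single, mul_one, one_mul,
      show a - 1 + b = a + b - 1 by ring, show a + (b - 1) = a + b - 1 by ring,
      ← HahnSeries.single_add]
    push_cast
    rfl
  rw [s1, s2]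
  ring

/-- The derivative of a constant vanishes. -/
theorem ffd_deriv_C (c : L) : LaurentSeries.derivative L (HahnSeries.C c : LaurentSeries L) = 0 := by
  ext n
  rw [ffd_deriv_coeff, HahnSeries.C_apply, HahnSeries.coeff_single, HahnSeries.coeff_zero]
  by_cases hn : n + 1 = 0
  · rw [hn]; simp
  · rw [if_neg hn, mul_zero]

/-- In characteristic `0`, `d/ds` lowers a nonzero order by exactly one. -/
theorem ffd_order_deriv [CharZero L] (f : LaurentSeries L) (hf : f.order ≠ 0) :
    LaurentSeries.derivative L f ≠ 0 ∧ (LaurentSeries.derivative L f).order = f.order - 1 := by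
  have hf0 : f ≠ 0 := by
    rintro rfl
    exact hf HahnSeries.order_zero
  have hc : (LaurentSeries.derivative L f).coeff (f.order - 1) ≠ 0 := by
    rw [ffd_deriv_coeff, sub_add_cancel]
    refine mul_ne_zero (Int.cast_ne_zero.mpr hf) ?_
    exact fun h => hf0 (HahnSeries.coeff_order_eq_zero.mp h)
  have hne : LaurentSeries.derivative L f ≠ 0 := by
    intro h
    rw [h] at hc
    exact hc rfl
  refine ⟨hne, le_antisymm (HahnSeries.order_le_of_coeff_ne_zero hc) ?_⟩
  rw [HahnSeries.le_order_iff_forall hne]
  intro j hj
  rw [ffd_deriv_coeff, HahnSeries.coeff_eq_zero_of_lt_order (by omega), mul_zero]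

end laurent

section module

variable {K F L : Type*} [Field K] [Field F] [Algebra K F] [Field L]

/-- Laurent series as an `F`-module via a ring homomorphism `σ` (type synonym). -/
def FfdMod (_σ : F →+* LaurentSeries L) : Type _ := LaurentSeries L

variable (σ : F →+* LaurentSeries L)

noncomputable instance : AddCommGroup (FfdMod σ) :=
  inferInstanceAs (AddCommGroup (LaurentSeries L))

noncomputable instance ffdModF : Module F (FfdMod σ) :=
  Module.compHom (LaurentSeries L) σ

noncomputable instance ffdModK : Module K (FfdMod σ) :=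
  Module.compHom (LaurentSeries L) (σ.comp (algebraMap K F))

/-- The identity map `LaurentSeries L → FfdMod σ`. -/
def FfdMod.of : LaurentSeries L → FfdMod σ := fun x => x

/-- The identity map `FfdMod σ → LaurentSeries L`. -/
def FfdMod.val : FfdMod σ → LaurentSeries L := fun x => x

instance : IsScalarTower K F (FfdMod σ) where
  smul_assoc c f x := by
    show σ (c • f) * FfdMod.val σ x = σ (algebraMap K F c) * (σ f * FfdMod.val σ x)
    rw [Algebra.smul_def, map_mul, mul_assoc]

/-- The derivation `f ↦ d/ds (σ f)`, for a ring homomorphism `σ` mapping `K` to constants. -/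
noncomputable def ffdDer (hK : ∀ c : K, ∃ a : L, σ (algebraMap K F c) = HahnSeries.C a) :
    Derivation K F (FfdMod σ) where
  toFun f := FfdMod.of σ (LaurentSeries.derivative L (σ f))
  map_add' f g := by
    show LaurentSeries.derivative L (σ (f + g)) =
      LaurentSeries.derivative L (σ f) + LaurentSeries.derivative L (σ g)
    rw [map_add, map_add]
  map_smul' c f := by
    show LaurentSeries.derivative L (σ (c • f)) =
      σ (algebraMap K F c) * LaurentSeries.derivative L (σ f)
    obtain ⟨a, ha⟩ := hK c
    rw [Algebra.smul_def, map_mul, ffd_deriv_leibniz, ha, ffd_deriv_C, mul_zero, add_zero]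
  map_one_eq_zero' := by
    show LaurentSeries.derivative L (σ 1) = 0
    rw [map_one, ← HahnSeries.C_one, ffd_deriv_C]
  leibniz' f g := by
    show LaurentSeries.derivative L (σ (f * g)) =
      σ f * LaurentSeries.derivative L (σ g) + σ g * LaurentSeries.derivative L (σ f)
    rw [map_mul, ffd_deriv_leibniz]

/-- Transport of a relation `D f = c • D g` to Laurent series. -/
theorem ffd_transport (hK : ∀ c : K, ∃ a : L, σ (algebraMap K F c) = HahnSeries.C a)
    (f g c : F) (h : D K F f = c • D K F g) :
    LaurentSeries.derivative L (σ f) = σ c * LaurentSeries.derivative L (σ g) := by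
  have h1 := congrArg (ffdDer σ hK).liftKaehlerDifferential h
  rw [map_smul, Derivation.liftKaehlerDifferential_comp_D,
    Derivation.liftKaehlerDifferential_comp_D] at h1
  exact congrArg (FfdMod.val σ) h1

/-- If `σ f` has nonzero order then `D f ≠ 0` (characteristic `0`). -/
theorem ffd_D_ne_zero [CharZero L]
    (hK : ∀ c : K, ∃ a : L, σ (algebraMap K F c) = HahnSeries.C a)
    (f : F) (hf : (σ f).order ≠ 0) : D K F f ≠ 0 := by
  intro h0
  have h1 := ffd_transport σ hK f f 0 (by rw [h0, zero_smul])
  rw [map_zero, zero_mul] at h1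
  exact (ffd_order_deriv (σ f) hf).1 h1

/-- If `D f = c • D g` and `σ f`, `σ g` have nonzero order then
`ord (σ c) = ord (σ f) - ord (σ g)`. -/
theorem ffd_order_coeff [CharZero L]
    (hK : ∀ c : K, ∃ a : L, σ (algebraMap K F c) = HahnSeries.C a)
    (f g c : F) (h : D K F f = c • D K F g) (hf : (σ f).order ≠ 0) (hg : (σ g).order ≠ 0) :
    c ≠ 0 ∧ (σ c).order = (σ f).order - (σ g).order := by
  have h1 := ffd_transport σ hK f g c h
  obtain ⟨hf1, hf2⟩ := ffd_order_deriv (σ f) hf
  obtain ⟨hg1, hg2⟩ := ffd_order_deriv (σ g) hg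
  have hc : σ c ≠ 0 := by
    intro hc
    rw [hc, zero_mul] at h1
    exact hf1 h1
  have hc' : c ≠ 0 := by
    rintro rfl
    exact hc (map_zero σ)
  refine ⟨hc', ?_⟩
  have h2 := congrArg HahnSeries.order h1
  rw [HahnSeries.order_mul hc hg1, hf2, hg2] at h2
  omega

end module

end Fermat.Agent.S24
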