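import Fermat.Agent.S24.Defs
import Fermat.Agent.S24.FFBasic

/-!
# S24 / (B1) basic API for places and induced places  (OWNER: see table `s24_modules`)

Pure valuation theory; no modular forms.  Statements FROZEN; extra lemmas welcome
(prefix `pb_`).

Sketches.
* `mem_iff_ord_nonneg`: `P.ord = -log (adicValuation)`; the valuation subring of the adic
  valuation of the maximal ideal of a DVR is the DVR itself (`Place.exists_unit_mul_zpow`).
* `Induces.exists_index`: `σ` maps units of `𝒪_P` to series of order `0`, so with a uniformizer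
  `π` and `k := ord_s σ(π) > 0`, `f = u π ^ n` gives `ord_s σ(f) = k n`.
* `exists_place_of_embedding`: `{f | 0 ≤ ord_s σ(f)}` is a valuation subring, `≠ ⊤`, contains `K`;
  the set of orders `ord_s σ(F ˣ)` is a nonzero subgroup `k ℤ` of `ℤ`, an element of order `k`
  generates the maximal ideal, hence PID.
* `place_eq_of_le`: a DVR is a maximal proper subring of its fraction field.
-/

set_option autoImplicit false

namespace Fermat.Agent.S24

open AlgebraicCurve HahnSeries IntermediateField

variable {K F L : Type*} [Field K] [Field F] [Algebra K F] [Field L]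

theorem mem_iff_ord_nonneg (P : Place K F) {f : F} (hf : f ≠ 0) :
    f ∈ P.toValuationSubring ↔ 0 ≤ P.ord f := by
  have _ := hf
  exact (ff_ord_nonneg_iff P).symm

theorem ord_algebraMap (P : Place K F) (a : K) : P.ord (algebraMap K F a) = 0 := by
  rcases eq_or_ne a 0 with rfl | ha
  · simp
  have h1 : 0 ≤ P.ord (algebraMap K F a) := ff_ord_nonneg_of_mem P (P.algebraMap_mem' a)
  have h2 : 0 ≤ P.ord (algebraMap K F a⁻¹) := ff_ord_nonneg_of_mem P (P.algebraMap_mem' a⁻¹)
  rw [map_inv₀, P.ord_inv] at h2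
  omega

theorem ord_neg (P : Place K F) (f : F) : P.ord (-f) = P.ord f := by
  simp only [Place.ord, Valuation.map_neg]

theorem ord_add_ge (P : Place K F) {f g : F} (hfg : f + g ≠ 0) (n : ℤ)
    (hf : f = 0 ∨ n ≤ P.ord f) (hg : g = 0 ∨ n ≤ P.ord g) : n ≤ P.ord (f + g) := by
  rcases eq_or_ne f 0 with rfl | hf0
  · rcases hg with rfl | hg
    · simp at hfg
    · simpa using hg
  rcases eq_or_ne g 0 with rfl | hg0
  · rcases hf with rfl | hf
    · simp at hfg
    · simpa using hf
  have hf' : n ≤ P.ord f := hf.resolve_left hf0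
  have hg' : n ≤ P.ord g := hg.resolve_left hg0
  have := ff_ord_add_le P hfg hf0 hg0
  exact le_trans (le_min hf' hg') this

theorem ord_add_eq_of_lt (P : Place K F) {f g : F} (hf : f ≠ 0) (hg : g = 0 ∨ P.ord f < P.ord g) :
    P.ord (f + g) = P.ord f := by
  rcases eq_or_ne g 0 with rfl | hg0
  · simp
  have hlt : P.ord f < P.ord g := hg.resolve_left hg0
  have hfg : f + g ≠ 0 := by
    intro h
    have : g = -f := by
      rw [← sub_eq_zero, sub_neg_eq_add, add_comm]; exact h
    rw [this, ord_neg] at hlt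
    exact lt_irrefl _ hlt
  have h1 := ff_ord_add_le P hfg hf hg0
  rw [min_eq_left hlt.le] at h1
  have hng : -g ≠ 0 := neg_ne_zero.mpr hg0
  have h2 := ff_ord_add_le P (f := f + g) (g := -g) (by simpa using hf) hfg hng
  rw [add_neg_cancel_right, ord_neg] at h2
  rcases le_total (P.ord (f + g)) (P.ord g) with h | h
  · rw [min_eq_left h] at h2
    exact le_antisymm h2 h1
  · rw [min_eq_right h] at h2
    omega

theorem exists_ord_eq_one (P : Place K F) : ∃ π : F, P.ord π = 1 := by
  obtain ⟨π, hπ⟩ := IsDiscreteValuationRing.exists_irreducible P.toValuationSubring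
  exact ⟨π, P.ord_coe_irreducible hπ⟩

/-- The private uniformizer behind `Place.dCoord`. -/
theorem dCoord_spec (P : Place K F) :
    ∃ π : F, P.ord π = 1 ∧ P.dCoord = KaehlerDifferential.D K F π := by
  refine ⟨((IsDiscreteValuationRing.exists_irreducible P.toValuationSubring).choose : F),
    P.ord_coe_irreducible
      (IsDiscreteValuationRing.exists_irreducible P.toValuationSubring).choose_spec, rfl⟩

/-- Integral closedness of a valuation subring, in the form we need. -/
theorem pb_mem_of_pow_mem (A : ValuationSubring F) {g : F} {n : ℕ} (hn : 0 < n)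
    (h : g ^ n ∈ A) : g ∈ A := by
  rcases A.mem_or_inv_mem g with hg | hg
  · exact hg
  rcases eq_or_ne g 0 with rfl | hg0
  · exact zero_mem _
  have : g = g ^ n * (g⁻¹) ^ (n - 1) := by
    obtain ⟨m, rfl⟩ : ∃ m, n = m + 1 := ⟨n - 1, by omega⟩
    simp only [Nat.add_sub_cancel]
    rw [pow_succ, inv_pow, mul_assoc, mul_comm g, ← mul_assoc, mul_inv_cancel₀ (pow_ne_zero m hg0),
      one_mul]
  rw [this]
  exact mul_mem h (pow_mem hg _)

/-- A place is determined by the sign of `ord`. -/
theorem place_eq_of_le (P Q : Place K F)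
    (h : P.toValuationSubring ≤ Q.toValuationSubring) : P = Q := by
  apply Place.ext
  apply le_antisymm h
  intro f hfQ
  by_contra hfP
  have hf0 : f ≠ 0 := fun h0 => hfP (h0 ▸ zero_mem _)
  have hordf : P.ord f < 0 := (ff_ord_neg_iff P).mpr hfP
  -- an element outside `Q`
  obtain ⟨g, hgQ⟩ : ∃ g : F, g ∉ Q.toValuationSubring := by
    by_contra hall
    exact Q.ne_top' (eq_top_iff.mpr fun x _ => not_not.mp fun hx => hall ⟨x, hx⟩)
  have hgP : g ∉ P.toValuationSubring := fun hg => hgQ (h hg)
  have hg0 : g ≠ 0 := fun h0 => hgQ (h0 ▸ zero_mem _)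
  have hordg : P.ord g < 0 := (ff_ord_neg_iff P).mpr hgP
  -- `n = -ord f > 0`, `m = -ord g > 0`
  obtain ⟨n, hn⟩ : ∃ n : ℕ, P.ord f = -(n : ℤ) := ⟨(-P.ord f).toNat, by omega⟩
  obtain ⟨m, hm⟩ : ∃ m : ℕ, P.ord g = -(m : ℤ) := ⟨(-P.ord g).toNat, by omega⟩
  have hnpos : 0 < n := by omega
  have hmpos : 0 < m := by omega
  -- `h' = g ^ n * (f ^ m)⁻¹` has order `0`
  have hfm0 : f ^ m ≠ 0 := pow_ne_zero _ hf0
  have hgn0 : g ^ n ≠ 0 := pow_ne_zero _ hg0
  have hord : P.ord (g ^ n * (f ^ m)⁻¹) = 0 := by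
    rw [P.ord_mul hgn0 (inv_ne_zero hfm0), P.ord_inv, ← zpow_natCast, ← zpow_natCast, P.ord_zpow,
      P.ord_zpow, hn, hm]
    ring
  have hmem : g ^ n * (f ^ m)⁻¹ ∈ Q.toValuationSubring :=
    h ((ff_ord_nonneg_iff P).mp hord.ge)
  have hgn : g ^ n ∈ Q.toValuationSubring := by
    have : g ^ n = g ^ n * (f ^ m)⁻¹ * f ^ m := by
      rw [mul_assoc, inv_mul_cancel₀ hfm0, mul_one]
    rw [this]
    exact mul_mem hmem (pow_mem hfQ _)
  exact hgQ (pb_mem_of_pow_mem _ hnpos hgn)

theorem Induces.place_unique {σ : F →+* LaurentSeries L} {P Q : Place K F}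
    (hP : Induces σ P) (hQ : Induces σ Q) : P = Q := by
  apply Place.ext
  ext f
  exact (hP f).trans (hQ f).symm

/-- Order and leading coefficient of Laurent series are multiplicative. -/
theorem order_mul' {x y : LaurentSeries L} (hx : x ≠ 0) (hy : y ≠ 0) :
    (x * y).order = x.order + y.order := by
  exact HahnSeries.order_mul hx hy

theorem leadingCoeff_mul' (x y : LaurentSeries L) :
    (x * y).leadingCoeff = x.leadingCoeff * y.leadingCoeff := by
  exact HahnSeries.leadingCoeff_mul x y

theorem pb_order_inv (x : LaurentSeries L) : (x⁻¹).order = -x.order := by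
  rcases eq_or_ne x 0 with rfl | hx
  · simp
  have h := order_mul' hx (inv_ne_zero hx)
  rw [mul_inv_cancel₀ hx, HahnSeries.order_one] at h
  omega

theorem pb_leadingCoeff_inv (x : LaurentSeries L) : (x⁻¹).leadingCoeff = (x.leadingCoeff)⁻¹ := by
  rcases eq_or_ne x 0 with rfl | hx
  · simp
  have h := leadingCoeff_mul' x x⁻¹
  rw [mul_inv_cancel₀ hx, HahnSeries.leadingCoeff_one] at h
  exact eq_inv_of_mul_eq_one_right h.symm

theorem order_map_inv (σ : F →+* LaurentSeries L) (f : F) : (σ f⁻¹).order = -(σ f).order := by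
  rw [map_inv₀, pb_order_inv]

theorem leadingCoeff_map_inv (σ : F →+* LaurentSeries L) (f : F) :
    (σ f⁻¹).leadingCoeff = ((σ f).leadingCoeff)⁻¹ := by
  rw [map_inv₀, pb_leadingCoeff_inv]

theorem pb_order_pow (x : LaurentSeries L) (n : ℕ) : (x ^ n).order = n * x.order := by
  rcases eq_or_ne x 0 with rfl | hx
  · rcases Nat.eq_zero_or_pos n with rfl | hn
    · simp
    · simp [zero_pow hn.ne']
  induction n with
  | zero => simp
  | succ n ih =>
    rw [pow_succ, order_mul' (pow_ne_zero n hx) hx, ih]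
    push_cast
    ring

theorem pb_order_zpow (x : LaurentSeries L) (n : ℤ) : (x ^ n).order = n * x.order := by
  cases n with
  | ofNat n =>
    have := pb_order_pow x n
    simp [this]
  | negSucc n =>
    rw [zpow_negSucc, pb_order_inv, pb_order_pow]
    rw [Int.negSucc_eq]
    push_cast
    ring

theorem pb_map_ne_zero (σ : F →+* LaurentSeries L) {f : F} (hf : f ≠ 0) : σ f ≠ 0 :=
  (map_ne_zero σ).mpr hf

/-- `ord_s ∘ σ = k · ord_P` with `k > 0`. -/
theorem Induces.exists_index {σ : F →+* LaurentSeries L} {P : Place K F} (h : Induces σ P) :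
    ∃ k : ℕ, 0 < k ∧ ∀ f : F, f ≠ 0 → (σ f).order = (k : ℤ) * P.ord f := by
  obtain ⟨π, hπ⟩ := IsDiscreteValuationRing.exists_irreducible P.toValuationSubring
  have hπ1 : P.ord (π : F) = 1 := P.ord_coe_irreducible hπ
  have hπ0 : (π : F) ≠ 0 := by
    intro h0
    rw [h0, P.ord_zero] at hπ1
    exact zero_ne_one hπ1
  -- units have order `0`
  have hunit : ∀ u : P.toValuationSubringˣ, (σ ((u : P.toValuationSubring) : F)).order = 0 := by
    intro u
    have h1 : 0 ≤ (σ ((u : P.toValuationSubring) : F)).order :=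
      (h _).mp (u : P.toValuationSubring).2
    have h2 : 0 ≤ (σ (((u⁻¹ : P.toValuationSubringˣ) : P.toValuationSubring) : F)).order :=
      (h _).mp ((u⁻¹ : P.toValuationSubringˣ) : P.toValuationSubring).2
    have h3 : ((((u⁻¹ : P.toValuationSubringˣ) : P.toValuationSubring)) : F)
        = (((u : P.toValuationSubring)) : F)⁻¹ := by
      have h4 : (u : P.toValuationSubring) * ((u⁻¹ : P.toValuationSubringˣ) : P.toValuationSubring)
          = 1 := u.mul_inv
      have h5 : ((u : P.toValuationSubring) : F)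
          * ((((u⁻¹ : P.toValuationSubringˣ) : P.toValuationSubring)) : F) = 1 :=
        congrArg Subtype.val h4
      exact eq_inv_of_mul_eq_one_right h5
    rw [h3, order_map_inv] at h2
    omega
  have hk0 : 0 ≤ (σ (π : F)).order := (h _).mp π.2
  have hkne : (σ (π : F)).order ≠ 0 := by
    intro hk
    have : (π : F)⁻¹ ∈ P.toValuationSubring := by
      rw [h, order_map_inv, hk, neg_zero]
    have h2 := ff_ord_nonneg_of_mem P this
    rw [P.ord_inv, hπ1] at h2
    omega
  obtain ⟨k, hk⟩ : ∃ k : ℕ, (σ (π : F)).order = (k : ℤ) := ⟨(σ (π : F)).order.toNat, by omega⟩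
  refine ⟨k, by omega, fun f hf => ?_⟩
  obtain ⟨u, hu⟩ := P.exists_unit_mul_zpow hf hπ
  have hu0 : ((u : P.toValuationSubring) : F) ≠ 0 := by
    simp [ne_eq, ZeroMemClass.coe_eq_zero]
  conv_lhs => rw [hu]
  rw [map_mul, map_zpow₀, order_mul' (pb_map_ne_zero σ hu0)
    (zpow_ne_zero _ (pb_map_ne_zero σ hπ0)), hunit, pb_order_zpow, hk]
  ring

/-- The valuation subring `σ⁻¹(L⟦s⟧)`. -/
def pb_valuationSubring (σ : F →+* LaurentSeries L) : ValuationSubring F where
  carrier := {f | 0 ≤ (σ f).order}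
  mul_mem' := by
    intro a b ha hb
    simp only [Set.mem_ofPred_eq] at ha hb ⊢
    rcases eq_or_ne a 0 with rfl | ha0
    · simp
    rcases eq_or_ne b 0 with rfl | hb0
    · simp
    rw [map_mul, order_mul' (pb_map_ne_zero σ ha0) (pb_map_ne_zero σ hb0)]
    omega
  one_mem' := by simp
  add_mem' := by
    intro a b ha hb
    simp only [Set.mem_ofPred_eq] at ha hb ⊢
    rcases eq_or_ne (a + b) 0 with hab | hab
    · simp [hab]
    have := HahnSeries.min_order_le_order_add (x := σ a) (y := σ b)
      (by rw [← map_add]; exact pb_map_ne_zero σ hab)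
    rw [map_add]
    exact le_trans (le_min ha hb) this
  zero_mem' := by simp
  neg_mem' := by
    intro a ha
    simp only [Set.mem_ofPred_eq] at ha ⊢
    rwa [map_neg, HahnSeries.order_neg]
  mem_or_inv_mem' := by
    intro a
    simp only [Set.mem_ofPred_eq]
    rw [order_map_inv]
    omega

theorem pb_mem_valuationSubring (σ : F →+* LaurentSeries L) (f : F) :
    f ∈ pb_valuationSubring σ ↔ 0 ≤ (σ f).order := Iff.rfl

theorem pb_isPrincipalIdealRing (σ : F →+* LaurentSeries L) :
    IsPrincipalIdealRing (pb_valuationSubring σ) := by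
  constructor
  intro I
  constructor
  by_cases hI : I = ⊥
  · exact ⟨0, by rw [hI]; simp⟩
  -- a nonzero element of minimal order
  obtain ⟨x0, hx0I, hx00⟩ := Submodule.exists_mem_ne_zero_of_ne_bot hI
  let S : Set ℕ := {n | ∃ x : pb_valuationSubring σ, x ∈ I ∧ x ≠ 0 ∧ (σ (x : F)).order = n}
  have hS : S.Nonempty := by
    refine ⟨(σ (x0 : F)).order.toNat, x0, hx0I, hx00, ?_⟩
    have : 0 ≤ (σ (x0 : F)).order := x0.2
    omega
  classical
  obtain ⟨g, hgI, hg0, hg⟩ := Nat.find_spec hS
  have hmin : ∀ x : pb_valuationSubring σ, x ∈ I → x ≠ 0 →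
      (σ (g : F)).order ≤ (σ (x : F)).order := by
    intro x hx hx0
    have hxn : 0 ≤ (σ (x : F)).order := x.2
    have hmem : (σ (x : F)).order.toNat ∈ S := ⟨x, hx, hx0, by omega⟩
    have := Nat.find_min' hS hmem
    omega
  refine ⟨g, le_antisymm ?_ ?_⟩
  · intro x hx
    rcases eq_or_ne x 0 with rfl | hx0
    · exact zero_mem _
    have hgF : (g : F) ≠ 0 := by
      simpa [ne_eq, ZeroMemClass.coe_eq_zero] using hg0
    have hxF : (x : F) ≠ 0 := by
      simpa [ne_eq, ZeroMemClass.coe_eq_zero] using hx0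
    have hq : (x : F) * (g : F)⁻¹ ∈ pb_valuationSubring σ := by
      rw [pb_mem_valuationSubring, map_mul,
        order_mul' (pb_map_ne_zero σ hxF) (pb_map_ne_zero σ (inv_ne_zero hgF)), order_map_inv]
      have := hmin x hx hx0
      omega
    rw [Submodule.mem_span_singleton]
    refine ⟨⟨_, hq⟩, ?_⟩
    apply Subtype.ext
    simp only [smul_eq_mul, MulMemClass.coe_mul]
    rw [mul_assoc, inv_mul_cancel₀ hgF, mul_one]
  · rw [Submodule.span_singleton_le_iff_mem]
    exact hgI

/-- Every embedding which is constant on `K` and nontrivial induces a place. -/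
theorem exists_place_of_embedding (ι : K →+* L) (σ : F →+* LaurentSeries L)
    (hσK : ∀ a : K, σ (algebraMap K F a) = HahnSeries.C (ι a))
    (hnt : ∃ f : F, (σ f).order ≠ 0) : ∃ P : Place K F, Induces σ P := by
  refine ⟨⟨pb_valuationSubring σ, ?_, ?_, pb_isPrincipalIdealRing σ⟩, fun f => Iff.rfl⟩
  · intro a
    rw [pb_mem_valuationSubring, hσK, HahnSeries.order_C]
  · intro htop
    obtain ⟨f, hf⟩ := hnt
    have h1 : f ∈ pb_valuationSubring σ := htop ▸ ValuationSubring.mem_top f
    have h2 : f⁻¹ ∈ pb_valuationSubring σ := htop ▸ ValuationSubring.mem_top f⁻¹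
    rw [pb_mem_valuationSubring] at h1 h2
    rw [order_map_inv] at h2
    omega

end Fermat.Agent.S24
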