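import Fermat.Agent.S24.Kaehler
import Fermat.Agent.S24.PlaceBasic
import Fermat.Agent.S24.OrdDiffAux

/-!
# S24 / (B7) the order of a differential, computed through an embedding
(OWNER: helper5)

For an embedding `σ : F →+* L⸨s⸩` (constant on `K`) the map `f ↦ d/ds (σ f)` is a `K`-derivation
of `F` with values in the `F`-module `L⸨s⸩` (module structure through `σ`), hence factors through
`Ω[F⁄K]`: this is `Λ` in `exists_lift_derivative`.

If `σ` induces `P` (`ord_s ∘ σ = k · ord_P`) and `ω = g • D π` with `π` the uniformizer of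
`P.dCoord`, then `Λ ω = σ(g) · d/ds σ(π)` has order `k · ord_P g + (k - 1)` (char. 0), so
`ord_P g = (ord_s Λ ω - (k - 1)) / k`.  For `ω = D t`, `ord_P t = e ≠ 0`:
`ord_s Λ (D t) = k e - 1`, hence `P.ordDifferential (D t) = e - 1`.

Needs the Leibniz rule for `LaurentSeries.derivative` and
`(derivative x).order = x.order - 1` for `x.order ≠ 0` (char. 0).

Statements FROZEN; extra lemmas welcome (prefix `od_`).
-/

set_option autoImplicit false

namespace Fermat.Agent.S24

open AlgebraicCurve HahnSeries IntermediateField KaehlerDifferential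

variable {K F L : Type*} [Field K] [Field F] [Algebra K F] [Field L]

theorem derivative_mul (x y : LaurentSeries L) :
    LaurentSeries.derivative L (x * y) =
      LaurentSeries.derivative L x * y + x * LaurentSeries.derivative L y := by
  rw [ffd_deriv_leibniz]
  ring

theorem derivative_C (a : L) : LaurentSeries.derivative L (HahnSeries.C a) = 0 := by
  exact ffd_deriv_C a

theorem order_derivative [CharZero L] {x : LaurentSeries L} (hx : x.order ≠ 0) :
    (LaurentSeries.derivative L x).order = x.order - 1 := by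
  exact (ffd_order_deriv x hx).2

theorem exists_lift_derivative (ι : K →+* L) (σ : F →+* LaurentSeries L)
    (hσK : ∀ a : K, σ (algebraMap K F a) = HahnSeries.C (ι a)) :
    ∃ Λ : Ω[F⁄K] →+ LaurentSeries L,
      (∀ (f : F) (ω : Ω[F⁄K]), Λ (f • ω) = σ f * Λ ω) ∧
        ∀ f : F, Λ (KaehlerDifferential.D K F f) = LaurentSeries.derivative L (σ f) := by
  have hK : ∀ c : K, ∃ a : L, σ (algebraMap K F c) = HahnSeries.C a := fun c => ⟨_, hσK c⟩
  refine ⟨⟨⟨fun ω => FfdMod.val σ ((ffdDer σ hK).liftKaehlerDifferential ω), ?_⟩, ?_⟩, ?_, ?_⟩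
  · show FfdMod.val σ ((ffdDer σ hK).liftKaehlerDifferential 0) = 0
    rw [map_zero]
    rfl
  · intro ω η
    show FfdMod.val σ ((ffdDer σ hK).liftKaehlerDifferential (ω + η)) =
      FfdMod.val σ ((ffdDer σ hK).liftKaehlerDifferential ω) +
        FfdMod.val σ ((ffdDer σ hK).liftKaehlerDifferential η)
    rw [map_add]
    rfl
  · intro f ω
    show FfdMod.val σ ((ffdDer σ hK).liftKaehlerDifferential (f • ω)) =
      σ f * FfdMod.val σ ((ffdDer σ hK).liftKaehlerDifferential ω)
    rw [map_smul]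
    rfl
  · intro f
    show FfdMod.val σ ((ffdDer σ hK).liftKaehlerDifferential (KaehlerDifferential.D K F f)) =
      LaurentSeries.derivative L (σ f)
    rw [Derivation.liftKaehlerDifferential_comp_D]
    rfl

theorem D_ne_zero_of_embedding [CharZero L] (ι : K →+* L) (σ : F →+* LaurentSeries L)
    (hσK : ∀ a : K, σ (algebraMap K F a) = HahnSeries.C (ι a)) {t : F}
    (ht : (σ t).order ≠ 0) : KaehlerDifferential.D K F t ≠ 0 := by
  exact ffd_D_ne_zero σ (fun c => ⟨_, hσK c⟩) t ht

/-- An element of nonzero order at `P` has nonzero order under an embedding inducing `P`. -/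
theorem od_order_ne_zero {σ : F →+* LaurentSeries L} {P : Place K F} (hσ : Induces σ P)
    {f : F} (hf : P.ord f ≠ 0) : (σ f).order ≠ 0 := by
  obtain ⟨k, hk, hord⟩ := hσ.exists_index
  have hf0 : f ≠ 0 := by
    rintro rfl
    exact hf P.ord_zero
  rw [hord f hf0]
  exact mul_ne_zero (Int.natCast_ne_zero.mpr hk.ne') hf

/-- The coordinate differential of `P` is nonzero as soon as some embedding induces `P`. -/
theorem od_dCoord_ne_zero [CharZero L] (ι : K →+* L) (σ : F →+* LaurentSeries L)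
    (hσK : ∀ a : K, σ (algebraMap K F a) = HahnSeries.C (ι a)) (P : Place K F)
    (hσ : Induces σ P) : P.dCoord ≠ 0 := by
  obtain ⟨π, hπ, hd⟩ := dCoord_spec P
  rw [hd]
  exact D_ne_zero_of_embedding ι σ hσK (od_order_ne_zero hσ (by rw [hπ]; exact one_ne_zero))

theorem dCoordGenerates_of_induces [CharZero K] [CharZero L] (hFF : IsFF1 K F) (ι : K →+* L)
    (σ : F →+* LaurentSeries L)
    (hσK : ∀ a : K, σ (algebraMap K F a) = HahnSeries.C (ι a)) (P : Place K F)
    (hσ : Induces σ P) : P.DCoordGenerates := by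
  exact ⟨span_singleton_eq_top hFF (od_dCoord_ne_zero ι σ hσK P hσ)⟩

theorem nontrivial_kaehler_of_embedding [CharZero L] (ι : K →+* L) (σ : F →+* LaurentSeries L)
    (hσK : ∀ a : K, σ (algebraMap K F a) = HahnSeries.C (ι a))
    (hnt : ∃ f : F, (σ f).order ≠ 0) : Nontrivial Ω[F⁄K] := by
  obtain ⟨f, hf⟩ := hnt
  exact ⟨⟨KaehlerDifferential.D K F f, 0, D_ne_zero_of_embedding ι σ hσK hf⟩⟩

/-- `ord_P (D t) = ord_P t - 1` whenever `ord_P t ≠ 0`. -/
theorem ordDifferential_D [CharZero K] [CharZero L] (hFF : IsFF1 K F) (ι : K →+* L)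
    (σ : F →+* LaurentSeries L)
    (hσK : ∀ a : K, σ (algebraMap K F a) = HahnSeries.C (ι a)) (P : Place K F)
    (hσ : Induces σ P) {t : F} (ht : P.ord t ≠ 0) :
    P.ordDifferential (KaehlerDifferential.D K F t) = P.ord t - 1 := by
  have hK : ∀ c : K, ∃ a : L, σ (algebraMap K F c) = HahnSeries.C a := fun c => ⟨_, hσK c⟩
  have hgen := dCoordGenerates_of_induces hFF ι σ hσK P hσ
  have hnt : Nontrivial Ω[F⁄K] := ⟨⟨P.dCoord, 0, od_dCoord_ne_zero ι σ hσK P hσ⟩⟩
  obtain ⟨π, hπ, hd⟩ := dCoord_spec P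
  obtain ⟨c, hc⟩ := P.exists_eq_smul_dCoord (KaehlerDifferential.D K F t)
  have hcoef : P.differentialCoeff (KaehlerDifferential.D K F t) = c :=
    P.differentialCoeff_unique hc
  rw [Place.ordDifferential, hcoef]
  rw [hd] at hc
  have hπ' : P.ord π ≠ 0 := by rw [hπ]; exact one_ne_zero
  obtain ⟨hc0, hord⟩ := ffd_order_coeff σ hK t π c hc (od_order_ne_zero hσ ht)
    (od_order_ne_zero hσ hπ')
  obtain ⟨k, hk, hidx⟩ := hσ.exists_index
  have ht0 : t ≠ 0 := by
    rintro rfl
    exact ht P.ord_zero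
  have hπ0 : π ≠ 0 := by
    rintro rfl
    exact hπ' P.ord_zero
  rw [hidx c hc0, hidx t ht0, hidx π hπ0, hπ, mul_one] at hord
  have hk0 : (k : ℤ) ≠ 0 := Int.natCast_ne_zero.mpr hk.ne'
  have : (k : ℤ) * P.ord c = (k : ℤ) * (P.ord t - 1) := by rw [hord]; ring
  exact mul_left_cancel₀ hk0 this

/-- `ord_P (g • ω) = ord_P g + ord_P ω`. -/
theorem ordDifferential_smul_of_induces [CharZero K] [CharZero L] (hFF : IsFF1 K F)
    (ι : K →+* L) (σ : F →+* LaurentSeries L)
    (hσK : ∀ a : K, σ (algebraMap K F a) = HahnSeries.C (ι a)) (P : Place K F)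
    (hσ : Induces σ P) {g : F} (hg : g ≠ 0) {ω : Ω[F⁄K]} (hω : ω ≠ 0) :
    P.ordDifferential (g • ω) = P.ord g + P.ordDifferential ω := by
  have hgen := dCoordGenerates_of_induces hFF ι σ hσK P hσ
  have hnt : Nontrivial Ω[F⁄K] := ⟨⟨ω, 0, hω⟩⟩
  refine P.ordDifferential_smul hg ?_
  intro h0
  have h1 := P.differentialCoeff_smul_dCoord ω
  rw [h0, zero_smul] at h1
  exact hω h1.symm

end Fermat.Agent.S24
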