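import Fermat.Agent.S24.Fundamental

/-!
# S24 / (B8) principal divisors have degree `0`  (OWNER: see table `s24_modules`)

For `g ∈ K`: `ord_P g = 0` everywhere.  For `g ∉ K` (`g` transcendental,
`finiteDimensional_of_transcendental`): the support of `P ↦ ord_P g` is
`zeroSet g ⊔ zeroSet g⁻¹`, and by `fundamental_identity` for `g` and `g⁻¹`
`∑_{zeros} ord_P g = [F : K(g)] = [F : K(g⁻¹)] = ∑_{poles} (- ord_P g)`.

Statements FROZEN; extra lemmas welcome (prefix `pd_`).
-/

set_option autoImplicit false

namespace Fermat.Agent.S24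

open AlgebraicCurve HahnSeries IntermediateField

variable {K F : Type*} [Field K] [Field F] [Algebra K F]

lemma pd_support_eq (g : F) :
    (Function.support fun P : Place K F => P.ord g) = zeroSet K g ∪ zeroSet K g⁻¹ := by
  ext P
  simp only [Function.mem_support, Set.mem_union, zeroSet, Set.mem_ofPred_eq, P.ord_inv]
  omega

lemma pd_disjoint (g : F) : Disjoint (zeroSet K g) (zeroSet K g⁻¹) := by
  rw [Set.disjoint_left]
  intro P h1 h2
  simp only [zeroSet, Set.mem_ofPred_eq, P.ord_inv] at h1 h2
  omega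

lemma pd_main [IsAlgClosed K] [CharZero K] (hFF : IsFF1 K F) {g : F} (hg : g ≠ 0) :
    {P : Place K F | P.ord g ≠ 0}.Finite ∧ ∑ᶠ P : Place K F, P.ord g = 0 := by
  by_cases halg : IsAlgebraic K g
  · obtain ⟨a, rfl⟩ := mem_range_of_isAlgebraic halg
    have h0 : ∀ P : Place K F, P.ord (algebraMap K F a) = 0 := fun P => ord_algebraMap P a
    constructor
    · convert Set.finite_empty
      ext P
      simp [h0 P]
    · simp [h0]
  · have ht : Transcendental K g := halg
    have ht' : Transcendental K g⁻¹ := transcendental_inv ht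
    have := finiteDimensional_of_transcendental hFF ht
    have := finiteDimensional_of_transcendental hFF ht'
    obtain ⟨hf1, hs1⟩ := fundamental_identity (K := K) g ht
    obtain ⟨hf2, hs2⟩ := fundamental_identity (K := K) g⁻¹ ht'
    rw [finrank_adjoin_inv] at hs2
    have hsupp := pd_support_eq (K := K) g
    constructor
    · have : {P : Place K F | P.ord g ≠ 0} = zeroSet K g ∪ zeroSet K g⁻¹ := hsupp
      rw [this]
      exact hf1.union hf2
    · rw [← finsum_mem_support, hsupp, finsum_mem_union (pd_disjoint g) hf1 hf2, hs1]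
      have h3 : ∑ᶠ P ∈ zeroSet K g⁻¹, P.ord g = - ∑ᶠ P ∈ zeroSet K g⁻¹, P.ord g⁻¹ := by
        rw [← finsum_mem_neg_distrib (fun P : Place K F => P.ord g⁻¹) hf2]
        refine finsum_mem_congr rfl fun P _ => ?_
        rw [P.ord_inv, neg_neg]
      rw [h3, hs2]
      ring

theorem finite_ord_ne_zero [IsAlgClosed K] [CharZero K] (hFF : IsFF1 K F) {g : F} (hg : g ≠ 0) :
    {P : Place K F | P.ord g ≠ 0}.Finite := by
  exact (pd_main hFF hg).1

theorem finsum_ord_eq_zero [IsAlgClosed K] [CharZero K] (hFF : IsFF1 K F) {g : F} (hg : g ≠ 0) :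
    ∑ᶠ P : Place K F, P.ord g = 0 := by
  exact (pd_main hFF hg).2

end Fermat.Agent.S24
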