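import Fermat.Agent.S24.Local
import Fermat.Agent.S24.OrdDiff
import Fermat.Agent.S24.PrincipalDeg

/-!
# S24 / (B9) abstract Riemann–Hurwitz for `F / K(j)`  (OWNER: helper4)

Given local data above every `c ∈ K` (for `t = j - c`) and above `∞` (for `t = j⁻¹`), with
`m = 1` outside a finite set `bad`, the degree of the divisor of every nonzero differential is
`∑_{c ∈ bad} (μ - #orbits ρ_c) - (μ + #orbits ρ_∞)`.

Proof.  Every place `P` has a centre (`exists_center`) and is induced by an embedding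
(`local_main`), so `P.DCoordGenerates`, `ord_P (D j) = ord_P (j - c) - 1` resp.
`ord_P (D j) = ord_P j - 1 = - ord_P (j⁻¹) - 1` (`ordDifferential_D`); `ω = g • D j`
(`exists_eq_smul`), `ord_P ω = ord_P g + ord_P (D j)`, `∑_P ord_P g = 0`
(`finsum_ord_eq_zero`), all `deg P = 1` (`deg_eq_one`), and
`∑_{P ∣ c} (e_P - 1) = μ - #orbits`, `∑_{P ∣ ∞} (- e_P - 1) = - μ - #orbits` (`local_main`).

Statements FROZEN.
-/

set_option autoImplicit false

namespace Fermat.Agent.S24

open AlgebraicCurve HahnSeries IntermediateField KaehlerDifferential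

variable {K F L : Type*} [Field K] [Field F] [Algebra K F] [Field L]

lemma rh_local_fin [IsAlgClosed K] [CharZero K] [CharZero L] (ι : K →+* L) {X : Type}
    [Fintype X] (j : F) (hj : Transcendental K j) [FiniteDimensional K⟮j⟯ F]
    (hdeg : Module.finrank K⟮j⟯ F ≤ Fintype.card X)
    (Dfin : ∀ c : K, LocalData ι X (j - algebraMap K F c)) (c : K) :
    (zeroSet K (j - algebraMap K F c)).Finite ∧
      (∀ P ∈ zeroSet K (j - algebraMap K F c), ∃ x : X, Induces ((Dfin c).σ x) P) ∧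
      (∀ x : X, ∃ P ∈ zeroSet K (j - algebraMap K F c), Induces ((Dfin c).σ x) P) ∧
      (∑ᶠ P ∈ zeroSet K (j - algebraMap K F c), P.ord (j - algebraMap K F c) =
        (Fintype.card X : ℤ)) ∧
      Nat.card (zeroSet K (j - algebraMap K F c)) = numOrbits (Dfin c).ρ := by
  have hFF : IsFF1 K F := ⟨j, hj, inferInstance⟩
  have := finiteDimensional_of_transcendental hFF (transcendental_sub_const hj c)
  exact local_main ι (Dfin c) (transcendental_sub_const hj c)
    (by rw [finrank_adjoin_sub_const]; exact hdeg)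

lemma rh_local_inf [IsAlgClosed K] [CharZero K] [CharZero L] (ι : K →+* L) {X : Type}
    [Fintype X] (j : F) (hj : Transcendental K j) [FiniteDimensional K⟮j⟯ F]
    (hdeg : Module.finrank K⟮j⟯ F ≤ Fintype.card X) (Dinf : LocalData ι X j⁻¹) :
    (zeroSet K j⁻¹).Finite ∧
      (∀ P ∈ zeroSet K j⁻¹, ∃ x : X, Induces (Dinf.σ x) P) ∧
      (∀ x : X, ∃ P ∈ zeroSet K j⁻¹, Induces (Dinf.σ x) P) ∧
      (∑ᶠ P ∈ zeroSet K j⁻¹, P.ord j⁻¹ = (Fintype.card X : ℤ)) ∧
      Nat.card (zeroSet K j⁻¹) = numOrbits Dinf.ρ := by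
  have hFF : IsFF1 K F := ⟨j, hj, inferInstance⟩
  have := finiteDimensional_of_transcendental hFF (transcendental_inv hj)
  exact local_main ι Dinf (transcendental_inv hj)
    (by rw [finrank_adjoin_inv]; exact hdeg)

/-- `ord_P (D j)` at a place over `c`. -/
lemma rh_ordDiff_fin [IsAlgClosed K] [CharZero K] [CharZero L] (ι : K →+* L) {X : Type}
    [Fintype X] (j : F) (hj : Transcendental K j) [FiniteDimensional K⟮j⟯ F]
    (hdeg : Module.finrank K⟮j⟯ F ≤ Fintype.card X)
    (Dfin : ∀ c : K, LocalData ι X (j - algebraMap K F c)) (c : K) {P : Place K F}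
    (hP : P ∈ zeroSet K (j - algebraMap K F c)) :
    (∃ σ : F →+* LaurentSeries L, (∀ a : K, σ (algebraMap K F a) = HahnSeries.C (ι a)) ∧
      Induces σ P) ∧
    P.ordDifferential (KaehlerDifferential.D K F j) = P.ord (j - algebraMap K F c) - 1 ∧
    ((Dfin c).m = 1 → P.ordDifferential (KaehlerDifferential.D K F j) = 0) := by
  have hFF : IsFF1 K F := ⟨j, hj, inferInstance⟩
  obtain ⟨x, hx⟩ := (rh_local_fin ι j hj hdeg Dfin c).2.1 P hP
  have hP' : (0 : ℤ) < P.ord (j - algebraMap K F c) := hP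
  have h1 := ordDifferential_D hFF ι ((Dfin c).σ x) ((Dfin c).σ_const x) P hx
    (t := j - algebraMap K F c) hP'.ne'
  have h2 : KaehlerDifferential.D K F (j - algebraMap K F c) = KaehlerDifferential.D K F j := by
    rw [map_sub, Derivation.map_algebraMap, sub_zero]
  rw [h2] at h1
  refine ⟨⟨_, (Dfin c).σ_const x, hx⟩, h1, fun hm => ?_⟩
  rw [h1, local_unramified ι (Dfin c) hm hx, sub_self]

/-- `ord_P (D j)` at a place over `∞`. -/
lemma rh_ordDiff_inf [IsAlgClosed K] [CharZero K] [CharZero L] (ι : K →+* L) {X : Type}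
    [Fintype X] (j : F) (hj : Transcendental K j) [FiniteDimensional K⟮j⟯ F]
    (hdeg : Module.finrank K⟮j⟯ F ≤ Fintype.card X) (Dinf : LocalData ι X j⁻¹) {P : Place K F}
    (hP : P ∈ zeroSet K j⁻¹) :
    (∃ σ : F →+* LaurentSeries L, (∀ a : K, σ (algebraMap K F a) = HahnSeries.C (ι a)) ∧
      Induces σ P) ∧
    P.ordDifferential (KaehlerDifferential.D K F j) = - P.ord j⁻¹ - 1 := by
  have hFF : IsFF1 K F := ⟨j, hj, inferInstance⟩
  obtain ⟨x, hx⟩ := (rh_local_inf ι j hj hdeg Dinf).2.1 P hP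
  have hP' : (0 : ℤ) < P.ord j⁻¹ := hP
  have hinv : P.ord j⁻¹ = - P.ord j := P.ord_inv j
  have hj0 : P.ord j ≠ 0 := by
    intro h
    rw [hinv, h] at hP'
    simp at hP'
  have h1 := ordDifferential_D hFF ι (Dinf.σ x) (Dinf.σ_const x) P hx (t := j) hj0
  refine ⟨⟨_, Dinf.σ_const x, hx⟩, ?_⟩
  rw [h1, hinv]
  ring

lemma rh_degree_eq_finsum [IsAlgClosed K] (hFF : IsFF1 K F)
    [HasCanonicalDivisor (K := K) (F := F)] {ω : Ω[F⁄K]} (hω : ω ≠ 0) :
    Divisor.degree (canonicalDivisorOf hω) = ∑ᶠ P : Place K F, P.ordDifferential ω := by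
  classical
  rw [Divisor.degree, Finsupp.liftAddHom_apply, Finsupp.sum,
    finsum_eq_sum_of_support_subset (s := (canonicalDivisorOf hω).support)]
  · refine Finset.sum_congr rfl fun P _ => ?_
    simp [canonicalDivisorOf_apply, deg_eq_one hFF P]
  · intro P hP
    simp only [Function.mem_support] at hP
    rw [Finset.mem_coe, Finsupp.mem_support_iff, canonicalDivisorOf_apply]
    exact hP

theorem riemann_hurwitz [IsAlgClosed K] [CharZero K] [CharZero L] (ι : K →+* L) {X : Type}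
    [Fintype X] (j : F) (hj : Transcendental K j) [FiniteDimensional K⟮j⟯ F]
    (hdeg : Module.finrank K⟮j⟯ F ≤ Fintype.card X)
    (Dfin : ∀ c : K, LocalData ι X (j - algebraMap K F c)) (Dinf : LocalData ι X j⁻¹)
    (bad : Finset K) (hgen : ∀ c : K, c ∉ bad → (Dfin c).m = 1)
    [HasCanonicalDivisor (K := K) (F := F)] {ω : Ω[F⁄K]} (hω : ω ≠ 0) :
    Divisor.degree (canonicalDivisorOf hω) =
      ∑ c ∈ bad, ((Fintype.card X : ℤ) - numOrbits (Dfin c).ρ) -
        ((Fintype.card X : ℤ) + numOrbits Dinf.ρ) := by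
  classical
  have hFF : IsFF1 K F := ⟨j, hj, inferInstance⟩
  have hXpos : 0 < Fintype.card X := lt_of_lt_of_le Module.finrank_pos hdeg
  obtain ⟨x0⟩ := Fintype.card_pos_iff.mp hXpos
  have hDj : KaehlerDifferential.D K F j ≠ 0 := by
    refine D_ne_zero_of_embedding ι (Dinf.σ x0) (Dinf.σ_const x0) (t := j) ?_
    have h1 := order_map_inv (Dinf.σ x0) j
    rw [Dinf.order_t x0] at h1
    have hm := Dinf.m_pos
    omega
  obtain ⟨g, hg⟩ := exists_eq_smul hFF hDj ω
  have hg0 : g ≠ 0 := by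
    rintro rfl
    exact hω (by rw [hg, zero_smul])
  obtain ⟨a, ha⟩ : ∃ a : Place K F → ℤ,
      a = fun P => P.ordDifferential (KaehlerDifferential.D K F j) := ⟨_, rfl⟩
  have hcases : ∀ P : Place K F, P ∈ zeroSet K j⁻¹ ∨
      ∃ c : K, P ∈ zeroSet K (j - algebraMap K F c) := by
    intro P
    rcases exists_center hFF P j with h | ⟨c, h | h⟩
    · left
      show 0 < P.ord j⁻¹
      rw [P.ord_inv]
      omega
    · exact absurd (h ▸ isAlgebraic_algebraMap c) hj
    · exact Or.inr ⟨c, h⟩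
  have hemb : ∀ P : Place K F, ∃ σ : F →+* LaurentSeries L,
      (∀ a : K, σ (algebraMap K F a) = HahnSeries.C (ι a)) ∧ Induces σ P := by
    intro P
    rcases hcases P with h | ⟨c, h⟩
    · exact (rh_ordDiff_inf ι j hj hdeg Dinf h).1
    · exact (rh_ordDiff_fin ι j hj hdeg Dfin c h).1
  have hord : ∀ P : Place K F, P.ordDifferential ω = P.ord g + a P := by
    intro P
    obtain ⟨σ, hσK, hσ⟩ := hemb P
    rw [hg, ha]
    exact ordDifferential_smul_of_induces hFF ι σ hσK P hσ hg0 hDj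
  obtain ⟨Zinf, hZinf⟩ : ∃ Z : Finset (Place K F), Z = (rh_local_inf ι j hj hdeg Dinf).1.toFinset :=
    ⟨_, rfl⟩
  obtain ⟨Zc, hZc⟩ : ∃ Z : K → Finset (Place K F),
      Z = fun c => (rh_local_fin ι j hj hdeg Dfin c).1.toFinset := ⟨_, rfl⟩
  have hmemInf : ∀ P, P ∈ Zinf ↔ P ∈ zeroSet K j⁻¹ := fun P => by
    rw [hZinf, Set.Finite.mem_toFinset]
  have hmemC : ∀ c P, P ∈ Zc c ↔ P ∈ zeroSet K (j - algebraMap K F c) := fun c P => by
    rw [hZc, Set.Finite.mem_toFinset]
  have hsupp : Function.support a ⊆ ↑(Zinf ∪ bad.biUnion Zc) := by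
    intro P hP
    rw [Function.mem_support] at hP
    rw [Finset.mem_coe, Finset.mem_union, Finset.mem_biUnion]
    rcases hcases P with h | ⟨c, h⟩
    · exact Or.inl ((hmemInf P).mpr h)
    · by_cases hc : c ∈ bad
      · exact Or.inr ⟨c, hc, (hmemC c P).mpr h⟩
      · exfalso
        apply hP
        rw [ha]
        exact (rh_ordDiff_fin ι j hj hdeg Dfin c h).2.2 (hgen c hc)
  have hdisj1 : Disjoint Zinf (bad.biUnion Zc) := by
    rw [Finset.disjoint_left]
    intro P h1 h2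
    rw [Finset.mem_biUnion] at h2
    obtain ⟨c, -, h2⟩ := h2
    have h1' : (0 : ℤ) < P.ord j⁻¹ := (hmemInf P).mp h1
    have h2' := ord_nonneg_of_center P j ((hmemC c P).mp h2)
    rw [P.ord_inv] at h1'
    omega
  have hdisj2 : (↑bad : Set K).PairwiseDisjoint Zc := by
    intro c _ c' _ hcc'
    show Disjoint (Zc c) (Zc c')
    rw [Finset.disjoint_left]
    intro P h1 h2
    exact hcc' (center_unique P j ((hmemC c P).mp h1) ((hmemC c' P).mp h2))
  have hinf : ∑ P ∈ Zinf, a P = -((Fintype.card X : ℤ) + numOrbits Dinf.ρ) := by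
    obtain ⟨hfin, -, -, hsum, hcard⟩ := rh_local_inf ι j hj hdeg Dinf
    have e1 : ∑ P ∈ Zinf, a P = ∑ P ∈ Zinf, (- P.ord j⁻¹ - 1) :=
      Finset.sum_congr rfl fun P hP => by
        rw [ha]
        exact (rh_ordDiff_inf ι j hj hdeg Dinf ((hmemInf P).mp hP)).2
    have e2 : ∑ P ∈ Zinf, P.ord j⁻¹ = (Fintype.card X : ℤ) := by
      rw [← hsum, finsum_mem_eq_finite_toFinset_sum _ hfin, hZinf]
    have e3 : Zinf.card = numOrbits Dinf.ρ := by
      rw [← hcard, Nat.card_coe_set_eq, Set.ncard_eq_toFinset_card _ hfin, hZinf]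
    rw [e1, Finset.sum_sub_distrib, Finset.sum_neg_distrib, e2, Finset.sum_const, e3]
    simp
    ring
  have hfinc : ∀ c : K, ∑ P ∈ Zc c, a P = (Fintype.card X : ℤ) - numOrbits (Dfin c).ρ := by
    intro c
    obtain ⟨hfin, -, -, hsum, hcard⟩ := rh_local_fin ι j hj hdeg Dfin c
    have e1 : ∑ P ∈ Zc c, a P = ∑ P ∈ Zc c, (P.ord (j - algebraMap K F c) - 1) :=
      Finset.sum_congr rfl fun P hP => by
        rw [ha]
        exact (rh_ordDiff_fin ι j hj hdeg Dfin c ((hmemC c P).mp hP)).2.1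
    have e2 : ∑ P ∈ Zc c, P.ord (j - algebraMap K F c) = (Fintype.card X : ℤ) := by
      rw [← hsum, finsum_mem_eq_finite_toFinset_sum _ hfin, hZc]
    have e3 : (Zc c).card = numOrbits (Dfin c).ρ := by
      rw [← hcard, Nat.card_coe_set_eq, Set.ncard_eq_toFinset_card _ hfin, hZc]
    rw [e1, Finset.sum_sub_distrib, e2, Finset.sum_const, e3]
    simp
  have hfs1 : (Function.support fun P : Place K F => P.ord g).Finite :=
    finite_ord_ne_zero hFF hg0
  have hfs2 : (Function.support a).Finite := (Finset.finite_toSet _).subset hsupp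
  rw [rh_degree_eq_finsum hFF hω,
    show (fun P : Place K F => P.ordDifferential ω) = fun P => P.ord g + a P from funext hord,
    finsum_add_distrib hfs1 hfs2, finsum_ord_eq_zero hFF hg0, zero_add,
    finsum_eq_sum_of_support_subset a hsupp, Finset.sum_union hdisj1,
    Finset.sum_biUnion hdisj2, hinf, Finset.sum_congr rfl fun c _ => hfinc c]
  ring

/-- There is a nonzero differential. -/
theorem exists_differential_ne_zero [CharZero L] (ι : K →+* L) {X : Type} [Nonempty X] (j : F)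
    (Dinf : LocalData ι X j⁻¹) : ∃ ω : Ω[F⁄K], ω ≠ 0 := by
  obtain ⟨x0⟩ := ‹Nonempty X›
  exact ⟨KaehlerDifferential.D K F j⁻¹,
    D_ne_zero_of_embedding ι (Dinf.σ x0) (Dinf.σ_const x0) (t := j⁻¹)
      (by rw [Dinf.order_t x0]; exact_mod_cast Dinf.m_pos.ne')⟩

end Fermat.Agent.S24
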