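import Fermat.Agent.S24.Iota
import Fermat.Agent.S24.QExpFormal
import Fermat.Agent.S24.LevelRaise
import Fermat.Agent.S20.RankinCohen

/-!
# S24 / (A4) every element of the function field is a quotient of modular forms
(OWNER: see table `s24_modules`)

`IsRep N f g₁ g₂ : g₂ ≠ 0 ∧ toL f · qL g₂ = qL g₁` (`q`-expansions at `i∞`).
Existence by `FN_induction`: constants `(ι a, 1)` in weight `0`; generators
`(E₄(d z)³, Δ(d z))` in weight `12` (`exists_levelRaise`, `jq_mul_qL_discriminant`, and the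
`q`-expansion is multiplicative: Mathlib `qExpansion_mul`, `ModularFormClass.qExpansion...`);
sums `(g₁ h₂ + h₁ g₂, g₂ h₂)`, products `(g₁ h₁, g₂ h₂)`, inverses `(g₂, g₁)`.
Uniqueness (`cross_mul`): the `q`-expansion is injective on modular forms of level `Γ₀(N)`
(period `1`, Mathlib `qExpansion_eq_zero_iff` / prelude `UpperHalfPlane.eq_of_forall_qCoeff_eq`).

Statements FROZEN; extra lemmas welcome (prefix `rep_`).
-/

set_option autoImplicit false

namespace Fermat.Agent.S24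

open AlgebraicCurve HahnSeries IntermediateField UpperHalfPlane ModularForm EisensteinSeries
open Fermat.Agent.S20
open scoped MatrixGroups ModularForm

theorem rep_one_mem (N : ℕ) : (1 : ℝ) ∈ (G0 N).strictPeriods := by
  have : (1 : ℝ) ∈ (CongruenceSubgroup.Gamma0 N : Subgroup (GL (Fin 2) ℝ)).strictPeriods := by
    simp [CongruenceSubgroup.strictPeriods_Gamma0]
  exact this

theorem rep_qL_zero : qL (0 : ℍ → ℂ) = 0 := by
  unfold qL
  rw [UpperHalfPlane.qExpansion_zero, map_zero]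

theorem qL_injective (N : ℕ) [NeZero N] {k : ℤ} (g h : ModularForm (G0 N) k)
    (hgh : qL g = qL h) : g = h := by
  have h1 : qExpansion 1 g = qExpansion 1 h := HahnSeries.ofPowerSeries_injective hgh
  have h2 : qExpansion 1 (g - h : ModularForm (G0 N) k) = 0 := by
    have := ModularForm.qExpansion_sub one_pos (rep_one_mem N) g h
    rw [h1, sub_self] at this
    exact this
  rw [ModularForm.qExpansion_eq_zero_iff one_pos (rep_one_mem N)] at h2
  exact sub_eq_zero.mp h2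

theorem qL_mul (N : ℕ) [NeZero N] {k l : ℤ} (g : ModularForm (G0 N) k)
    (h : ModularForm (G0 N) l) : qL (g.mul h) = qL g * qL h := by
  unfold qL
  rw [ModularForm.qExpansion_mul one_pos (rep_one_mem N) g h, map_mul]

theorem qL_add (N : ℕ) [NeZero N] {k : ℤ} (g h : ModularForm (G0 N) k) :
    qL (g + h) = qL g + qL h := by
  unfold qL
  rw [ModularForm.qExpansion_add one_pos (rep_one_mem N) g h, map_add]

theorem qL_smul (N : ℕ) [NeZero N] {k : ℤ} (c : ℂ) (g : ModularForm (G0 N) k) :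
    qL (c • g) = HahnSeries.C c * qL g := by
  unfold qL
  rw [ModularForm.qExpansion_smul one_pos (rep_one_mem N) c g, PowerSeries.smul_eq_C_mul,
    map_mul, HahnSeries.ofPowerSeries_C]

/-- `IsRep` only depends on the underlying functions (e.g. after a cast of the weight). -/
theorem rep_of_coe {N : ℕ} {f : FN N} {k k' : ℤ} {g₁ g₂ : ModularForm (G0 N) k}
    {h₁ h₂ : ModularForm (G0 N) k'} (hg : IsRep N f g₁ g₂)
    (e₁ : (⇑h₁ : ℍ → ℂ) = ⇑g₁) (e₂ : (⇑h₂ : ℍ → ℂ) = ⇑g₂) : IsRep N f h₁ h₂ := by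
  refine ⟨?_, ?_⟩
  · intro h
    apply hg.1
    apply DFunLike.coe_injective
    rw [← e₂, h]
    rfl
  · rw [e₁, e₂]
    exact hg.2

theorem rep_qL_ne_zero {N : ℕ} [NeZero N] {k : ℤ} {g : ModularForm (G0 N) k} (hg : g ≠ 0) :
    qL g ≠ 0 := by
  intro h
  apply hg
  refine qL_injective N g 0 ?_
  rw [h]
  exact rep_qL_zero.symm

theorem rep_ne_zero_of_qL {N : ℕ} {k : ℤ} {g : ModularForm (G0 N) k} (hg : qL g ≠ 0) :
    g ≠ 0 := by
  intro h
  apply hg
  rw [h]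
  exact rep_qL_zero

theorem rep_toL_eq_div {N : ℕ} [NeZero N] {f : FN N} {k : ℤ} {g₁ g₂ : ModularForm (G0 N) k}
    (hg : IsRep N f g₁ g₂) : toL N f = qL g₁ / qL g₂ := by
  rw [eq_div_iff (rep_qL_ne_zero hg.1)]
  exact hg.2

/-- the sum of two representations -/
theorem rep_add {N : ℕ} [NeZero N] {f f' : FN N} {k k' K : ℤ}
    {g₁ g₂ : ModularForm (G0 N) k} {h₁ h₂ : ModularForm (G0 N) k'}
    (hg : IsRep N f g₁ g₂) (hh : IsRep N f' h₁ h₂) (hK : k + k' = K) :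
    IsRep N (f + f')
      (ModularForm.mcast hK (g₁.mul h₂) + ModularForm.mcast ((add_comm k' k).trans hK) (h₁.mul g₂))
      (ModularForm.mcast hK (g₂.mul h₂)) := by
  have n1 := rep_qL_ne_zero hg.1
  have n2 := rep_qL_ne_zero hh.1
  have e2 : qL (ModularForm.mcast hK (g₂.mul h₂)) = qL g₂ * qL h₂ := qL_mul N g₂ h₂
  refine ⟨rep_ne_zero_of_qL (by rw [e2]; exact mul_ne_zero n1 n2), ?_⟩
  have e1 : qL (ModularForm.mcast hK (g₁.mul h₂)
      + ModularForm.mcast ((add_comm k' k).trans hK) (h₁.mul g₂) : ModularForm (G0 N) K)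
      = qL g₁ * qL h₂ + qL h₁ * qL g₂ := by
    have := qL_add N (ModularForm.mcast hK (g₁.mul h₂))
      (ModularForm.mcast ((add_comm k' k).trans hK) (h₁.mul g₂))
    refine this.trans ?_
    congr 1
    · exact qL_mul N g₁ h₂
    · exact qL_mul N h₁ g₂
  rw [e1, e2, map_add, ← hg.2, ← hh.2]
  ring

/-- the product of two representations -/
theorem rep_mul {N : ℕ} [NeZero N] {f f' : FN N} {k k' K : ℤ}
    {g₁ g₂ : ModularForm (G0 N) k} {h₁ h₂ : ModularForm (G0 N) k'}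
    (hg : IsRep N f g₁ g₂) (hh : IsRep N f' h₁ h₂) (hK : k + k' = K) :
    IsRep N (f * f') (ModularForm.mcast hK (g₁.mul h₁)) (ModularForm.mcast hK (g₂.mul h₂)) := by
  have n1 := rep_qL_ne_zero hg.1
  have n2 := rep_qL_ne_zero hh.1
  have e2 : qL (ModularForm.mcast hK (g₂.mul h₂)) = qL g₂ * qL h₂ := qL_mul N g₂ h₂
  have e1 : qL (ModularForm.mcast hK (g₁.mul h₁)) = qL g₁ * qL h₁ := qL_mul N g₁ h₁
  refine ⟨rep_ne_zero_of_qL (by rw [e2]; exact mul_ne_zero n1 n2), ?_⟩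
  rw [e1, e2, map_mul, ← hg.2, ← hh.2]
  ring

theorem rep_one_mem_SL : (1 : ℝ) ∈ (𝒮ℒ : Subgroup (GL (Fin 2) ℝ)).strictPeriods :=
  by simp

/-- `E₄³` as a level one form of weight `12`. -/
noncomputable def repE : ModularForm 𝒮ℒ 12 := rcComb 1 0

/-- `Δ` as a level one (modular) form of weight `12`. -/
noncomputable def repD : ModularForm 𝒮ℒ 12 := rcComb (1 / 1728) (-(1 / 1728))

theorem repE_apply (z : ℍ) : repE z = E₄ z ^ 3 := by
  rw [repE, rcComb_apply]
  ring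

theorem repD_apply (z : ℍ) : repD z = ModularForm.discriminant z := by
  rw [repD, rcComb_apply, discriminant_eq_E₄_cube_sub_E₆_sq]
  ring

theorem rep_qL_repD : qL repD = qL ModularForm.discriminant := by
  have : (⇑repD : ℍ → ℂ) = ModularForm.discriminant := funext repD_apply
  rw [this]

theorem rep_qL_repE : qL repE = qL E₄ ^ 3 := by
  have h1 : (⇑repE : ℍ → ℂ) = ⇑(E₄.pow 3) := by
    funext z
    rw [repE_apply, ModularForm.coe_pow]
    rfl
  rw [h1]
  unfold qL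
  rw [ModularForm.qExpansion_pow one_pos rep_one_mem_SL E₄ 3, map_pow]

theorem rep_jq_ne_zero : ModularCurve.jqModC ℂ ≠ 0 := by
  intro h
  have h1 := jq_mul_qL_discriminant
  rw [h, zero_mul] at h1
  exact qL_E4_ne_zero (pow_eq_zero_iff (by norm_num) |>.mp h1.symm)

theorem rep_const_aux (N : ℕ) [NeZero N] (a : Kb) :
    ∃ g₁ g₂ : ModularForm (G0 N) 0,
      IsRep N (algebraMap Kb (FN N) a) g₁ g₂ ∧ (∀ z, g₁ z = iota a) ∧ ∀ z, g₂ z = 1 := by
  have hq1 : qL (1 : ModularForm (G0 N) 0) = 1 := by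
    unfold qL
    rw [ModularForm.qExpansion_one, map_one]
  have hqc : qL (ModularForm.const (iota a) : ModularForm (G0 N) 0) = HahnSeries.C (iota a) := by
    have h1 : (⇑(ModularForm.const (iota a) : ModularForm (G0 N) 0) : ℍ → ℂ)
        = (iota a) • ⇑(1 : ModularForm (G0 N) 0) := by
      funext z
      simp
    rw [h1]
    have h2 := qL_smul N (iota a) (1 : ModularForm (G0 N) 0)
    rw [hq1, mul_one] at h2
    exact h2
  refine ⟨ModularForm.const (iota a), 1, ⟨?_, ?_⟩, fun z => rfl, fun z => rfl⟩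
  · refine rep_ne_zero_of_qL ?_
    rw [hq1]
    exact one_ne_zero
  · rw [toL_algebraMap, hq1, mul_one, hqc]

theorem rep_jd_aux (N d : ℕ) [NeZero N] [NeZero d] (hd : d ∣ N) :
    ∃ g₁ g₂ : ModularForm (G0 N) 12,
      IsRep N (jd N d hd) g₁ g₂ ∧ (∀ z, g₁ z = E₄ (dmul d z) ^ 3) ∧
        ∀ z, g₂ z = ModularForm.discriminant (dmul d z) := by
  obtain ⟨g₁, hg₁, hq₁⟩ := exists_levelRaise N d hd repE
  obtain ⟨g₂, hg₂, hq₂⟩ := exists_levelRaise N d hd repD
  refine ⟨g₁, g₂, ⟨?_, ?_⟩, fun z => by rw [hg₁, repE_apply], fun z => by rw [hg₂, repD_apply]⟩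
  · refine rep_ne_zero_of_qL ?_
    rw [hq₂, rep_qL_repD]
    intro h
    have h0 : ModularCurve.qExpand ℂ d (qL ModularForm.discriminant)
        = ModularCurve.qExpand ℂ d 0 := by rw [h, map_zero]
    exact qL_discriminant_ne_zero (ModularCurve.qExpand_injective (R := ℂ) (N := d) h0)
  · rw [toL_jd, hq₁, hq₂, rep_qL_repD, rep_qL_repE, ← map_mul, jq_mul_qL_discriminant]

theorem rep_inv {N : ℕ} [NeZero N] {f : FN N} {k : ℤ} {g₁ g₂ : ModularForm (G0 N) k}
    (hg : IsRep N f g₁ g₂) (h1 : g₁ ≠ 0) : IsRep N f⁻¹ g₂ g₁ := by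
  refine ⟨h1, ?_⟩
  have n1 := rep_qL_ne_zero h1
  have n2 := rep_qL_ne_zero hg.1
  have hf : toL N f ≠ 0 := by
    intro h
    have := hg.2
    rw [h, zero_mul] at this
    exact n1 this.symm
  rw [map_inv₀, ← hg.2]
  field_simp

theorem rep_zero_of_num {N : ℕ} [NeZero N] {f : FN N} {k : ℤ} {g₁ g₂ : ModularForm (G0 N) k}
    (hg : IsRep N f g₁ g₂) (h1 : g₁ = 0) : f = 0 := by
  have n2 := rep_qL_ne_zero hg.1
  have h2 := hg.2
  rw [h1] at h2
  have h3 : qL (⇑(0 : ModularForm (G0 N) k)) = 0 := rep_qL_zero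
  rw [h3] at h2
  have h4 : toL N f = 0 := by
    rcases mul_eq_zero.mp h2 with h | h
    · exact h
    · exact absurd h n2
  exact (map_eq_zero (toL N)).mp h4

theorem exists_rep (N : ℕ) [NeZero N] (f : FN N) :
    ∃ (k : ℕ) (g₁ g₂ : ModularForm (G0 N) k), IsRep N f g₁ g₂ := by
  refine FN_induction N (fun f => ∃ (k : ℕ) (g₁ g₂ : ModularForm (G0 N) k), IsRep N f g₁ g₂)
    ?_ ?_ ?_ ?_ ?_ f
  · intro a
    obtain ⟨g₁, g₂, hrep, -, -⟩ := rep_const_aux N a
    exact ⟨0, ModularForm.mcast (by norm_num) g₁, ModularForm.mcast (by norm_num) g₂,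
      rep_of_coe hrep rfl rfl⟩
  · intro d _ hd
    obtain ⟨g₁, g₂, hrep, -, -⟩ := rep_jd_aux N d hd
    exact ⟨12, ModularForm.mcast (by norm_num) g₁, ModularForm.mcast (by norm_num) g₂,
      rep_of_coe hrep rfl rfl⟩
  · rintro f f' ⟨k, g₁, g₂, hg⟩ ⟨k', h₁, h₂, hh⟩
    exact ⟨k + k', _, _, rep_add hg hh (by push_cast; ring)⟩
  · rintro f f' ⟨k, g₁, g₂, hg⟩ ⟨k', h₁, h₂, hh⟩
    exact ⟨k + k', _, _, rep_mul hg hh (by push_cast; ring)⟩
  · rintro f ⟨k, g₁, g₂, hg⟩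
    by_cases h1 : g₁ = 0
    · have hf : f = 0 := rep_zero_of_num hg h1
      rw [hf, inv_zero, ← hf]
      exact ⟨k, g₁, g₂, hg⟩
    · exact ⟨k, g₂, g₁, rep_inv hg h1⟩

theorem rep_common_aux (N : ℕ) [NeZero N] {n : ℕ} (f : Fin n → FN N) :
    ∃ (k : ℕ) (g₂ : ModularForm (G0 N) k) (g₁ : Fin n → ModularForm (G0 N) k),
      g₂ ≠ 0 ∧ ∀ i, IsRep N (f i) (g₁ i) g₂ := by
  induction n with
  | zero =>
    obtain ⟨g₁, g₂, hrep, -, -⟩ := rep_const_aux N 0
    have h2 : IsRep N (algebraMap Kb (FN N) 0)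
        (ModularForm.mcast (by norm_num : (0 : ℤ) = ((0 : ℕ) : ℤ)) g₁)
        (ModularForm.mcast (by norm_num : (0 : ℤ) = ((0 : ℕ) : ℤ)) g₂) :=
      rep_of_coe hrep rfl rfl
    exact ⟨0, _, fun i => i.elim0, h2.1, fun i => i.elim0⟩
  | succ n ih =>
    obtain ⟨k, g₂, g₁, hg₂, hg⟩ := ih (fun i => f i.succ)
    obtain ⟨k', h₁, h₂, hh⟩ := exists_rep N (f 0)
    have hK : (k : ℤ) + (k' : ℤ) = ((k + k' : ℕ) : ℤ) := by push_cast; ring
    have hK' : (k' : ℤ) + (k : ℤ) = ((k + k' : ℕ) : ℤ) := by push_cast; ring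
    have n1 := rep_qL_ne_zero hh.1
    have n2 := rep_qL_ne_zero hg₂
    have e2 : qL (ModularForm.mcast hK (g₂.mul h₂)) = qL g₂ * qL h₂ := qL_mul N g₂ h₂
    have hne : ModularForm.mcast hK (g₂.mul h₂) ≠ 0 := by
      refine rep_ne_zero_of_qL ?_
      rw [e2]
      exact mul_ne_zero n2 n1
    refine ⟨k + k', ModularForm.mcast hK (g₂.mul h₂),
      Fin.cases (ModularForm.mcast hK' (h₁.mul g₂))
        (fun i => ModularForm.mcast hK ((g₁ i).mul h₂)), hne, ?_⟩
    intro i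
    refine Fin.cases ?_ (fun j => ?_) i
    · refine ⟨hne, ?_⟩
      have e1 : qL (ModularForm.mcast hK' (h₁.mul g₂)) = qL h₁ * qL g₂ := qL_mul N h₁ g₂
      simp only [Fin.cases_zero]
      rw [e1, e2, ← hh.2]
      ring
    · refine ⟨hne, ?_⟩
      have e1 : qL (ModularForm.mcast hK ((g₁ j).mul h₂)) = qL (g₁ j) * qL h₂ :=
        qL_mul N (g₁ j) h₂
      simp only [Fin.cases_succ]
      rw [e1, e2, ← (hg j).2]
      ring

/-- Representations with a common denominator. -/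
theorem exists_rep_common (N : ℕ) [NeZero N] {n : ℕ} (f : Fin n → FN N) :
    ∃ (k : ℕ) (g₂ : ModularForm (G0 N) k) (g₁ : Fin n → ModularForm (G0 N) k),
      ∀ i, IsRep N (f i) (g₁ i) g₂ := by
  obtain ⟨k, g₂, g₁, -, h⟩ := rep_common_aux N f
  exact ⟨k, g₂, g₁, h⟩

theorem IsRep.cross_mul {N : ℕ} [NeZero N] {f : FN N} {k k' : ℤ}
    {g₁ g₂ : ModularForm (G0 N) k} {h₁ h₂ : ModularForm (G0 N) k'}
    (hg : IsRep N f g₁ g₂) (hh : IsRep N f h₁ h₂) (z : ℍ) : g₁ z * h₂ z = h₁ z * g₂ z := by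
  have h1 : qL (g₁.mul h₂) = qL (ModularForm.mcast (add_comm k' k) (h₁.mul g₂)) := by
    have e1 : qL (ModularForm.mcast (add_comm k' k) (h₁.mul g₂)) = qL h₁ * qL g₂ :=
      qL_mul N h₁ g₂
    rw [e1, qL_mul, ← hg.2, ← hh.2]
    ring
  have h2 := qL_injective N _ _ h1
  have h3 := congrArg (fun F : ModularForm (G0 N) (k + k') => F z) h2
  exact h3

theorem IsRep.eq_zero_iff {N : ℕ} [NeZero N] {f : FN N} {k : ℤ}
    {g₁ g₂ : ModularForm (G0 N) k} (hg : IsRep N f g₁ g₂) : f = 0 ↔ g₁ = 0 := by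
  constructor
  · intro hf
    have h2 := hg.2
    rw [hf, map_zero, zero_mul] at h2
    by_contra h
    exact rep_qL_ne_zero h h2.symm
  · exact rep_zero_of_num hg

theorem isRep_const (N : ℕ) [NeZero N] (a : Kb) :
    ∃ g₁ g₂ : ModularForm (G0 N) 0,
      IsRep N (algebraMap Kb (FN N) a) g₁ g₂ ∧ (∀ z, g₁ z = iota a) ∧ ∀ z, g₂ z = 1 :=
  rep_const_aux N a

theorem isRep_jd (N d : ℕ) [NeZero N] [NeZero d] (hd : d ∣ N) :
    ∃ g₁ g₂ : ModularForm (G0 N) 12,
      IsRep N (jd N d hd) g₁ g₂ ∧ (∀ z, g₁ z = E₄ (dmul d z) ^ 3) ∧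
        ∀ z, g₂ z = ModularForm.discriminant (dmul d z) :=
  rep_jd_aux N d hd

/-- restrictions of `E₄³` and `Δ` to level `N` -/
theorem rep_exists_ED (N : ℕ) [NeZero N] :
    ∃ gE gD : ModularForm (G0 N) 12, (∀ z, gE z = E₄ z ^ 3) ∧
      (∀ z, gD z = ModularForm.discriminant z) ∧ qL gE = qL E₄ ^ 3 ∧
      qL gD = qL ModularForm.discriminant ∧ gE ≠ 0 ∧ gD ≠ 0 := by
  obtain ⟨gE, hE, -⟩ := exists_res_tr N repE
  obtain ⟨gD, hD, -⟩ := exists_res_tr N repD
  have qE : qL gE = qL E₄ ^ 3 := by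
    rw [← rep_qL_repE]
    congr 1
    funext z
    exact hE z
  have qD : qL gD = qL ModularForm.discriminant := by
    rw [← rep_qL_repD]
    congr 1
    funext z
    exact hD z
  refine ⟨gE, gD, fun z => by rw [hE, repE_apply], fun z => by rw [hD, repD_apply], qE, qD,
    rep_ne_zero_of_qL ?_, rep_ne_zero_of_qL ?_⟩
  · rw [qE]
    exact pow_ne_zero _ qL_E4_ne_zero
  · rw [qD]
    exact qL_discriminant_ne_zero

theorem isRep_j_sub (N : ℕ) [NeZero N] (c : Kb) :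
    ∃ g₁ g₂ : ModularForm (G0 N) 12,
      IsRep N (jF N - algebraMap Kb (FN N) c) g₁ g₂ ∧
        (∀ z, g₁ z = E₄ z ^ 3 - iota c * ModularForm.discriminant z) ∧
        ∀ z, g₂ z = ModularForm.discriminant z := by
  obtain ⟨gE, gD, hE, hD, qE, qD, nE, nD⟩ := rep_exists_ED N
  refine ⟨gE + (-(iota c)) • gD, gD, ⟨nD, ?_⟩, fun z => ?_, hD⟩
  · have e1 : qL (gE + (-(iota c)) • gD : ModularForm (G0 N) 12)
        = qL gE + HahnSeries.C (-(iota c)) * qL gD := by
      have h1 := qL_add N gE ((-(iota c)) • gD)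
      have h2 := qL_smul N (-(iota c)) gD
      exact h1.trans (by rw [← h2]; rfl)
    rw [e1, map_sub, toL_jF, toL_algebraMap, qE, qD, sub_mul, jq_mul_qL_discriminant, map_neg]
    ring
  · show gE z + (-(iota c)) • gD z = _
    rw [hE, hD, smul_eq_mul]
    ring

theorem isRep_j_inv (N : ℕ) [NeZero N] :
    ∃ g₁ g₂ : ModularForm (G0 N) 12,
      IsRep N (jF N)⁻¹ g₁ g₂ ∧ (∀ z, g₁ z = ModularForm.discriminant z) ∧
        ∀ z, g₂ z = E₄ z ^ 3 := by
  obtain ⟨gE, gD, hE, hD, qE, qD, nE, nD⟩ := rep_exists_ED N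
  refine ⟨gD, gE, ⟨nE, ?_⟩, hD, hE⟩
  rw [map_inv₀, toL_jF, qE, qD, ← jq_mul_qL_discriminant]
  have := rep_jq_ne_zero
  field_simp

theorem rep_qL_pow (N : ℕ) [NeZero N] {k : ℤ} (g : ModularForm (G0 N) k) (n : ℕ) :
    qL (g.pow n) = qL g ^ n := by
  unfold qL
  rw [ModularForm.qExpansion_pow one_pos (rep_one_mem N) g n, map_pow]

/-- Representation of `j ^ l · f` with denominator `Δ ^ L · g₂`, `l ≤ L`. -/
theorem isRep_j_pow_mul (N : ℕ) [NeZero N] {k : ℕ} {f : FN N} {g₁ g₂ : ModularForm (G0 N) k}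
    (hf : IsRep N f g₁ g₂) (L l : ℕ) (hl : l ≤ L) :
    ∃ h₁ h₂ : ModularForm (G0 N) ((12 * L + k : ℕ) : ℤ),
      IsRep N (jF N ^ l * f) h₁ h₂ ∧
        (∀ z, h₂ z = ModularForm.discriminant z ^ L * g₂ z) := by
  obtain ⟨gE, gD, hE, hD, qE, qD, nE, nD⟩ := rep_exists_ED N
  have hK2 : ((L : ℕ) : ℤ) * 12 + (k : ℤ) = ((12 * L + k : ℕ) : ℤ) := by push_cast; ring
  have hK1 : (((l : ℕ) : ℤ) * 12 + ((L - l : ℕ) : ℤ) * 12) + (k : ℤ)
      = ((12 * L + k : ℕ) : ℤ) := by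
    rw [Nat.cast_sub hl]
    push_cast
    ring
  have e2 : qL (ModularForm.mcast hK2 ((gD.pow L).mul g₂))
      = qL ModularForm.discriminant ^ L * qL g₂ := by
    have := qL_mul N (gD.pow L) g₂
    rw [rep_qL_pow, qD] at this
    exact this
  have e1 : qL (ModularForm.mcast hK1 (((gE.pow l).mul (gD.pow (L - l))).mul g₁))
      = (qL E₄ ^ 3) ^ l * qL ModularForm.discriminant ^ (L - l) * qL g₁ := by
    have a1 := qL_mul N ((gE.pow l).mul (gD.pow (L - l))) g₁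
    have a2 := qL_mul N (gE.pow l) (gD.pow (L - l))
    rw [a2, rep_qL_pow, rep_qL_pow, qE, qD] at a1
    exact a1
  have n2 := rep_qL_ne_zero hf.1
  refine ⟨ModularForm.mcast hK1 (((gE.pow l).mul (gD.pow (L - l))).mul g₁),
    ModularForm.mcast hK2 ((gD.pow L).mul g₂), ⟨?_, ?_⟩, fun z => ?_⟩
  · refine rep_ne_zero_of_qL ?_
    rw [e2]
    exact mul_ne_zero (pow_ne_zero _ qL_discriminant_ne_zero) n2
  · rw [e1, e2, map_mul, map_pow, toL_jF, ← jq_mul_qL_discriminant]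
    have hpow : qL ModularForm.discriminant ^ L
        = qL ModularForm.discriminant ^ l * qL ModularForm.discriminant ^ (L - l) := by
      rw [← _root_.pow_add, Nat.add_sub_cancel' hl]
    rw [hpow, mul_pow]
    have h3 := hf.2
    calc ModularCurve.jqModC ℂ ^ l * toL N f
          * (qL ModularForm.discriminant ^ l * qL ModularForm.discriminant ^ (L - l) * qL g₂)
        = ModularCurve.jqModC ℂ ^ l * qL ModularForm.discriminant ^ l
          * qL ModularForm.discriminant ^ (L - l) * (toL N f * qL g₂) := by ring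
      _ = ModularCurve.jqModC ℂ ^ l * qL ModularForm.discriminant ^ l
          * qL ModularForm.discriminant ^ (L - l) * qL g₁ := by rw [h3]
  · show ((gD.pow L).mul g₂) z = _
    have h1 : ((gD.pow L).mul g₂) z = (gD.pow L) z * g₂ z := rfl
    rw [h1, ModularForm.coe_pow, Pi.pow_apply, hD]

end Fermat.Agent.S24
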