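import Fermat.Agent.S24.PlaceBasic
import Fermat.Agent.S24.FFBasic

/-!
# S24 / (B2) function fields of one variable over an algebraically closed field
(OWNER: see table `s24_modules`)

Statements FROZEN; extra lemmas welcome (prefix `res_`).

Sketches.
* `algebraic_of_isFF1`: if `t₀` is transcendental with `F / K(t₀)` finite and `g ∉ K` then `g` is
  algebraic over `K(t₀)`: clear denominators to get `G ∈ K[X, Y]`, `G ≠ 0`, `G(t₀, g) = 0`; as `g`
  is transcendental over `K`, `G(X, g) ≠ 0`, so `t₀` is algebraic over `K(g)`; hence `F / K(g)` is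
  algebraic and finitely generated (`F = K(g)(t₀, b₁, …, b_n)`), hence finite.
* `exists_const_sub`: for `f ∈ 𝒪_P` the residue class of `f` is algebraic over `K`
  (reduce a primitive polynomial relation of `f` over `K[t]`, `t ∈ 𝔪_P` transcendental), hence in
  `K` because `K` is algebraically closed.
* `deg_eq_one`: so `K → 𝒪_P / 𝔪_P` is bijective.
-/

set_option autoImplicit false

namespace Fermat.Agent.S24

open AlgebraicCurve HahnSeries IntermediateField

variable {K F : Type*} [Field K] [Field F] [Algebra K F]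

/-- Constants have order `0`. -/
theorem res_ord_algebraMap (P : Place K F) (a : K) : P.ord (algebraMap K F a) = 0 := by
  rcases eq_or_ne a 0 with rfl | ha
  · simp
  have h1 : 0 ≤ P.ord (algebraMap K F a) := ff_ord_nonneg_of_mem P (P.algebraMap_mem' a)
  have h2 : 0 ≤ P.ord (algebraMap K F a)⁻¹ := by
    rw [← map_inv₀]
    exact ff_ord_nonneg_of_mem P (P.algebraMap_mem' a⁻¹)
  rw [P.ord_inv] at h2
  omega

theorem res_ord_neg (P : Place K F) (f : F) : P.ord (-f) = P.ord f := by
  rcases eq_or_ne f 0 with rfl | hf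
  · simp
  have h : -f = algebraMap K F (-1) * f := by simp
  rw [h, P.ord_mul ((map_ne_zero _).mpr (by norm_num)) hf, res_ord_algebraMap, zero_add]

/-- Elements algebraic over an algebraically closed `K` are constants. -/
theorem mem_range_of_isAlgebraic [IsAlgClosed K] {g : F} (hg : IsAlgebraic K g) :
    ∃ a : K, g = algebraMap K F a := by
  by_contra h
  refine ff_transcendental_of_not_mem (K := K) (f := g) ?_ hg
  rintro ⟨a, ha⟩
  exact h ⟨a, ha.symm⟩

theorem transcendental_of_ord_ne_zero [IsAlgClosed K] (P : Place K F) {g : F}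
    (hg : P.ord g ≠ 0) : Transcendental K g := by
  intro halg
  obtain ⟨a, rfl⟩ := mem_range_of_isAlgebraic halg
  exact hg (res_ord_algebraMap P a)

theorem finiteDimensional_of_transcendental (hFF : IsFF1 K F) {g : F}
    (hg : Transcendental K g) : FiniteDimensional K⟮g⟯ F := by
  obtain ⟨t, _, hfin⟩ := hFF
  exact ff_finite_of_transcendental t g hg

/-- The residue field of every place is `K`. -/
theorem exists_const_sub [IsAlgClosed K] (hFF : IsFF1 K F) (P : Place K F) {f : F}
    (hf : f ∈ P.toValuationSubring) :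
    ∃ a : K, f = algebraMap K F a ∨ 0 < P.ord (f - algebraMap K F a) := by
  obtain ⟨t, _, hfin⟩ := hFF
  have halg : Algebra.IsAlgebraic K⟮t⟯ F := Algebra.IsAlgebraic.of_finite _ _
  obtain ⟨c, hc⟩ := ff_exists_const t P ⟨f, hf⟩
  refine ⟨c, ?_⟩
  by_cases hne : f - algebraMap K F c = 0
  · exact Or.inl (sub_eq_zero.mp hne)
  · right
    have hmem : f - algebraMap K F c ∈ P.toValuationSubring :=
      sub_mem hf (P.algebraMap_mem' c)
    rw [ff_ord_pos_iff_mem_maximalIdeal P hmem hne]
    exact hc

theorem deg_eq_one [IsAlgClosed K] (hFF : IsFF1 K F) (P : Place K F) : P.deg = 1 := by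
  obtain ⟨t, _, hfin⟩ := hFF
  have halg : Algebra.IsAlgebraic K⟮t⟯ F := Algebra.IsAlgebraic.of_finite _ _
  exact ff_deg_eq_one t P

/-- Every place has a centre on the `j`-line. -/
theorem exists_center [IsAlgClosed K] (hFF : IsFF1 K F) (P : Place K F) (j : F) :
    P.ord j < 0 ∨ ∃ c : K, j = algebraMap K F c ∨ 0 < P.ord (j - algebraMap K F c) := by
  by_cases hj : j ∈ P.toValuationSubring
  · exact Or.inr (exists_const_sub hFF P hj)
  · exact Or.inl ((ff_ord_neg_iff P).mpr hj)

/-- The centre is unique. -/
theorem center_unique (P : Place K F) (j : F) {c c' : K}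
    (hc : 0 < P.ord (j - algebraMap K F c)) (hc' : 0 < P.ord (j - algebraMap K F c')) :
    c = c' := by
  by_contra hne
  have h1 : j - algebraMap K F c ≠ 0 := by
    intro h0
    rw [h0, P.ord_zero] at hc
    exact lt_irrefl _ hc
  have h2 : -(j - algebraMap K F c') ≠ 0 := by
    intro h0
    rw [neg_eq_zero] at h0
    rw [h0, P.ord_zero] at hc'
    exact lt_irrefl _ hc'
  have hsum : (j - algebraMap K F c) + -(j - algebraMap K F c') = algebraMap K F (c' - c) := by
    rw [map_sub]
    ring
  have hcc : c' - c ≠ 0 := sub_ne_zero.mpr (Ne.symm hne)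
  have h3 : (j - algebraMap K F c) + -(j - algebraMap K F c') ≠ 0 := by
    rw [hsum]
    exact (map_ne_zero _).mpr hcc
  have h4 := ff_ord_add_le P h3 h1 h2
  rw [hsum, res_ord_algebraMap, res_ord_neg] at h4
  have := le_min hc.le hc'.le
  have h5 : 0 < min (P.ord (j - algebraMap K F c)) (P.ord (j - algebraMap K F c')) :=
    lt_min hc hc'
  omega

theorem ord_nonneg_of_center (P : Place K F) (j : F) {c : K}
    (hc : 0 < P.ord (j - algebraMap K F c)) : 0 ≤ P.ord j := by
  rw [ff_ord_nonneg_iff]
  have h1 : j - algebraMap K F c ∈ P.toValuationSubring :=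
    (ff_ord_nonneg_iff P).mp hc.le
  have := add_mem h1 (P.algebraMap_mem' c)
  rwa [sub_add_cancel] at this

/-- `K(t - c) = K(t)` and `K(t⁻¹) = K(t)`, at the level of degrees. -/
theorem finrank_adjoin_sub_const (t : F) (c : K) :
    Module.finrank K⟮t - algebraMap K F c⟯ F = Module.finrank K⟮t⟯ F := by
  have h : K⟮t - algebraMap K F c⟯ = K⟮t⟯ := by
    apply le_antisymm
    · rw [adjoin_simple_le_iff]
      exact sub_mem (mem_adjoin_simple_self K t) (IntermediateField.algebraMap_mem _ c)
    · rw [adjoin_simple_le_iff]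
      have := add_mem (mem_adjoin_simple_self K (t - algebraMap K F c))
        (IntermediateField.algebraMap_mem K⟮t - algebraMap K F c⟯ c)
      rwa [sub_add_cancel] at this
  rw [h]

theorem finrank_adjoin_inv (t : F) : Module.finrank K⟮t⁻¹⟯ F = Module.finrank K⟮t⟯ F := by
  have h : K⟮t⁻¹⟯ = K⟮t⟯ := by
    apply le_antisymm
    · rw [adjoin_simple_le_iff]
      exact inv_mem (mem_adjoin_simple_self K t)
    · rw [adjoin_simple_le_iff]
      have := inv_mem (mem_adjoin_simple_self K t⁻¹)
      rwa [inv_inv] at this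
  rw [h]

theorem transcendental_sub_const {t : F} (ht : Transcendental K t) (c : K) :
    Transcendental K (t - algebraMap K F c) := by
  intro halg
  apply ht
  have := halg.add (isAlgebraic_algebraMap (R := K) (A := F) c)
  rwa [sub_add_cancel] at this

theorem transcendental_inv {t : F} (ht : Transcendental K t) : Transcendental K t⁻¹ := by
  intro halg
  exact ht (IsAlgebraic.inv_iff.mp halg)

end Fermat.Agent.S24
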