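import Mathlib
import Fermat.Agent.S24.CuspAux

/-!
# S24 / (A6) auxiliary lemmas: order and leading coefficient of Taylor series
(OWNER: helper9)
-/

set_option autoImplicit false

namespace Fermat.Agent.S24

open scoped Nat Topology

/-- The Taylor series of `f` at `z₀`. -/
noncomputable def tySer (f : ℂ → ℂ) (z₀ : ℂ) : PowerSeries ℂ :=
  PowerSeries.mk fun n => ((n ! : ℕ) : ℂ)⁻¹ * iteratedDeriv n f z₀

theorem ty_coeff (f : ℂ → ℂ) (z₀ : ℂ) (n : ℕ) :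
    PowerSeries.coeff n (tySer f z₀) = ((n ! : ℕ) : ℂ)⁻¹ * iteratedDeriv n f z₀ := by
  rw [tySer, PowerSeries.coeff_mk]

theorem ty_coeff_zero (f : ℂ → ℂ) (z₀ : ℂ) : PowerSeries.coeff 0 (tySer f z₀) = f z₀ := by
  rw [ty_coeff]
  simp

theorem ty_coeff_one (f : ℂ → ℂ) (z₀ : ℂ) : PowerSeries.coeff 1 (tySer f z₀) = deriv f z₀ := by
  rw [ty_coeff]
  simp

theorem ty_congr {f g : ℂ → ℂ} {z₀ : ℂ} (h : f =ᶠ[𝓝 z₀] g) : tySer f z₀ = tySer g z₀ := by
  ext n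
  rw [ty_coeff, ty_coeff, h.iteratedDeriv_eq]

theorem ty_mul {f g : ℂ → ℂ} {z₀ : ℂ} (hf : AnalyticAt ℂ f z₀) (hg : AnalyticAt ℂ g z₀) :
    tySer (f * g) z₀ = tySer f z₀ * tySer g z₀ := by
  ext n
  simp only [ty_coeff, iteratedDeriv_mul hf.contDiffAt hg.contDiffAt, Finset.mul_sum,
    PowerSeries.coeff_mul, Finset.Nat.sum_antidiagonal_eq_sum_range_succ_mk, Nat.succ_eq_add_one]
  refine Finset.sum_congr rfl fun i hi ↦ ?_
  rw [Nat.cast_choose _ (by grind)]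
  field_simp [Nat.factorial_ne_zero]

theorem ty_add {f g : ℂ → ℂ} {z₀ : ℂ} (hf : AnalyticAt ℂ f z₀) (hg : AnalyticAt ℂ g z₀) :
    tySer (f + g) z₀ = tySer f z₀ + tySer g z₀ := by
  ext n
  simp [ty_coeff, iteratedDeriv_add hf.contDiffAt hg.contDiffAt, mul_add]

theorem ty_const (c z₀ : ℂ) : tySer (fun _ => c) z₀ = PowerSeries.C c := by
  ext n
  rw [ty_coeff, iteratedDeriv_const, PowerSeries.coeff_C]
  split_ifs with h
  · subst h
    simp
  · simp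

theorem ty_sub_id (z₀ : ℂ) : tySer (fun z => z - z₀) z₀ = PowerSeries.X := by
  ext n
  rw [ty_coeff, PowerSeries.coeff_X]
  rcases n with _ | _ | n
  · simp
  · simp
  · have h1 : deriv (fun z : ℂ => z - z₀) = fun _ => 1 := by
      funext z
      simp
    rw [iteratedDeriv_succ', h1, iteratedDeriv_const]
    simp

theorem ty_pow (z₀ : ℂ) (n : ℕ) : tySer (fun z => (z - z₀) ^ n) z₀ = PowerSeries.X ^ n := by
  induction n with
  | zero =>
    simp only [pow_zero]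
    rw [ty_const, map_one]
  | succ n ih =>
    have h : (fun z : ℂ => (z - z₀) ^ (n + 1)) = (fun z => (z - z₀) ^ n) * (fun z => z - z₀) := by
      funext z
      simp [pow_succ]
    rw [h, ty_mul (by fun_prop) (by fun_prop), ih, ty_sub_id, pow_succ]

/-- The Taylor series of `(z - z₀)ⁿ g`. -/
theorem ty_factor {f g : ℂ → ℂ} {z₀ : ℂ} {n : ℕ} (hg : AnalyticAt ℂ g z₀)
    (h : ∀ᶠ z in 𝓝 z₀, f z = (z - z₀) ^ n * g z) :
    tySer f z₀ = PowerSeries.X ^ n * tySer g z₀ := by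
  have h1 : f =ᶠ[𝓝 z₀] (fun z => (z - z₀) ^ n) * g := h
  rw [ty_congr h1, ty_mul (by fun_prop) hg, ty_pow]

/-- A function with vanishing Taylor series vanishes near the point. -/
theorem ty_eventually_zero {f : ℂ → ℂ} {z₀ : ℂ} (hf : AnalyticAt ℂ f z₀) (h : tySer f z₀ = 0) :
    ∀ᶠ z in 𝓝 z₀, f z = 0 := by
  rw [← analyticOrderAt_eq_top]
  have h1 : ∀ n : ℕ, iteratedDeriv n f z₀ = 0 := by
    intro n
    have h2 := ty_coeff f z₀ n
    rw [h, map_zero] at h2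
    have h3 : ((n ! : ℕ) : ℂ)⁻¹ ≠ 0 := inv_ne_zero (Nat.cast_ne_zero.mpr (Nat.factorial_ne_zero n))
    exact (mul_eq_zero.mp h2.symm).resolve_left h3
  rw [ENat.eq_top_iff_forall_ge]
  intro n
  rw [natCast_le_analyticOrderAt_iff_iteratedDeriv_eq_zero hf]
  intro i _
  exact h1 i

/-- The Laurent series attached to the Taylor series. -/
noncomputable def tyL (f : ℂ → ℂ) (z₀ : ℂ) : LaurentSeries ℂ :=
  HahnSeries.ofPowerSeries ℤ ℂ (tySer f z₀)

theorem ty_order_eq {x : LaurentSeries ℂ} {n : ℤ} (h1 : x.coeff n ≠ 0)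
    (h2 : ∀ m < n, x.coeff m = 0) : x.order = n ∧ x.leadingCoeff = x.coeff n := by
  have hx : x ≠ 0 := by
    rintro rfl
    exact h1 rfl
  have h3 : x.order = n := by
    apply le_antisymm (HahnSeries.order_le_of_coeff_ne_zero h1)
    by_contra hlt
    exact HahnSeries.coeff_order_eq_zero.not.mpr hx (h2 _ (not_le.mp hlt))
  refine ⟨h3, ?_⟩
  rw [HahnSeries.leadingCoeff_eq, h3]

theorem ty_order_nonneg (p : PowerSeries ℂ) : 0 ≤ (HahnSeries.ofPowerSeries ℤ ℂ p).order := by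
  by_cases hx : HahnSeries.ofPowerSeries ℤ ℂ p = 0
  · rw [hx, HahnSeries.order_zero]
  · by_contra hlt
    apply HahnSeries.coeff_order_eq_zero.not.mpr hx
    rw [cu_coeff_ofPowerSeries, if_neg hlt]

theorem ty_order_X_pow_mul (p : PowerSeries ℂ) (hp : PowerSeries.coeff 0 p ≠ 0) (n : ℕ) :
    (HahnSeries.ofPowerSeries ℤ ℂ (PowerSeries.X ^ n * p)).order = n ∧
      (HahnSeries.ofPowerSeries ℤ ℂ (PowerSeries.X ^ n * p)).leadingCoeff =
        PowerSeries.coeff 0 p := by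
  have h1 : (HahnSeries.ofPowerSeries ℤ ℂ (PowerSeries.X ^ n * p)).coeff (n : ℤ) =
      PowerSeries.coeff 0 p := by
    rw [cu_coeff_ofPowerSeries, if_pos (by positivity), Int.toNat_natCast,
      PowerSeries.coeff_X_pow_mul', if_pos le_rfl, Nat.sub_self]
  have h2 : ∀ m < (n : ℤ), (HahnSeries.ofPowerSeries ℤ ℂ (PowerSeries.X ^ n * p)).coeff m = 0 := by
    intro m hm
    rw [cu_coeff_ofPowerSeries]
    split_ifs with h0
    · rw [PowerSeries.coeff_X_pow_mul', if_neg]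
      omega
    · rfl
  have h3 := ty_order_eq (h1 ▸ hp) h2
  rw [h1] at h3
  exact h3

/-- Order and leading coefficient of the Taylor series of `(z - z₀)ⁿ g`, `g z₀ ≠ 0`. -/
theorem ty_order_factor {f g : ℂ → ℂ} {z₀ : ℂ} {n : ℕ} (hg : AnalyticAt ℂ g z₀)
    (hg0 : g z₀ ≠ 0) (h : ∀ᶠ z in 𝓝 z₀, f z = (z - z₀) ^ n * g z) :
    (tyL f z₀).order = n ∧ (tyL f z₀).leadingCoeff = g z₀ := by
  have h1 := ty_order_X_pow_mul (tySer g z₀) (by rwa [ty_coeff_zero]) n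
  rw [← ty_factor hg h, ty_coeff_zero] at h1
  exact h1

theorem ty_tyL_of_eventually_zero {f : ℂ → ℂ} {z₀ : ℂ} (h : ∀ᶠ z in 𝓝 z₀, f z = 0) :
    tyL f z₀ = 0 := by
  have h1 : f =ᶠ[𝓝 z₀] fun _ => (0 : ℂ) := h
  rw [tyL, ty_congr h1, ty_const, map_zero, map_zero]

theorem ty_tyL_eq_zero_iff {f : ℂ → ℂ} {z₀ : ℂ} (hf : AnalyticAt ℂ f z₀) :
    tyL f z₀ = 0 ↔ ∀ᶠ z in 𝓝 z₀, f z = 0 := by
  refine ⟨fun h => ty_eventually_zero hf ?_, ty_tyL_of_eventually_zero⟩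
  exact HahnSeries.ofPowerSeries_injective (by rw [← tyL, h, map_zero])

/-- Dichotomy for the Taylor series of an analytic function. -/
theorem ty_cases {f : ℂ → ℂ} {z₀ : ℂ} (hf : AnalyticAt ℂ f z₀) :
    (∀ᶠ z in 𝓝 z₀, f z = 0) ∨
      ∃ (n : ℕ) (g : ℂ → ℂ), AnalyticAt ℂ g z₀ ∧ g z₀ ≠ 0 ∧
        ∀ᶠ z in 𝓝 z₀, f z = (z - z₀) ^ n * g z := by
  by_cases h : ∀ᶠ z in 𝓝 z₀, f z = 0
  · exact Or.inl h
  · right
    obtain ⟨n, g, hg, hg0, hfg⟩ := hf.exists_eventuallyEq_pow_smul_nonzero_iff.mpr h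
    exact ⟨n, g, hg, hg0, hfg⟩

end Fermat.Agent.S24
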