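import Fermat.Agent.S24.Embed
import Fermat.Agent.S20.Basic
import Fermat.Agent.S20.LevelOne
import Fermat.Agent.S24.TaylorAux

/-!
# S24 / (A6) Taylor expansion at a point of `ℍ` as an evaluation
(OWNER: helper9)  PROVED

`taylorEval N τ₀`: `dom` = holomorphic functions on `ℍ` (`MDifferentiable`), `ev h` = the Taylor
series of `h ∘ ofComplex` at `τ₀` in the variable `s = τ - τ₀`
(`PowerSeries.mk fun n ↦ (n !)⁻¹ * iteratedDeriv n (h ∘ ofComplex) τ₀`); ring homomorphism by the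
Leibniz rule (`iteratedDeriv_mul`, cf. Mathlib `UpperHalfPlane.qExpansion_mul`), injective by the
identity theorem (`ℍ` is connected).

Equivariance: if `δ τ₀ = τ₀` then `tr g (δ • x) = (tr g x) ∣[k] δ⁻¹` (`tr_slash`) and for
holomorphic `h = (τ - τ₀)ⁿ h₁`, `h₁(τ₀) ≠ 0`:
`(h ∣[k] δ⁻¹)(τ) = denom(δ⁻¹, τ)^{-k} (δ⁻¹τ - τ₀)ⁿ h₁(δ⁻¹ τ)` and
`δ⁻¹ τ - τ₀ = (τ - τ₀) / (denom(δ⁻¹, τ) denom(δ⁻¹, τ₀))`, so the order is unchanged and the leading
coefficient is multiplied by `denom(δ⁻¹, τ₀)^{-k} · (denom(δ⁻¹, τ₀)^{-2})ⁿ`.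

Statements FROZEN; extra lemmas welcome (prefix `ty_`).
-/

set_option autoImplicit false

namespace Fermat.Agent.S24

open AlgebraicCurve HahnSeries IntermediateField UpperHalfPlane ModularForm EisensteinSeries
open Fermat.Agent.S20
open scoped MatrixGroups ModularForm Manifold

/-- The domain of the Taylor evaluation. -/
def tyDom : Subring (ℍ → ℂ) where
  carrier := {h | MDifferentiable 𝓘(ℂ) 𝓘(ℂ) h}
  one_mem' := mdifferentiable_const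
  mul_mem' := fun ha hb => ha.mul hb
  zero_mem' := mdifferentiable_const
  add_mem' := fun ha hb => ha.add hb
  neg_mem' := fun ha => ha.neg

theorem ty_analyticAt {h : ℍ → ℂ} (hh : MDifferentiable 𝓘(ℂ) 𝓘(ℂ) h) (τ₀ : ℍ) :
    AnalyticAt ℂ (h ∘ ofComplex) (τ₀ : ℂ) :=
  (UpperHalfPlane.mdifferentiable_iff.mp hh).analyticAt
    (isOpen_upperHalfPlaneSet.mem_nhds τ₀.im_pos)

/-- The Taylor evaluation. -/
noncomputable def tyEv (τ₀ : ℍ) : tyDom →+* LaurentSeries ℂ where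
  toFun h := tyL ((h : ℍ → ℂ) ∘ ofComplex) τ₀
  map_one' := by
    show tyL (fun _ => (1 : ℂ)) τ₀ = 1
    rw [tyL, ty_const, map_one, map_one]
  map_mul' := by
    intro a b
    show HahnSeries.ofPowerSeries ℤ ℂ
      (tySer (((a : ℍ → ℂ) ∘ ofComplex) * ((b : ℍ → ℂ) ∘ ofComplex)) τ₀) = _
    rw [ty_mul (ty_analyticAt a.2 τ₀) (ty_analyticAt b.2 τ₀), map_mul]
    rfl
  map_zero' := by
    show tyL (fun _ => (0 : ℂ)) τ₀ = 0
    rw [tyL, ty_const, map_zero, map_zero]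
  map_add' := by
    intro a b
    show HahnSeries.ofPowerSeries ℤ ℂ
      (tySer (((a : ℍ → ℂ) ∘ ofComplex) + ((b : ℍ → ℂ) ∘ ofComplex)) τ₀) = _
    rw [ty_add (ty_analyticAt a.2 τ₀) (ty_analyticAt b.2 τ₀), map_add]
    rfl

theorem tyEv_apply (τ₀ : ℍ) (h : tyDom) : tyEv τ₀ h = tyL ((h : ℍ → ℂ) ∘ ofComplex) τ₀ := rfl

theorem ty_eq_zero_of_eventually {h : ℍ → ℂ} (hh : MDifferentiable 𝓘(ℂ) 𝓘(ℂ) h) (τ₀ : ℍ)
    (h0 : ∀ᶠ z in nhds (τ₀ : ℂ), (h ∘ ofComplex) z = 0) : h = 0 := by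
  have h1 : AnalyticOnNhd ℂ (h ∘ ofComplex) {z : ℂ | 0 < z.im} :=
    (UpperHalfPlane.mdifferentiable_iff.mp hh).analyticOnNhd isOpen_upperHalfPlaneSet
  have h2 : IsPreconnected {z : ℂ | 0 < z.im} := (convex_halfSpace_im_gt 0).isPreconnected
  have h3 := h1.eqOn_zero_of_preconnected_of_eventuallyEq_zero h2 (z₀ := (τ₀ : ℂ)) τ₀.im_pos h0
  funext τ
  have h4 := h3 τ.im_pos
  simpa using h4

theorem tyEv_injective (τ₀ : ℍ) : Function.Injective (tyEv τ₀) := by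
  rw [injective_iff_map_eq_zero]
  intro h hh
  rw [tyEv_apply, ty_tyL_eq_zero_iff (ty_analyticAt h.2 τ₀)] at hh
  exact Subtype.ext (ty_eq_zero_of_eventually h.2 τ₀ hh)

/-- The Taylor expansion at `τ₀` as an evaluation. -/
noncomputable def tyEval (N : ℕ) (τ₀ : ℍ) : Evaluation N where
  dom := tyDom
  ev := tyEv τ₀
  inj := tyEv_injective τ₀
  const_mem := fun _ => mdifferentiable_const
  ev_const := by
    intro c
    rw [tyEv_apply]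
    show tyL (fun _ => c) τ₀ = _
    rw [tyL, ty_const, HahnSeries.ofPowerSeries_C]
  tr_mem := by
    intro k g x
    exact mdifferentiable_tr g x

theorem ty_coeff_neg (f : ℂ → ℂ) (z₀ : ℂ) {m : ℤ} (hm : m < 0) : (tyL f z₀).coeff m = 0 := by
  rw [tyL, cu_coeff_ofPowerSeries, if_neg (not_le.mpr hm)]

theorem ty_tyL_coeff_zero (f : ℂ → ℂ) (z₀ : ℂ) : (tyL f z₀).coeff 0 = f z₀ := by
  rw [tyL, cu_coeff_ofPowerSeries, if_pos le_rfl, Int.toNat_zero, ty_coeff_zero]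

theorem ty_tyL_coeff_one (f : ℂ → ℂ) (z₀ : ℂ) : (tyL f z₀).coeff 1 = deriv f z₀ := by
  rw [tyL, cu_coeff_ofPowerSeries, if_pos zero_le_one, Int.toNat_one, ty_coeff_one]

theorem ty_order_zero {f : ℂ → ℂ} {z₀ : ℂ} (h : f z₀ ≠ 0) : (tyL f z₀).order = 0 := by
  refine (ty_order_eq (n := 0) ?_ ?_).1
  · rwa [ty_tyL_coeff_zero]
  · intro m hm
    exact ty_coeff_neg f z₀ hm

theorem ty_order_one {f : ℂ → ℂ} {z₀ : ℂ} (h0 : f z₀ = 0) (h1 : deriv f z₀ ≠ 0) :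
    (tyL f z₀).order = 1 := by
  refine (ty_order_eq (n := 1) ?_ ?_).1
  · rwa [ty_tyL_coeff_one]
  · intro m hm
    have hm' : m < 0 ∨ m = 0 := by omega
    rcases hm' with h | h
    · exact ty_coeff_neg f z₀ h
    · rw [h, ty_tyL_coeff_zero, h0]

/-- The difference of two Möbius transforms. -/
theorem ty_moebius_sub (γ : SL(2, ℤ)) (z w : ℍ) :
    ((γ • z : ℍ) : ℂ) - ((γ • w : ℍ) : ℂ) = ((z : ℂ) - w) / (denom γ z * denom γ w) := by
  have hz := denom_ne_zero γ z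
  have hw := denom_ne_zero γ w
  rw [coe_specialLinearGroup_apply, coe_specialLinearGroup_apply]
  rw [ModularGroup.denom_apply] at hz hw ⊢
  rw [ModularGroup.denom_apply]
  have hdet : ((γ 0 0 : ℤ) : ℂ) * ((γ 1 1 : ℤ) : ℂ) - ((γ 0 1 : ℤ) : ℂ) * ((γ 1 0 : ℤ) : ℂ) = 1 := by
    have := γ.det_coe
    rw [Matrix.det_fin_two] at this
    exact_mod_cast this
  simp only [algebraMap_int_eq, Int.coe_castRingHom, Complex.ofReal_intCast] at hz hw ⊢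
  rw [div_sub_div _ _ hz hw, div_eq_div_iff (mul_ne_zero hz hw) (mul_ne_zero hz hw)]
  linear_combination ((z : ℂ) - w) * ((γ 1 0 : ℂ) * z + γ 1 1) * ((γ 1 0 : ℂ) * w + γ 1 1) * hdet

/-- Behaviour of the Taylor series under the slash action of an element of the stabiliser. -/
theorem ty_equivariant_aux (τ₀ : ℍ) (γ : SL(2, ℤ)) (hγ : γ • τ₀ = τ₀) (k : ℤ) {h H : ℍ → ℂ}
    (hh : MDifferentiable 𝓘(ℂ) 𝓘(ℂ) h)
    (hH : ∀ z : ℍ, h (γ • z) = denom γ z ^ k * H z) :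
    (tyL (H ∘ ofComplex) τ₀).order = (tyL (h ∘ ofComplex) τ₀).order ∧
      (tyL (H ∘ ofComplex) τ₀).leadingCoeff =
        denom γ τ₀ ^ (-k) * (denom γ τ₀ ^ (-2 : ℤ)) ^ (tyL (h ∘ ofComplex) τ₀).order *
          (tyL (h ∘ ofComplex) τ₀).leadingCoeff := by
  set m : ℂ → ℂ := (fun τ : ℍ => ((γ • τ : ℍ) : ℂ)) ∘ ofComplex with hm
  set D : ℂ → ℂ := (fun τ : ℍ => denom γ τ) ∘ ofComplex with hD
  set D₀ : ℂ := denom γ τ₀ with hD₀
  have hD₀_ne : D₀ ≠ 0 := denom_ne_zero γ τ₀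
  have hm_an : AnalyticAt ℂ m (τ₀ : ℂ) := by
    refine ty_analyticAt ?_ τ₀
    have h1 : MDifferentiable 𝓘(ℂ) 𝓘(ℂ) (fun τ : ℍ => (γ : GL (Fin 2) ℝ) • τ) :=
      mdifferentiable_smul (by simp)
    exact mdifferentiable_coe.comp h1
  have hm0 : m (τ₀ : ℂ) = (τ₀ : ℂ) := by
    simp only [hm, Function.comp_apply, ofComplex_apply, hγ]
  have hD_an : AnalyticAt ℂ D (τ₀ : ℂ) := ty_analyticAt (mdifferentiable_denom γ) τ₀
  have hD0 : D (τ₀ : ℂ) = D₀ := by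
    simp only [hD, Function.comp_apply, ofComplex_apply, hD₀]
  have hDne : ∀ z : ℂ, D z ≠ 0 := fun z => denom_ne_zero γ (ofComplex z)
  have key : ∀ z : ℂ, (H ∘ ofComplex) z = D z ^ (-k) * (h ∘ ofComplex) (m z) := by
    intro z
    simp only [hm, hD, Function.comp_apply, ofComplex_apply]
    rw [hH, ← mul_assoc, ← zpow_add₀ (denom_ne_zero γ (ofComplex z))]
    simp
  have hf_an := ty_analyticAt hh τ₀
  have hm_tendsto : Filter.Tendsto m (nhds (τ₀ : ℂ)) (nhds (τ₀ : ℂ)) := by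
    have := hm_an.continuousAt.tendsto
    rwa [hm0] at this
  rcases ty_cases hf_an with h0 | ⟨n, g₁, hg₁, hg₁0, hfac⟩
  · have h1 : ∀ᶠ z in nhds (τ₀ : ℂ), (H ∘ ofComplex) z = 0 := by
      filter_upwards [hm_tendsto.eventually h0] with z hz
      rw [key, hz, mul_zero]
    rw [ty_tyL_of_eventually_zero h0, ty_tyL_of_eventually_zero h1]
    simp
  · have hA := ty_order_factor hg₁ hg₁0 hfac
    set G : ℂ → ℂ := fun z => D z ^ (-k) * ((D z * D₀) ^ n)⁻¹ * g₁ (m z) with hG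
    have hG_an : AnalyticAt ℂ G (τ₀ : ℂ) := by
      have h1 : AnalyticAt ℂ (fun z => D z ^ (-k)) (τ₀ : ℂ) := hD_an.zpow (hDne _)
      have h2 : AnalyticAt ℂ (fun z => ((D z * D₀) ^ n)⁻¹) (τ₀ : ℂ) :=
        ((hD_an.mul analyticAt_const).pow n).inv
          (pow_ne_zero n (mul_ne_zero (hDne _) hD₀_ne))
      have h3 : AnalyticAt ℂ (fun z => g₁ (m z)) (τ₀ : ℂ) := by
        have h4 : AnalyticAt ℂ g₁ (m (τ₀ : ℂ)) := by rwa [hm0]
        exact h4.comp hm_an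
      exact (h1.mul h2).mul h3
    have hG0 : G (τ₀ : ℂ) = D₀ ^ (-k) * ((D₀ * D₀) ^ n)⁻¹ * g₁ (τ₀ : ℂ) := by
      simp only [hG, hD0, hm0]
    have hG_ne : G (τ₀ : ℂ) ≠ 0 := by
      rw [hG0]
      exact mul_ne_zero (mul_ne_zero (zpow_ne_zero _ hD₀_ne)
        (inv_ne_zero (pow_ne_zero n (mul_ne_zero hD₀_ne hD₀_ne)))) hg₁0
    have him : ∀ᶠ z in nhds (τ₀ : ℂ), 0 < z.im :=
      isOpen_upperHalfPlaneSet.mem_nhds τ₀.im_pos
    have hfacH : ∀ᶠ z in nhds (τ₀ : ℂ), (H ∘ ofComplex) z = (z - (τ₀ : ℂ)) ^ n * G z := by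
      filter_upwards [hm_tendsto.eventually hfac, him] with z hz1 hz2
      rw [key, hz1]
      have h5 : m z - (τ₀ : ℂ) = (z - (τ₀ : ℂ)) / (D z * D₀) := by
        have h6 := ty_moebius_sub γ ⟨z, hz2⟩ τ₀
        rw [hγ] at h6
        simp only [hm, hD, Function.comp_apply, ofComplex_apply_of_im_pos hz2]
        exact h6
      rw [h5, div_pow]
      simp only [hG]
      rw [div_eq_mul_inv]
      ring
    have hB := ty_order_factor hG_an hG_ne hfacH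
    rw [hA.1, hA.2, hB.1, hB.2, hG0]
    refine ⟨rfl, ?_⟩
    congr 2
    rw [zpow_natCast, zpow_neg, inv_pow, ← pow_two]
    norm_cast

theorem ty_coe_inv (δ : SL(2, ℤ)) :
    ((δ : GL (Fin 2) ℝ))⁻¹ = ((δ⁻¹ : SL(2, ℤ)) : GL (Fin 2) ℝ) := by
  rw [map_inv, map_inv]

theorem ty_coe_mul (a b : SL(2, ℤ)) :
    ((a : GL (Fin 2) ℝ)) * (b : GL (Fin 2) ℝ) = ((a * b : SL(2, ℤ)) : GL (Fin 2) ℝ) := by
  rw [map_mul, map_mul]

theorem ty_equivariant (N : ℕ) [NeZero N] (τ₀ : ℍ) (δ : SL(2, ℤ)) (hδ : δ • τ₀ = τ₀) :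
    (tyEval N τ₀).IsEquivariant δ (denom δ⁻¹ τ₀ ^ (-2 : ℤ)) := by
  have hγ : δ⁻¹ • τ₀ = τ₀ := inv_smul_eq_iff.mpr hδ.symm
  rw [ty_coe_inv]
  refine ⟨fun k => denom (δ⁻¹ : SL(2, ℤ)) τ₀ ^ (-k),
    fun k => zpow_ne_zero _ (denom_ne_zero _ τ₀), fun k g x => ?_⟩
  have hH : ∀ z : ℍ, tr g x (δ⁻¹ • z) = denom (δ⁻¹ : SL(2, ℤ)) z ^ k * tr g (δ • x) z := by
    intro z
    have := tr_smul_apply g x δ⁻¹ z
    rwa [inv_inv] at this
  exact ty_equivariant_aux τ₀ δ⁻¹ hγ k (mdifferentiable_tr g x) hH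

/-- The Taylor expansion at `τ₀`. -/
theorem exists_taylorEval (N : ℕ) [NeZero N] (τ₀ : ℍ) :
    ∃ Λ : Evaluation N,
      (∀ h : ℍ → ℂ, h ∈ Λ.dom ↔ MDifferentiable 𝓘(ℂ) 𝓘(ℂ) h) ∧
      (∀ h : Λ.dom, (h : ℍ → ℂ) τ₀ ≠ 0 → (Λ.ev h).order = 0) ∧
      (∀ h : Λ.dom, (h : ℍ → ℂ) τ₀ = 0 → deriv ((h : ℍ → ℂ) ∘ ofComplex) τ₀ ≠ 0 →
        (Λ.ev h).order = 1) ∧
      (∀ h : Λ.dom, 0 ≤ (Λ.ev h).order) ∧
      ∀ δ : SL(2, ℤ), δ • τ₀ = τ₀ → Λ.IsEquivariant δ (denom δ⁻¹ τ₀ ^ (-2 : ℤ)) := by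
  refine ⟨tyEval N τ₀, fun h => Iff.rfl, ?_, ?_, ?_, ty_equivariant N τ₀⟩
  · intro h hh
    refine ty_order_zero ?_
    simpa using hh
  · intro h h0 h1
    refine ty_order_one ?_ h1
    simpa using h0
  · intro h
    exact ty_order_nonneg _

theorem denom_S_inv_I : denom ModularGroup.S⁻¹ (I : ℍ) ^ (-2 : ℤ) = -1 := by
  rw [ty_coe_inv]
  have h := ModularGroup.denom_apply ModularGroup.S⁻¹ (I : ℍ)
  have h10 : (ModularGroup.S⁻¹ : SL(2, ℤ)) 1 0 = -1 := by decide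
  have h11 : (ModularGroup.S⁻¹ : SL(2, ℤ)) 1 1 = 0 := by decide
  rw [h10, h11] at h
  rw [h]
  have hI : ((I : ℍ) : ℂ) = Complex.I := rfl
  rw [hI, zpow_neg]
  norm_num

theorem isPrimitiveRoot_denom_ST_inv_rho :
    IsPrimitiveRoot (denom (ModularGroup.S * ModularGroup.T)⁻¹ rho ^ (-2 : ℤ)) 3 := by
  rw [ty_coe_mul, ty_coe_inv]
  have h := ModularGroup.denom_apply (ModularGroup.S * ModularGroup.T)⁻¹ rho
  have h10 : ((ModularGroup.S * ModularGroup.T)⁻¹ : SL(2, ℤ)) 1 0 = -1 := by decide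
  have h11 : ((ModularGroup.S * ModularGroup.T)⁻¹ : SL(2, ℤ)) 1 1 = 0 := by decide
  rw [h10, h11] at h
  rw [h, l1_rho_coe]
  have h3 := l1_sqrt3_sq
  set w : ℂ := (-1 / 2 : ℂ) + (Real.sqrt 3 / 2 : ℝ) * Complex.I with hw
  have hw2 : w ^ 2 + w + 1 = 0 := by
    rw [hw]
    push_cast
    linear_combination (Complex.I ^ 2 / 4) * h3 + (3 / 4 : ℂ) * Complex.I_sq
  have hw3 : w ^ 3 = 1 := by linear_combination (w - 1) * hw2
  have hw0 : w ≠ 0 := by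
    intro h0
    rw [h0] at hw3
    norm_num at hw3
  have hval : (((-1 : ℤ) : ℂ) * w + ((0 : ℤ) : ℂ)) ^ (-2 : ℤ) = w := by
    have e : ((-1 : ℤ) : ℂ) * w + ((0 : ℤ) : ℂ) = -w := by
      push_cast
      ring
    have e2 : (-w) ^ (2 : ℤ) = w ^ 2 := by
      have : (-w) ^ (2 : ℤ) = (-w) ^ (2 : ℕ) := by norm_cast
      rw [this, neg_sq]
    rw [e, zpow_neg, e2]
    apply inv_eq_of_mul_eq_one_left
    linear_combination hw3
  rw [hval]
  have hw1 : w ≠ 1 := by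
    intro h1
    rw [h1] at hw2
    norm_num at hw2
  exact IsPrimitiveRoot.mk_of_lt w (by norm_num) hw3 (by
    intro l hl0 hl3
    interval_cases l
    · simpa using hw1
    · intro h2
      apply hw1
      linear_combination hw3 - w * h2)

end Fermat.Agent.S24
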