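import Fermat.Agent.S24.Residue

/-!
# S24 / (B5) an embedding inducing `P` is determined by one leading coefficient
(OWNER: see table `s24_modules`)

Let `σ₁, σ₂ : F →+* L⸨s⸩` (constant on `K`) both induce `P`, agree on some `t` with
`e := ord_P t > 0`, and let `π` be a uniformizer of `P`, `θᵢ := σᵢ π`, `k := ord_s θᵢ`
(the same for `i = 1, 2` because `ord_s σᵢ t = k e`).

*If `θ₁` and `θ₂` have the same leading coefficient then `σ₁ = σ₂`.*
Proof: `𝒪_P = K + π 𝒪_P` (`exists_const_sub`), so every `f ∈ 𝒪_P` is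
`∑_{i<n} aᵢ πⁱ + πⁿ g`, `aᵢ ∈ K`, `g ∈ 𝒪_P`.  If `δ := θ₁ - θ₂ ≠ 0`, `r := ord_s δ > k`, then
`ord_s (θ₁ⁱ - θ₂ⁱ) = r + k (i - 1)` (char. 0), and expanding `t = ∑_{e ≤ i < n} aᵢ πⁱ + πⁿ g`
(`a_e ≠ 0`) with `k n > r + k (e - 1)` gives `ord_s (σ₁ t - σ₂ t) = r + k (e - 1)`, contradicting
`σ₁ t = σ₂ t`.  So `θ₁ = θ₂`, and then `ord_s (σ₁ f - σ₂ f) ≥ k n` for all `n`, i.e. `σ₁ = σ₂` on
`𝒪_P`, hence on `F`.

*Counting*: with `t = u π ^ e`, `u ≡ a mod 𝔪_P`, `a ∈ Kˣ`:
`lc(σ_x π) ^ e = lc(σ_x t) / ι a` does not depend on `x`, and an element of a field has at most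
`e` `e`-th roots.

Statements FROZEN; extra lemmas welcome (prefix `uq_`).
-/

set_option autoImplicit false

namespace Fermat.Agent.S24

open AlgebraicCurve HahnSeries IntermediateField

variable {K F L : Type*} [Field K] [Field F] [Algebra K F] [Field L]

/-! ### Laurent series vanishing below a given degree -/

/-- All coefficients of `x` below `N` vanish. -/
def uq_VB (x : LaurentSeries L) (N : ℤ) : Prop := ∀ j : ℤ, j < N → x.coeff j = 0

theorem uq_VB_zero (N : ℤ) : uq_VB (0 : LaurentSeries L) N := fun _ _ => rfl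

theorem uq_VB_order (x : LaurentSeries L) : uq_VB x x.order :=
  fun _ hj => HahnSeries.coeff_eq_zero_of_lt_order hj

theorem uq_VB.mono {x : LaurentSeries L} {N M : ℤ} (h : uq_VB x N) (hMN : M ≤ N) : uq_VB x M :=
  fun j hj => h j (lt_of_lt_of_le hj hMN)

theorem uq_VB.add {x y : LaurentSeries L} {N : ℤ} (hx : uq_VB x N) (hy : uq_VB y N) :
    uq_VB (x + y) N := fun j hj => by
  rw [HahnSeries.coeff_add, hx j hj, hy j hj, add_zero]

theorem uq_VB.sub {x y : LaurentSeries L} {N : ℤ} (hx : uq_VB x N) (hy : uq_VB y N) :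
    uq_VB (x - y) N := fun j hj => by
  rw [HahnSeries.coeff_sub, hx j hj, hy j hj, sub_zero]

theorem uq_VB.le_order {x : LaurentSeries L} {N : ℤ} (h : uq_VB x N) (hx : x ≠ 0) :
    N ≤ x.order := by
  by_contra hlt
  push Not at hlt
  exact (HahnSeries.coeff_order_eq_zero.not.mpr hx) (h _ hlt)

theorem uq_VB_of_order {x : LaurentSeries L} {N : ℤ} (h : x = 0 ∨ N ≤ x.order) : uq_VB x N := by
  rcases h with rfl | h
  · exact uq_VB_zero N
  · exact (uq_VB_order x).mono h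

theorem uq_VB.mul {x y : LaurentSeries L} {N M : ℤ} (hx : uq_VB x N) (hy : uq_VB y M) :
    uq_VB (x * y) (N + M) := by
  rcases eq_or_ne x 0 with rfl | hx0
  · rw [zero_mul]; exact uq_VB_zero _
  rcases eq_or_ne y 0 with rfl | hy0
  · rw [mul_zero]; exact uq_VB_zero _
  apply uq_VB_of_order
  right
  rw [order_mul' hx0 hy0]
  exact add_le_add (hx.le_order hx0) (hy.le_order hy0)

/-- The coefficient of a product in the lowest possible degree. -/
theorem uq_coeff_mul {x y : LaurentSeries L} {N M : ℤ} (hx : uq_VB x N) (hy : uq_VB y M) :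
    (x * y).coeff (N + M) = x.coeff N * y.coeff M := by
  rcases eq_or_ne x 0 with rfl | hx0
  · simp
  rcases eq_or_ne y 0 with rfl | hy0
  · simp
  have h1 := hx.le_order hx0
  have h2 := hy.le_order hy0
  rcases eq_or_lt_of_le h1 with h1' | h1'
  · rcases eq_or_lt_of_le h2 with h2' | h2'
    · rw [h1', h2', HahnSeries.coeff_mul_order_add_order, HahnSeries.leadingCoeff_eq,
        HahnSeries.leadingCoeff_eq]
    · rw [HahnSeries.coeff_eq_zero_of_lt_order h2', mul_zero]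
      apply HahnSeries.coeff_eq_zero_of_lt_order
      rw [order_mul' hx0 hy0]
      omega
  · rw [HahnSeries.coeff_eq_zero_of_lt_order h1', zero_mul]
    apply HahnSeries.coeff_eq_zero_of_lt_order
    rw [order_mul' hx0 hy0]
    omega

theorem uq_VB.pow {x : LaurentSeries L} {N : ℤ} (hx : uq_VB x N) (n : ℕ) :
    uq_VB (x ^ n) (n * N) := by
  induction n with
  | zero =>
    simp only [pow_zero, Nat.cast_zero, zero_mul]
    intro j hj
    rw [HahnSeries.coeff_one, if_neg hj.ne]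
  | succ n ih =>
    rw [pow_succ]
    have := ih.mul hx
    convert this using 1
    push_cast
    ring

theorem uq_coeff_pow {x : LaurentSeries L} {N : ℤ} (hx : uq_VB x N) (n : ℕ) :
    (x ^ n).coeff (n * N) = (x.coeff N) ^ n := by
  induction n with
  | zero => simp [HahnSeries.coeff_one]
  | succ n ih =>
    rw [pow_succ, pow_succ, ← ih, ← uq_coeff_mul (hx.pow n) hx]
    congr 1
    push_cast
    ring

theorem uq_eq_zero_of_VB {x : LaurentSeries L} (h : ∀ n : ℕ, uq_VB x n) : x = 0 := by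
  ext j
  rw [HahnSeries.coeff_zero]
  exact h (j.toNat + 1) j (by push_cast; omega)

theorem uq_VB_C (a : L) : uq_VB (HahnSeries.C a : LaurentSeries L) 0 := by
  apply uq_VB_of_order
  right
  rw [HahnSeries.order_C]

theorem uq_coeff_C (a : L) : (HahnSeries.C a : LaurentSeries L).coeff 0 = a := by
  rw [HahnSeries.C_apply, HahnSeries.coeff_single_same]


/-! ### The `π`-adic expansion argument -/

/-- `𝒪_P = K + π 𝒪_P`. -/
theorem uq_decomp [IsAlgClosed K] (hFF : IsFF1 K F) (P : Place K F) {π : F} (hπ : P.ord π = 1)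
    {g : F} (hg : g ∈ P.toValuationSubring) :
    ∃ (a : K) (g₁ : F), g₁ ∈ P.toValuationSubring ∧ g = algebraMap K F a + π * g₁ := by
  have hπ0 : π ≠ 0 := by
    rintro rfl
    simp at hπ
  obtain ⟨a, ha⟩ := exists_const_sub hFF P hg
  refine ⟨a, (g - algebraMap K F a) * π⁻¹, ?_, ?_⟩
  · rcases ha with ha | ha
    · rw [ha, sub_self, zero_mul]
      exact zero_mem _
    · have hne : g - algebraMap K F a ≠ 0 := by
        intro h0
        rw [h0, P.ord_zero] at ha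
        exact lt_irrefl _ ha
      rw [← ff_ord_nonneg_iff, P.ord_mul hne (inv_ne_zero hπ0), P.ord_inv, hπ]
      omega
  · rw [mul_comm _ π⁻¹, ← mul_assoc, mul_inv_cancel₀ hπ0, one_mul, add_sub_cancel]

/-- The difference of two embeddings on `𝒪_P` is controlled by the difference on `π`. -/
theorem uq_diff_VB [IsAlgClosed K] (hFF : IsFF1 K F) (ι : K →+* L) (P : Place K F)
    (σ₁ σ₂ : F →+* LaurentSeries L)
    (hK₁ : ∀ a : K, σ₁ (algebraMap K F a) = HahnSeries.C (ι a))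
    (hK₂ : ∀ a : K, σ₂ (algebraMap K F a) = HahnSeries.C (ι a))
    (h₁ : Induces σ₁ P) (h₂ : Induces σ₂ P) {π : F} (hπ : P.ord π = 1) {k R : ℤ} (hk : 0 ≤ k)
    (hθ : uq_VB (σ₁ π) k) (hδ : uq_VB (σ₁ π - σ₂ π) R) (n : ℕ) :
    ∀ g : F, g ∈ P.toValuationSubring → uq_VB (σ₁ g - σ₂ g) (min (n * k) R) := by
  induction n with
  | zero =>
    intro g hg
    have hg1 : uq_VB (σ₁ g) 0 := uq_VB_of_order (Or.inr ((h₁ g).mp hg))
    have hg2 : uq_VB (σ₂ g) 0 := uq_VB_of_order (Or.inr ((h₂ g).mp hg))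
    exact (hg1.sub hg2).mono (by simp)
  | succ n ih =>
    intro g hg
    obtain ⟨a, g₁, hg₁, rfl⟩ := uq_decomp hFF P hπ hg
    have hg2 : uq_VB (σ₂ g₁) 0 := uq_VB_of_order (Or.inr ((h₂ g₁).mp hg₁))
    have key : σ₁ (algebraMap K F a + π * g₁) - σ₂ (algebraMap K F a + π * g₁)
        = σ₁ π * (σ₁ g₁ - σ₂ g₁) + (σ₁ π - σ₂ π) * σ₂ g₁ := by
      rw [map_add, map_add, map_mul, map_mul, hK₁, hK₂]
      ring
    rw [key]
    have hsucc : ((n + 1 : ℕ) : ℤ) * k = n * k + k := by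
      push_cast
      ring
    rw [hsucc]
    apply uq_VB.add
    · refine (hθ.mul (ih g₁ hg₁)).mono ?_
      rcases le_total ((n : ℤ) * k) R with h | h
      · rw [min_eq_left h]
        exact le_trans (min_le_left _ _) (by omega)
      · rw [min_eq_right h]
        exact le_trans (min_le_right _ _) (by omega)
    · refine (hδ.mul hg2).mono ?_
      exact le_trans (min_le_right _ _) (by omega)

/-- The leading term of `θ₁ ^ (m + 1) - θ₂ ^ (m + 1)`. -/
theorem uq_pow_sub_pow (θ₁ θ₂ : LaurentSeries L) {k r : ℤ} {c : L} (h1 : uq_VB θ₁ k)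
    (h2 : uq_VB θ₂ k) (hc1 : θ₁.coeff k = c) (hc2 : θ₂.coeff k = c)
    (hδ : uq_VB (θ₁ - θ₂) r) (m : ℕ) :
    uq_VB (θ₁ ^ (m + 1) - θ₂ ^ (m + 1)) (r + m * k) ∧
      (θ₁ ^ (m + 1) - θ₂ ^ (m + 1)).coeff (r + m * k) = (m + 1) * c ^ m * (θ₁ - θ₂).coeff r := by
  induction m with
  | zero => simpa using hδ
  | succ m ih =>
    obtain ⟨ihV, ihc⟩ := ih
    have key : θ₁ ^ (m + 1 + 1) - θ₂ ^ (m + 1 + 1)
        = θ₁ * (θ₁ ^ (m + 1) - θ₂ ^ (m + 1)) + (θ₁ - θ₂) * θ₂ ^ (m + 1) := by ring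
    have e1 : r + ((m + 1 : ℕ) : ℤ) * k = k + (r + m * k) := by
      push_cast
      ring
    have e2 : r + ((m + 1 : ℕ) : ℤ) * k = r + ((m + 1 : ℕ) : ℤ) * k := rfl
    have hp := h2.pow (m + 1)
    have hpc := uq_coeff_pow h2 (m + 1)
    refine ⟨?_, ?_⟩
    · rw [key]
      apply uq_VB.add
      · rw [e1]
        exact h1.mul ihV
      · exact hδ.mul hp
    · rw [key, HahnSeries.coeff_add]
      have t1 : (θ₁ * (θ₁ ^ (m + 1) - θ₂ ^ (m + 1))).coeff (r + ((m + 1 : ℕ) : ℤ) * k)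
          = c * ((m + 1) * c ^ m * (θ₁ - θ₂).coeff r) := by
        rw [e1, uq_coeff_mul h1 ihV, hc1, ihc]
      have t2 : ((θ₁ - θ₂) * θ₂ ^ (m + 1)).coeff (r + ((m + 1 : ℕ) : ℤ) * k)
          = (θ₁ - θ₂).coeff r * c ^ (m + 1) := by
        rw [uq_coeff_mul hδ hp, hpc, hc2]
      rw [t1, t2]
      push_cast
      ring

theorem embedding_eq_of_leadingCoeff_eq [IsAlgClosed K] [CharZero L] (hFF : IsFF1 K F)
    (ι : K →+* L) (P : Place K F) (σ₁ σ₂ : F →+* LaurentSeries L)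
    (hK₁ : ∀ a : K, σ₁ (algebraMap K F a) = HahnSeries.C (ι a))
    (hK₂ : ∀ a : K, σ₂ (algebraMap K F a) = HahnSeries.C (ι a))
    (h₁ : Induces σ₁ P) (h₂ : Induces σ₂ P) {t : F} (ht : 0 < P.ord t) (hσt : σ₁ t = σ₂ t)
    {π : F} (hπ : P.ord π = 1) (hlc : (σ₁ π).leadingCoeff = (σ₂ π).leadingCoeff) :
    σ₁ = σ₂ := by
  have hπ0 : π ≠ 0 := by
    rintro rfl
    simp at hπ
  have ht0 : t ≠ 0 := by
    rintro rfl
    simp at ht
  obtain ⟨k₁, hk₁pos, hk₁⟩ := h₁.exists_index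
  obtain ⟨k₂, hk₂pos, hk₂⟩ := h₂.exists_index
  have hkk : (k₁ : ℤ) = k₂ := by
    have e1 := hk₁ t ht0
    have e2 := hk₂ t ht0
    rw [hσt] at e1
    exact mul_right_cancel₀ ht.ne' (e1.symm.trans e2)
  have hθ₁ : (σ₁ π).order = k₁ := by rw [hk₁ π hπ0, hπ, mul_one]
  have hθ₂ : (σ₂ π).order = k₁ := by rw [hk₂ π hπ0, hπ, mul_one, hkk]
  have hkpos : (0 : ℤ) < k₁ := by exact_mod_cast hk₁pos
  have hV1 : uq_VB (σ₁ π) k₁ := uq_VB_of_order (Or.inr hθ₁.ge)
  have hV2 : uq_VB (σ₂ π) k₁ := uq_VB_of_order (Or.inr hθ₂.ge)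
  have hc1 : (σ₁ π).coeff k₁ = (σ₁ π).leadingCoeff := by
    rw [HahnSeries.leadingCoeff_eq, hθ₁]
  have hc2 : (σ₂ π).coeff k₁ = (σ₁ π).leadingCoeff := by
    rw [hlc, HahnSeries.leadingCoeff_eq, hθ₂]
  have hcne : (σ₁ π).leadingCoeff ≠ 0 :=
    HahnSeries.leadingCoeff_ne_zero.mpr (pb_map_ne_zero σ₁ hπ0)
  -- Step 1: `σ₁ π = σ₂ π`
  have hδ0 : σ₁ π - σ₂ π = 0 := by
    by_contra hδne
    have hVδ : uq_VB (σ₁ π - σ₂ π) (k₁ + 1) := by
      intro j hj
      rcases eq_or_lt_of_le (Int.lt_add_one_iff.mp hj) with rfl | hj'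
      · rw [HahnSeries.coeff_sub, hc1, hc2, sub_self]
      · rw [HahnSeries.coeff_sub, hV1 j hj', hV2 j hj', sub_self]
    have hkr : (k₁ : ℤ) + 1 ≤ (σ₁ π - σ₂ π).order := hVδ.le_order hδne
    have hVr : uq_VB (σ₁ π - σ₂ π) (σ₁ π - σ₂ π).order := uq_VB_order _
    have hd : (σ₁ π - σ₂ π).coeff (σ₁ π - σ₂ π).order ≠ 0 :=
      HahnSeries.coeff_order_eq_zero.not.mpr hδne
    -- the difference on `𝒪_P`
    have hVu : ∀ g : F, g ∈ P.toValuationSubring →
        uq_VB (σ₁ g - σ₂ g) (σ₁ π - σ₂ π).order := by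
      intro g hg
      have := uq_diff_VB hFF ι P σ₁ σ₂ hK₁ hK₂ h₁ h₂ hπ hkpos.le hV1 hVr
        (σ₁ π - σ₂ π).order.toNat g hg
      refine this.mono (le_min ?_ le_rfl)
      have h1 : (σ₁ π - σ₂ π).order ≤ ((σ₁ π - σ₂ π).order.toNat : ℤ) := Int.self_le_toNat _
      have h2 : ((σ₁ π - σ₂ π).order.toNat : ℤ) ≤ ((σ₁ π - σ₂ π).order.toNat : ℤ) * k₁ := by
        nlinarith [Int.natCast_nonneg (σ₁ π - σ₂ π).order.toNat]
      exact le_trans h1 h2
    -- `t = u π ^ (m + 1)`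
    obtain ⟨m, hm⟩ : ∃ m : ℕ, P.ord t = (m : ℤ) + 1 := ⟨(P.ord t - 1).toNat, by omega⟩
    have hπm : π ^ (m + 1) ≠ 0 := pow_ne_zero _ hπ0
    have hordπm : P.ord (π ^ (m + 1)) = (m : ℤ) + 1 := by
      rw [← zpow_natCast, P.ord_zpow, hπ]
      push_cast
      ring
    obtain ⟨u, hu0, hordu, htu⟩ : ∃ u : F, u ≠ 0 ∧ P.ord u = 0 ∧ t = u * π ^ (m + 1) := by
      refine ⟨t * (π ^ (m + 1))⁻¹, mul_ne_zero ht0 (inv_ne_zero hπm), ?_, ?_⟩
      · rw [P.ord_mul ht0 (inv_ne_zero hπm), P.ord_inv, hordπm, hm]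
        ring
      · rw [mul_assoc, inv_mul_cancel₀ hπm, mul_one]
    have hu : u ∈ P.toValuationSubring := (ff_ord_nonneg_iff P).mp hordu.ge
    have hσu : (σ₁ u).order = 0 := by
      rw [hk₁ _ hu0, hordu, mul_zero]
    have hVσu : uq_VB (σ₁ u) 0 := uq_VB_of_order (Or.inr hσu.ge)
    have hlu : (σ₁ u).coeff 0 ≠ 0 := by
      rw [← hσu]
      exact HahnSeries.coeff_order_eq_zero.not.mpr (pb_map_ne_zero σ₁ hu0)
    obtain ⟨hDV, hDc⟩ := uq_pow_sub_pow (σ₁ π) (σ₂ π) hV1 hV2 hc1 hc2 hVr m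
    have key : σ₁ t - σ₂ t
        = σ₁ u * ((σ₁ π) ^ (m + 1) - (σ₂ π) ^ (m + 1))
          + (σ₁ u - σ₂ u) * (σ₂ π) ^ (m + 1) := by
      rw [htu, map_mul, map_mul, map_pow, map_pow]
      ring
    have hzero : (σ₁ t - σ₂ t).coeff ((σ₁ π - σ₂ π).order + m * k₁) = 0 := by
      rw [hσt, sub_self, HahnSeries.coeff_zero]
    rw [key, HahnSeries.coeff_add] at hzero
    have t1 : (σ₁ u * ((σ₁ π) ^ (m + 1) - (σ₂ π) ^ (m + 1))).coeff
        ((σ₁ π - σ₂ π).order + m * k₁)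
        = (σ₁ u).coeff 0 * ((m + 1) * (σ₁ π).leadingCoeff ^ m *
          (σ₁ π - σ₂ π).coeff (σ₁ π - σ₂ π).order) := by
      have := uq_coeff_mul hVσu hDV
      rw [zero_add] at this
      rw [this, hDc]
    have t2 : ((σ₁ u - σ₂ u) * (σ₂ π) ^ (m + 1)).coeff
        ((σ₁ π - σ₂ π).order + m * k₁) = 0 := by
      have := (hVu _ hu).mul (hV2.pow (m + 1))
      apply this
      push_cast
      nlinarith
    rw [t1, t2, add_zero] at hzero
    have hm1 : ((m : L) + 1) ≠ 0 := by exact_mod_cast Nat.succ_ne_zero m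
    exact mul_ne_zero hlu (mul_ne_zero (mul_ne_zero hm1 (pow_ne_zero _ hcne)) hd) hzero
  -- Step 2: `σ₁ = σ₂` on `𝒪_P`
  have hall : ∀ g : F, g ∈ P.toValuationSubring → σ₁ g = σ₂ g := by
    intro g hg
    have h0 : σ₁ g - σ₂ g = 0 := by
      apply uq_eq_zero_of_VB
      intro n
      have := uq_diff_VB hFF ι P σ₁ σ₂ hK₁ hK₂ h₁ h₂ hπ hkpos.le hV1
        (R := (n : ℤ) * k₁) (by rw [hδ0]; exact uq_VB_zero _) n g hg
      rw [min_self] at this
      refine this.mono ?_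
      nlinarith [Int.natCast_nonneg n]
    exact sub_eq_zero.mp h0
  apply RingHom.ext
  intro f
  rcases P.toValuationSubring.mem_or_inv_mem f with hf | hf
  · exact hall f hf
  · have := hall _ hf
    rw [map_inv₀, map_inv₀] at this
    exact inv_injective this

theorem uq_leadingCoeff_pow (x : LaurentSeries L) (n : ℕ) :
    (x ^ n).leadingCoeff = x.leadingCoeff ^ n := by
  induction n with
  | zero => simp
  | succ n ih => rw [pow_succ, pow_succ, leadingCoeff_mul', ih]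

/-- At most `ord_P t` of the embeddings of a family which agrees on `t` induce `P`. -/
theorem card_induces_le [IsAlgClosed K] [CharZero L] (hFF : IsFF1 K F) (ι : K →+* L)
    (P : Place K F) {X : Type} [Finite X] (σ : X → F →+* LaurentSeries L)
    (hinj : Function.Injective σ)
    (hK : ∀ (x : X) (a : K), σ x (algebraMap K F a) = HahnSeries.C (ι a)) {t : F}
    (ht : 0 < P.ord t) (hσt : ∀ x y : X, σ x t = σ y t) :
    (Nat.card {x : X // Induces (σ x) P} : ℤ) ≤ P.ord t := by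
  classical
  obtain ⟨π, hπ⟩ := exists_ord_eq_one P
  have hπ0 : π ≠ 0 := by
    rintro rfl
    simp at hπ
  have ht0 : t ≠ 0 := by
    rintro rfl
    simp at ht
  obtain ⟨e, he⟩ : ∃ e : ℕ, P.ord t = e := ⟨(P.ord t).toNat, by omega⟩
  have hepos : 0 < e := by omega
  have hπe : π ^ e ≠ 0 := pow_ne_zero _ hπ0
  have hordπe : P.ord (π ^ e) = (e : ℤ) := by
    rw [← zpow_natCast, P.ord_zpow, hπ, mul_one]
  obtain ⟨u, hu0, hordu, htu⟩ : ∃ u : F, u ≠ 0 ∧ P.ord u = 0 ∧ t = u * π ^ e := by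
    refine ⟨t * (π ^ e)⁻¹, mul_ne_zero ht0 (inv_ne_zero hπe), ?_, ?_⟩
    · rw [P.ord_mul ht0 (inv_ne_zero hπe), P.ord_inv, hordπe, he]
      ring
    · rw [mul_assoc, inv_mul_cancel₀ hπe, mul_one]
  have hu : u ∈ P.toValuationSubring := (ff_ord_nonneg_iff P).mp hordu.ge
  obtain ⟨a, ha⟩ := exists_const_sub hFF P hu
  have ha0 : a ≠ 0 := by
    rintro rfl
    rw [map_zero, sub_zero] at ha
    rcases ha with ha | ha
    · exact hu0 ha
    · omega
  have hιa : ι a ≠ 0 := (map_ne_zero ι).mpr ha0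
  -- the leading coefficient of `σ_x u`
  have hlcu : ∀ x : X, Induces (σ x) P → (σ x u).leadingCoeff = ι a := by
    intro x hx
    obtain ⟨k, hkpos, hk⟩ := hx.exists_index
    have hord : (σ x u).order = 0 := by rw [hk u hu0, hordu, mul_zero]
    rw [HahnSeries.leadingCoeff_eq, hord]
    have h1 : σ x u = HahnSeries.C (ι a) + σ x (u - algebraMap K F a) := by
      rw [map_sub, hK]
      ring
    have h2 : (σ x (u - algebraMap K F a)).coeff 0 = 0 := by
      rcases ha with ha | ha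
      · rw [← ha, sub_self, map_zero, HahnSeries.coeff_zero]
      · have hne : u - algebraMap K F a ≠ 0 := by
          intro h0
          rw [h0, P.ord_zero] at ha
          exact lt_irrefl _ ha
        apply HahnSeries.coeff_eq_zero_of_lt_order
        rw [hk _ hne]
        have : (0 : ℤ) < k := by exact_mod_cast hkpos
        positivity
    rw [h1, HahnSeries.coeff_add, uq_coeff_C, h2, add_zero]
  have hpow : ∀ x : X, Induces (σ x) P →
      (σ x π).leadingCoeff ^ e * ι a = (σ x t).leadingCoeff := by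
    intro x hx
    rw [htu, map_mul, map_pow, leadingCoeff_mul', hlcu x hx, uq_leadingCoeff_pow, mul_comm]
  rcases isEmpty_or_nonempty {x : X // Induces (σ x) P} with hemp | ⟨⟨x₀, hx₀⟩⟩
  · rw [Nat.card_of_isEmpty]
    exact_mod_cast ht.le
  have hroot : ∀ y : {x : X // Induces (σ x) P}, (σ y.1 π).leadingCoeff ∈
      (Polynomial.nthRoots e ((σ x₀ π).leadingCoeff ^ e)).toFinset := by
    rintro ⟨y, hy⟩
    rw [Multiset.mem_toFinset, Polynomial.mem_nthRoots hepos]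
    have h1 := hpow y hy
    have h2 := hpow x₀ hx₀
    rw [hσt y x₀, ← h2] at h1
    exact mul_right_cancel₀ hιa h1
  have hinjφ : Function.Injective (fun y : {x : X // Induces (σ x) P} =>
      (⟨(σ y.1 π).leadingCoeff, hroot y⟩ :
        (Polynomial.nthRoots e ((σ x₀ π).leadingCoeff ^ e)).toFinset)) := by
    intro y y' hyy'
    have h1 : (σ y.1 π).leadingCoeff = (σ y'.1 π).leadingCoeff := congrArg Subtype.val hyy'
    have h2 := embedding_eq_of_leadingCoeff_eq hFF ι P (σ y.1) (σ y'.1) (hK y.1) (hK y'.1)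
      y.2 y'.2 ht (hσt _ _) hπ h1
    exact Subtype.ext (hinj h2)
  have hcard := Nat.card_le_card_of_injective _ hinjφ
  have hcard2 : Nat.card (Polynomial.nthRoots e ((σ x₀ π).leadingCoeff ^ e)).toFinset
      = (Polynomial.nthRoots e ((σ x₀ π).leadingCoeff ^ e)).toFinset.card := by
    rw [Nat.card_eq_fintype_card, Fintype.card_coe]
  rw [hcard2] at hcard
  have h3 : (Polynomial.nthRoots e ((σ x₀ π).leadingCoeff ^ e)).toFinset.card ≤ e :=
    le_trans (Multiset.toFinset_card_le _) (Polynomial.card_nthRoots e _)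
  rw [he]
  exact_mod_cast le_trans hcard h3

end Fermat.Agent.S24
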